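import Mathlib.Analysis.SpecialFunctions.Log.Basic
import Mathlib.NumberTheory.NumberField.DedekindZeta
import Mathlib.NumberTheory.SumPrimeReciprocals
import Mathlib.RingTheory.DedekindDomain.Factorization
import Mathlib.RingTheory.DedekindDomain.Ideal.Lemmas

/-!
# The logarithm of a Dedekind zeta function and primes of degree one

The primes of degree one have logarithmic density one: the analytic input of `Gal/Density`.
-/

noncomputable section

open Filter Topology
open scoped NumberField ENNReal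
open IsDedekindDomain

namespace Fermat.Agent.Gal

variable (K : Type) [Field K] [NumberField K]

/-- The number of ideals of norm `n`. -/
def normCount (n : ℕ) : ℕ := Nat.card {I : Ideal (𝓞 K) // Ideal.absNorm I = n}

/-- The Dedekind zeta series on the real axis. -/
def zetaReal (s : ℝ) : ℝ := ∑' n : ℕ, if n = 0 then 0 else (normCount K n : ℝ) * (n : ℝ) ^ (-s)

/-- The series is the Dedekind zeta function on the real axis. -/
theorem dedekindZeta_eq_zetaReal (s : ℝ) :
    NumberField.dedekindZeta K (s : ℂ) = (zetaReal K s : ℂ) := by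
  rw [NumberField.dedekindZeta, zetaReal, Complex.ofReal_tsum, LSeries]
  refine tsum_congr fun n => ?_
  rcases eq_or_ne n 0 with rfl | hn
  · simp
  rw [LSeries.term_of_ne_zero hn, if_neg hn, Complex.ofReal_mul, Complex.ofReal_natCast,
    Complex.ofReal_cpow (Nat.cast_nonneg n), Complex.ofReal_natCast, Complex.ofReal_neg,
    Complex.cpow_neg, div_eq_mul_inv]
  rfl

/-- The simple pole at `s = 1`. -/
theorem tendsto_sub_one_mul_zetaReal :
    Tendsto (fun s : ℝ => (s - 1) * zetaReal K s) (𝓝[>] 1)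
      (𝓝 (NumberField.dedekindZeta_residue K)) := by
  have h := (Complex.continuous_re.tendsto _).comp
    (NumberField.tendsto_sub_one_mul_dedekindZeta_nhdsGT K)
  rw [Complex.ofReal_re] at h
  refine h.congr fun s => ?_
  rw [Function.comp_apply, dedekindZeta_eq_zetaReal]
  simp

/-- The weight `N(p) ^ (-s)` of a prime ideal. -/
def primeWeight (s : ℝ) (p : HeightOneSpectrum (𝓞 K)) : ℝ :=
  (Ideal.absNorm p.asIdeal : ℝ) ^ (-s)

variable {K}

theorem two_le_absNorm (p : HeightOneSpectrum (𝓞 K)) : 2 ≤ Ideal.absNorm p.asIdeal := by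
  have h0 : Ideal.absNorm p.asIdeal ≠ 0 := mt Ideal.absNorm_eq_zero_iff.mp p.ne_bot
  have h1 : Ideal.absNorm p.asIdeal ≠ 1 := mt Ideal.absNorm_eq_one_iff.mp p.isPrime.ne_top
  omega

theorem primeWeight_pos (s : ℝ) (p : HeightOneSpectrum (𝓞 K)) : 0 < primeWeight K s p :=
  Real.rpow_pos_of_pos (Nat.cast_pos.mpr (lt_of_lt_of_le two_pos (two_le_absNorm p))) _

theorem primeWeight_le_half {s : ℝ} (hs : 1 ≤ s) (p : HeightOneSpectrum (𝓞 K)) :
    primeWeight K s p ≤ 1 / 2 := by
  have h2 : (2 : ℝ) ≤ Ideal.absNorm p.asIdeal := by exact_mod_cast two_le_absNorm p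
  calc primeWeight K s p ≤ (Ideal.absNorm p.asIdeal : ℝ) ^ (-1 : ℝ) :=
        Real.rpow_le_rpow_of_exponent_le (by linarith) (by linarith)
    _ ≤ 1 / 2 := by rw [Real.rpow_neg_one, one_div]; gcongr

/-- The weight `N(I) ^ (-s)` of an ideal, as an extended nonnegative real. -/
def idealWeight (s : ℝ) (I : Ideal (𝓞 K)) : ℝ≥0∞ :=
  ENNReal.ofReal ((Ideal.absNorm I : ℝ) ^ (-s))

theorem idealWeight_mul (s : ℝ) (I J : Ideal (𝓞 K)) :
    idealWeight s (I * J) = idealWeight s I * idealWeight s J := by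
  rw [idealWeight, idealWeight, idealWeight, ← ENNReal.ofReal_mul (by positivity), map_mul,
    Nat.cast_mul, Real.mul_rpow (Nat.cast_nonneg _) (Nat.cast_nonneg _)]

theorem idealWeight_top (s : ℝ) : idealWeight s (⊤ : Ideal (𝓞 K)) = 1 := by
  simp [idealWeight]

/-- Nonzero ideals supported on a set of primes. -/
def supported (T : Set (HeightOneSpectrum (𝓞 K))) : Set (Ideal (𝓞 K)) :=
  {I | I ≠ ⊥ ∧ ∀ p : HeightOneSpectrum (𝓞 K), p.asIdeal ∣ I → p ∈ T}

/-- The finite Euler product is the sum over the ideals supported on a finite set. -/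
theorem tsum_supported (s : ℝ) (hs : 1 ≤ s) (T : Finset (HeightOneSpectrum (𝓞 K))) :
    ∑' I : supported (T : Set (HeightOneSpectrum (𝓞 K))), idealWeight s (I : Ideal (𝓞 K)) =
      ENNReal.ofReal (∏ p ∈ T, (1 - primeWeight K s p)⁻¹) := by
  classical
  induction T using Finset.induction with
  | empty =>
    have hset : supported (K := K)
        ((∅ : Finset (HeightOneSpectrum (𝓞 K))) : Set (HeightOneSpectrum (𝓞 K))) = {⊤} := by
      ext I
      simp only [supported, Finset.coe_empty, Set.mem_empty_iff_false, imp_false, Set.mem_ofPred_eq,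
        Set.mem_singleton_iff]
      constructor
      · rintro ⟨hI, h⟩
        by_contra hne
        obtain ⟨M, hM, hle⟩ := I.exists_le_maximal hne
        have hM0 : M ≠ ⊥ := fun h0 => hI (le_bot_iff.mp (h0 ▸ hle))
        exact h ⟨M, hM.isPrime, hM0⟩ (Ideal.dvd_iff_le.mpr hle)
      · rintro rfl
        exact ⟨top_ne_bot, fun p hp => p.isPrime.ne_top (top_le_iff.mp (Ideal.dvd_iff_le.mp hp))⟩
    rw [hset, tsum_singleton ⊤ (idealWeight s), idealWeight_top]
    simp
  | @insert p T hpT ih =>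
    have hp : Prime p.asIdeal := p.prime
    let e : ℕ × supported (T : Set (HeightOneSpectrum (𝓞 K))) →
        supported (↑(insert p T) : Set (HeightOneSpectrum (𝓞 K))) := fun x =>
      ⟨p.asIdeal ^ x.1 * (x.2 : Ideal (𝓞 K)),
        mul_ne_zero (pow_ne_zero _ p.ne_bot) x.2.2.1, fun q hq => by
          rw [Finset.coe_insert]
          rcases q.prime.dvd_or_dvd hq with h | h
          · left
            have := q.prime.dvd_of_dvd_pow h
            exact HeightOneSpectrum.ext
              (associated_iff_eq.mp (q.prime.associated_of_dvd hp this))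
          · exact Or.inr (x.2.2.2 q h)⟩
    have hnd : ∀ J : supported (T : Set (HeightOneSpectrum (𝓞 K))),
        ¬ p.asIdeal ∣ (J : Ideal (𝓞 K)) :=
      fun J h => hpT (J.2.2 p h)
    have hinj : Function.Injective e := by
      rintro ⟨k, J⟩ ⟨k', J'⟩ h
      have h' : p.asIdeal ^ k * (J : Ideal (𝓞 K)) = p.asIdeal ^ k' * (J' : Ideal (𝓞 K)) :=
        congrArg Subtype.val h
      have hk : k = k' := by
        wlog hle : k ≤ k' generalizing k k' J J'
        · exact (this k' J' k J h.symm h'.symm (le_of_not_ge hle)).symm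
        by_contra hne
        have h2 : (J : Ideal (𝓞 K)) = p.asIdeal ^ (k' - k) * (J' : Ideal (𝓞 K)) := by
          refine mul_left_cancel₀ (pow_ne_zero k p.ne_bot) (h'.trans ?_)
          rw [← mul_assoc, ← pow_add]
          congr 2
          omega
        exact hnd J (h2 ▸ (dvd_pow_self p.asIdeal (by omega)).mul_right _)
      subst hk
      exact Prod.ext rfl (Subtype.ext (mul_left_cancel₀ (pow_ne_zero k p.ne_bot) h'))
    have hsurj : Function.Surjective e := by
      rintro ⟨I, hI0, hI⟩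
      obtain ⟨k, J, hJ, rfl⟩ := WfDvdMonoid.max_power_factor hI0 hp.irreducible
      refine ⟨(k, ⟨J, right_ne_zero_of_mul hI0, fun q hq => ?_⟩), rfl⟩
      have := hI q (dvd_mul_of_dvd_right hq _)
      rw [Finset.coe_insert] at this
      rcases this with rfl | h
      · exact absurd hq hJ
      · exact h
    rw [← (Equiv.ofBijective e ⟨hinj, hsurj⟩).tsum_eq, ENNReal.tsum_prod', Finset.prod_insert hpT]
    have hw : ∀ k, idealWeight s (p.asIdeal ^ k) = ENNReal.ofReal (primeWeight K s p) ^ k := by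
      intro k
      induction k with
      | zero => rw [pow_zero, pow_zero, Ideal.one_eq_top, idealWeight_top]
      | succ k ihk => rw [pow_succ, idealWeight_mul, ihk, pow_succ]; rfl
    simp only [Equiv.ofBijective_apply, e, idealWeight_mul, hw, ENNReal.tsum_mul_left,
      ENNReal.tsum_mul_right, ih, ENNReal.tsum_geometric]
    have hlt : primeWeight K s p < 1 := lt_of_le_of_lt (primeWeight_le_half hs p) (by norm_num)
    rw [ENNReal.ofReal_mul (inv_nonneg.mpr (by linarith)), ENNReal.ofReal_inv_of_pos (by linarith),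
      ENNReal.ofReal_sub 1 (primeWeight_pos s p).le, ENNReal.ofReal_one]

/-- The series as a sum over the nonzero ideals. -/
theorem tsum_nonzero_ideals {s : ℝ}
    (h : Summable fun n : ℕ => if n = 0 then 0 else (normCount K n : ℝ) * (n : ℝ) ^ (-s)) :
    ∑' I : {I : Ideal (𝓞 K) // I ≠ ⊥}, idealWeight s (I : Ideal (𝓞 K)) =
      ENNReal.ofReal (zetaReal K s) := by
  rw [zetaReal, ENNReal.ofReal_tsum_of_nonneg (fun n => by split_ifs <;> positivity) h,
    ← ENNReal.tsum_fiberwise _ fun I : {I : Ideal (𝓞 K) // I ≠ ⊥} =>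
      Ideal.absNorm (I : Ideal (𝓞 K))]
  refine tsum_congr fun n => ?_
  rcases eq_or_ne n 0 with rfl | hn
  · rw [if_pos rfl, ENNReal.ofReal_zero, ENNReal.tsum_eq_zero]
    rintro ⟨⟨I, hI⟩, h0⟩
    exact absurd (Ideal.absNorm_eq_zero_iff.mp h0) hI
  · have hconst :
      ∀ x : ((fun I : {I : Ideal (𝓞 K) // I ≠ ⊥} => Ideal.absNorm (I : Ideal (𝓞 K))) ⁻¹' {n}),
        idealWeight s ((x : {I : Ideal (𝓞 K) // I ≠ ⊥}) : Ideal (𝓞 K)) =
          ENNReal.ofReal ((n : ℝ) ^ (-s)) := fun x => by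
      rw [idealWeight, show Ideal.absNorm ((x : {I : Ideal (𝓞 K) // I ≠ ⊥}) : Ideal (𝓞 K)) = n
        from x.2]
    simp only [hconst]
    let e : ((fun I : {I : Ideal (𝓞 K) // I ≠ ⊥} => Ideal.absNorm (I : Ideal (𝓞 K))) ⁻¹' {n}) ≃
        {I : Ideal (𝓞 K) // Ideal.absNorm I = n} :=
      { toFun := fun x => ⟨x.1.1, x.2⟩
        invFun := fun I => ⟨⟨I.1, fun h => hn (by rw [← I.2, h, Ideal.absNorm_bot])⟩, I.2⟩
        left_inv := fun _ => rfl
        right_inv := fun _ => rfl }
    have : Finite {I : Ideal (𝓞 K) // Ideal.absNorm I = n} :=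
      (Ideal.finite_setOfPred_absNorm_eq (S := 𝓞 K) n).to_subtype
    have := Finite.of_equiv _ e.symm
    have := Fintype.ofFinite ((fun I : {I : Ideal (𝓞 K) // I ≠ ⊥} =>
      Ideal.absNorm (I : Ideal (𝓞 K))) ⁻¹' {n})
    rw [tsum_fintype, Finset.sum_const, Finset.card_univ, ← Nat.card_eq_fintype_card,
      Nat.card_congr e, nsmul_eq_mul, if_neg hn, ENNReal.ofReal_mul (Nat.cast_nonneg _),
      ENNReal.ofReal_natCast]
    rfl

/-- Every finite Euler product is at most the zeta series. -/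
theorem prod_le_zetaReal {s : ℝ} (hs : 1 ≤ s) (h0 : 0 < zetaReal K s)
    (h : Summable fun n : ℕ => if n = 0 then 0 else (normCount K n : ℝ) * (n : ℝ) ^ (-s))
    (T : Finset (HeightOneSpectrum (𝓞 K))) :
    ∏ p ∈ T, (1 - primeWeight K s p)⁻¹ ≤ zetaReal K s := by
  rw [← ENNReal.ofReal_le_ofReal_iff h0.le, ← tsum_supported s hs T, ← tsum_nonzero_ideals h]
  exact ENNReal.tsum_comp_le_tsum_of_injective
    (f := fun I : supported (T : Set (HeightOneSpectrum (𝓞 K))) =>
      (⟨I.1, I.2.1⟩ : {I : Ideal (𝓞 K) // I ≠ ⊥}))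
    (fun a b hab => Subtype.ext (congrArg Subtype.val hab :)) fun I => idealWeight s I.1

/-- A bound on all finite Euler products bounds the zeta series. -/
theorem zetaReal_le_of_prod_le {s B : ℝ} (hs : 1 ≤ s) (hB : 0 ≤ B)
    (h : Summable fun n : ℕ => if n = 0 then 0 else (normCount K n : ℝ) * (n : ℝ) ^ (-s))
    (hprod : ∀ T : Finset (HeightOneSpectrum (𝓞 K)), ∏ p ∈ T, (1 - primeWeight K s p)⁻¹ ≤ B) :
    zetaReal K s ≤ B := by
  classical
  rw [← ENNReal.ofReal_le_ofReal_iff hB, ← tsum_nonzero_ideals h, ENNReal.tsum_eq_iSup_sum]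
  refine iSup_le fun F => ?_
  let T : Finset (HeightOneSpectrum (𝓞 K)) := F.biUnion fun I => (Ideal.finite_factors I.2).toFinset
  refine le_trans ?_ ((tsum_supported s hs T).le.trans (ENNReal.ofReal_le_ofReal (hprod T)))
  let j : F → supported (T : Set (HeightOneSpectrum (𝓞 K))) := fun I => ⟨I.1.1, I.1.2, fun p hp =>
    Finset.mem_coe.mpr (Finset.mem_biUnion.mpr ⟨I.1, I.2, (Set.Finite.mem_toFinset _).mpr hp⟩)⟩
  have hj : Function.Injective j := fun a b hab =>
    Subtype.ext (Subtype.ext (congrArg (fun x : supported _ => (x : Ideal (𝓞 K))) hab))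
  refine le_trans (le_of_eq ?_) (ENNReal.tsum_comp_le_tsum_of_injective hj _)
  rw [tsum_fintype]
  exact (Finset.sum_coe_sort F fun I => idealWeight s I.1).symm

/-- Every prime ideal contains a rational prime dividing its norm. -/
theorem exists_prime_pow_absNorm (p : HeightOneSpectrum (𝓞 K)) :
    ∃ ℓ : ℕ, ℓ.Prime ∧ (ℓ : 𝓞 K) ∈ p.asIdeal ∧ ℓ ∣ Ideal.absNorm p.asIdeal := by
  suffices ∀ n : ℕ, n ≠ 0 → (n : 𝓞 K) ∈ p.asIdeal → ∃ ℓ : ℕ, ℓ.Prime ∧ (ℓ : 𝓞 K) ∈ p.asIdeal ∧
      ℓ ∣ n from this _ (by have := two_le_absNorm p; omega) (Ideal.absNorm_mem _)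
  intro n
  induction n using induction_on_primes with
  | zero => exact fun h => absurd rfl h
  | one =>
    intro _ h
    exact absurd ((Ideal.eq_top_iff_one _).mpr (by simpa using h)) p.isPrime.ne_top
  | prime_mul q a hq ih =>
    intro hne hmem
    rw [Nat.cast_mul] at hmem
    rcases p.isPrime.mem_or_mem hmem with h | h
    · exact ⟨q, hq, h, dvd_mul_right _ _⟩
    · obtain ⟨ℓ, hℓ, h1, h2⟩ := ih (right_ne_zero_of_mul hne) h
      exact ⟨ℓ, hℓ, h1, dvd_mul_of_dvd_right h2 _⟩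

/-- At most `[K : ℚ]` primes lie over `ℓ`. -/
theorem card_primes_over_le {ℓ : ℕ} (hℓ : ℓ.Prime) (T : Finset (HeightOneSpectrum (𝓞 K)))
    (hT : ∀ p ∈ T, (ℓ : 𝓞 K) ∈ p.asIdeal) :
    T.card ≤ Module.finrank ℚ K := by
  classical
  have hdvd : ∏ p ∈ T, p.asIdeal ∣ Ideal.span {(ℓ : 𝓞 K)} := by
    have h := Finset.prod_primes_dvd (s := T.image fun p => p.asIdeal)
      (Ideal.span {(ℓ : 𝓞 K)}) (fun I hI => by
        obtain ⟨p, -, rfl⟩ := Finset.mem_image.mp hI; exact p.prime)
      (fun I hI => by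
        obtain ⟨p, hp, rfl⟩ := Finset.mem_image.mp hI
        exact Ideal.dvd_span_singleton.mpr (hT p hp))
    rwa [Finset.prod_image fun a _ b _ hab => HeightOneSpectrum.ext hab] at h
  have hn := map_dvd Ideal.absNorm hdvd
  have hnorm : Ideal.absNorm (Ideal.span {(ℓ : 𝓞 K)}) = ℓ ^ Module.finrank ℚ K := by
    rw [Ideal.absNorm_span_singleton, ← map_natCast (algebraMap ℤ (𝓞 K)), Algebra.norm_algebraMap,
      Int.natAbs_pow, Int.natAbs_natCast, NumberField.RingOfIntegers.rank]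
  rw [hnorm, map_prod] at hn
  have hpow : ℓ ^ T.card ∣ ∏ p ∈ T, Ideal.absNorm p.asIdeal := by
    rw [← Finset.prod_const]
    refine Finset.prod_dvd_prod_of_dvd _ _ fun p hp => ?_
    obtain ⟨q, hq, hqp, hqn⟩ := exists_prime_pow_absNorm p
    have : q = ℓ := by
      by_contra hne
      have hco : IsCoprime (q : 𝓞 K) (ℓ : 𝓞 K) := by
        simpa using ((Nat.coprime_primes hq hℓ).mpr hne).isCoprime.intCast (R := 𝓞 K)
      obtain ⟨a, b, hab⟩ := hco
      exact p.isPrime.ne_top ((Ideal.eq_top_iff_one _).mpr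
        (hab ▸ add_mem (Ideal.mul_mem_left _ a hqp) (Ideal.mul_mem_left _ b (hT p hp))))
    exact this ▸ hqn
  exact (Nat.pow_dvd_pow_iff_le_right hℓ.one_lt).mp (hpow.trans hn)

/-- The height one primes whose norm is a given prime are the ideals of that norm. -/
def primesOfPrimeNormEquiv :
    {p : HeightOneSpectrum (𝓞 K) // (Ideal.absNorm p.asIdeal).Prime} ≃
      Σ ℓ : Nat.Primes, {I : Ideal (𝓞 K) // Ideal.absNorm I = (ℓ : ℕ)} where
  toFun p := ⟨⟨_, p.2⟩, p.1.asIdeal, rfl⟩
  invFun x := ⟨⟨x.2.1,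
      Ideal.isPrime_of_irreducible_absNorm (by rw [x.2.2]; exact x.1.2),
      fun h => x.1.2.ne_zero (by rw [← x.2.2, h, Ideal.absNorm_bot])⟩,
    by rw [show Ideal.absNorm x.2.1 = (x.1 : ℕ) from x.2.2]; exact x.1.2⟩
  left_inv p := rfl
  right_inv := fun ⟨ℓ, I, hI⟩ => by
    obtain ⟨ℓ, hℓ⟩ := ℓ
    simp only at hI
    subst hI
    rfl

/-- At most `[K : ℚ]` ideals have a given prime norm. -/
theorem normCount_le (ℓ : Nat.Primes) : normCount K ℓ ≤ Module.finrank ℚ K := by
  classical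
  have : Finite {I : Ideal (𝓞 K) // Ideal.absNorm I = (ℓ : ℕ)} :=
    (Ideal.finite_setOfPred_absNorm_eq (S := 𝓞 K) (ℓ : ℕ)).to_subtype
  have := Fintype.ofFinite {I : Ideal (𝓞 K) // Ideal.absNorm I = (ℓ : ℕ)}
  let j : {I : Ideal (𝓞 K) // Ideal.absNorm I = (ℓ : ℕ)} → HeightOneSpectrum (𝓞 K) := fun I =>
    ((primesOfPrimeNormEquiv (K := K)).symm ⟨ℓ, I⟩).1
  have hj : Function.Injective j := fun a b h =>
    Subtype.ext (congrArg HeightOneSpectrum.asIdeal h :)
  rw [normCount, Nat.card_eq_fintype_card, ← Finset.card_univ,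
    ← Finset.card_image_of_injective _ hj]
  refine card_primes_over_le ℓ.2 _ fun p hp => ?_
  obtain ⟨I, -, rfl⟩ := Finset.mem_image.mp hp
  have := Ideal.absNorm_mem I.1
  rwa [show Ideal.absNorm I.1 = (ℓ : ℕ) from I.2] at this

/-- The primes of nonprime norm contribute a bounded sum. -/
theorem sum_nonprime_norm_le {s : ℝ} (hs : 1 ≤ s) (T : Finset (HeightOneSpectrum (𝓞 K)))
    (hT : ∀ p ∈ T, ¬ (Ideal.absNorm p.asIdeal).Prime) :
    ∑ p ∈ T, primeWeight K s p ≤
      Module.finrank ℚ K * ∑' ℓ : Nat.Primes, ((ℓ : ℕ) : ℝ) ^ (-2 : ℝ) := by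
  classical
  have hsum : Summable fun ℓ : Nat.Primes => ((ℓ : ℕ) : ℝ) ^ (-2 : ℝ) :=
    Nat.Primes.summable_rpow.mpr (by norm_num)
  choose q hq hqp hqn using fun p : HeightOneSpectrum (𝓞 K) => exists_prime_pow_absNorm p
  let π : HeightOneSpectrum (𝓞 K) → Nat.Primes := fun p => ⟨q p, hq p⟩
  have hw : ∀ p ∈ T, primeWeight K s p ≤ ((π p : ℕ) : ℝ) ^ (-2 : ℝ) := fun p hp => by
    obtain ⟨m, hm⟩ := hqn p
    have hm2 : q p ≤ m := by
      have hnp := hT p hp
      rw [hm] at hnp
      have hm1 : m ≠ 1 := fun h => hnp (by rw [h, mul_one]; exact hq p)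
      have hm0 : m ≠ 0 := fun h => by
        have := two_le_absNorm p; rw [hm, h, mul_zero] at this; omega
      obtain ⟨r, hr, hrm⟩ := Nat.exists_prime_and_dvd hm1
      have hdvd : Ideal.absNorm p.asIdeal ∣ (q p) ^ Module.finrank ℚ K := by
        have := Ideal.absNorm_dvd_norm_of_mem (hqp p)
        rw [← map_natCast (algebraMap ℤ (𝓞 K)), Algebra.norm_algebraMap,
          NumberField.RingOfIntegers.rank] at this
        exact_mod_cast this
      have : r ∣ q p := hr.dvd_of_dvd_pow ((hrm.trans (dvd_mul_left m (q p))).trans (hm ▸ hdvd))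
      rw [(Nat.prime_dvd_prime_iff_eq hr (hq p)).mp this] at hrm
      exact Nat.le_of_dvd (Nat.pos_of_ne_zero hm0) hrm
    have hq0 : (0 : ℝ) < q p := by exact_mod_cast (hq p).pos
    have hN : ((q p : ℝ)) ^ (2 : ℝ) ≤ (Ideal.absNorm p.asIdeal : ℝ) := by
      rw [Real.rpow_two, hm, Nat.cast_mul, pow_two]
      gcongr
    calc primeWeight K s p ≤ (Ideal.absNorm p.asIdeal : ℝ) ^ (-1 : ℝ) :=
          Real.rpow_le_rpow_of_exponent_le
            (by exact_mod_cast (one_le_two.trans (two_le_absNorm p))) (by linarith)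
      _ ≤ ((q p : ℝ) ^ (2 : ℝ)) ^ (-1 : ℝ) :=
          Real.rpow_le_rpow_of_nonpos (by positivity) hN (by norm_num)
      _ = ((q p : ℝ)) ^ (-2 : ℝ) := by rw [← Real.rpow_mul hq0.le]; norm_num
  calc ∑ p ∈ T, primeWeight K s p ≤ ∑ p ∈ T, ((π p : ℕ) : ℝ) ^ (-2 : ℝ) := Finset.sum_le_sum hw
    _ = ∑ ℓ ∈ T.image π, ∑ p ∈ T with π p = ℓ, ((π p : ℕ) : ℝ) ^ (-2 : ℝ) :=
        (Finset.sum_fiberwise_of_maps_to (fun p hp => Finset.mem_image_of_mem _ hp) _).symm
    _ ≤ ∑ ℓ ∈ T.image π, (Module.finrank ℚ K : ℝ) * ((ℓ : ℕ) : ℝ) ^ (-2 : ℝ) := by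
        refine Finset.sum_le_sum fun ℓ _ => ?_
        rw [Finset.sum_congr rfl fun p hp => by rw [(Finset.mem_filter.mp hp).2], Finset.sum_const,
          nsmul_eq_mul]
        gcongr
        exact card_primes_over_le ℓ.2 _ fun p hp => (Finset.mem_filter.mp hp).2 ▸ hqp p
    _ = (Module.finrank ℚ K : ℝ) * ∑ ℓ ∈ T.image π, ((ℓ : ℕ) : ℝ) ^ (-2 : ℝ) :=
        (Finset.mul_sum ..).symm
    _ ≤ _ := by
        gcongr
        exact hsum.sum_le_tsum _ fun ℓ _ => by positivity

/-- The lower Euler factor bound `exp x ≤ 1 / (1 - x)`. -/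
theorem exp_le_inv_one_sub {x : ℝ} (hx : x < 1) : Real.exp x ≤ (1 - x)⁻¹ := by
  have h := Real.add_one_le_exp (-x)
  rw [Real.exp_neg] at h
  rw [le_inv_comm₀ (Real.exp_pos x) (by linarith)]
  linarith

/-- The upper Euler factor bound `1 / (1 - x) ≤ exp (x + 2 x ^ 2)` for `x ≤ 1 / 2`. -/
theorem inv_one_sub_le_exp {x : ℝ} (_hx0 : 0 ≤ x) (hx : x ≤ 1 / 2) :
    (1 - x)⁻¹ ≤ Real.exp (x + 2 * x ^ 2) := by
  calc (1 - x)⁻¹ = x / (1 - x) + 1 := by
        rw [div_add_one (by linarith), add_sub_cancel, one_div]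
    _ ≤ Real.exp (x / (1 - x)) := Real.add_one_le_exp _
    _ ≤ _ := by
        gcongr
        rw [div_le_iff₀ (by linarith)]
        nlinarith

variable (K)

variable {K} in
/-- The sum over the primes of prime norm, sorted by the norm. -/
theorem tsum_prime_norm_eq {s : ℝ} (hsumP : Summable (primeWeight K s)) :
    (∑' p : {p : HeightOneSpectrum (𝓞 K) // (Ideal.absNorm p.asIdeal).Prime},
      primeWeight K s p) = ∑' ℓ : Nat.Primes, (normCount K ℓ : ℝ) * ((ℓ : ℕ) : ℝ) ^ (-s) := by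
  rw [← (primesOfPrimeNormEquiv (K := K)).symm.tsum_eq]
  refine (Summable.tsum_sigma' (fun ℓ => by
    have : Finite {I : Ideal (𝓞 K) // Ideal.absNorm I = (ℓ : ℕ)} :=
      (Ideal.finite_setOfPred_absNorm_eq (S := 𝓞 K) (ℓ : ℕ)).to_subtype
    exact Summable.of_finite)
    ((hsumP.subtype _).comp_injective (primesOfPrimeNormEquiv (K := K)).symm.injective)).trans
    (tsum_congr fun ℓ => ?_)
  have : Finite {I : Ideal (𝓞 K) // Ideal.absNorm I = (ℓ : ℕ)} :=
    (Ideal.finite_setOfPred_absNorm_eq (S := 𝓞 K) (ℓ : ℕ)).to_subtype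
  have := Fintype.ofFinite {I : Ideal (𝓞 K) // Ideal.absNorm I = (ℓ : ℕ)}
  rw [tsum_fintype]
  simp only [Function.comp_apply]
  rw [Finset.sum_congr rfl fun I _ => show primeWeight K s
    ((primesOfPrimeNormEquiv (K := K)).symm ⟨ℓ, I⟩).1 = ((ℓ : ℕ) : ℝ) ^ (-s) by
      simp [primeWeight, primesOfPrimeNormEquiv, I.2], Finset.sum_const, Finset.card_univ,
    ← Nat.card_eq_fintype_card, nsmul_eq_mul, normCount]

/-- The degree-one prime sum is `log (1 / (s - 1))` up to a bounded error as `s → 1⁺`. -/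
theorem exists_bound_primeSum :
    ∃ C : ℝ, ∀ᶠ s in 𝓝[>] (1 : ℝ),
      |(∑' ℓ : Nat.Primes, (normCount K ℓ : ℝ) * ((ℓ : ℕ) : ℝ) ^ (-s)) - Real.log (s - 1)⁻¹| ≤
        C := by
  classical
  set res := NumberField.dedekindZeta_residue K with hres
  have hrespos : 0 < res := NumberField.dedekindZeta_residue_pos K
  have hev : ∀ᶠ s in 𝓝[>] (1 : ℝ), res / 2 < (s - 1) * zetaReal K s ∧
      (s - 1) * zetaReal K s < 2 * res :=
    (tendsto_sub_one_mul_zetaReal K).eventually (Ioo_mem_nhds (by linarith) (by linarith))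
  have hgood : ∀ s : ℝ, 1 < s → res / 2 < (s - 1) * zetaReal K s →
      0 < zetaReal K s ∧
      Summable fun n : ℕ => if n = 0 then 0 else (normCount K n : ℝ) * (n : ℝ) ^ (-s) := by
    intro s hs h
    have h0 : 0 < zetaReal K s := pos_of_mul_pos_right (lt_trans (by linarith) h) (by linarith)
    exact ⟨h0, by_contra fun hns => h0.ne' (tsum_eq_zero_of_not_summable hns)⟩
  have hlog : ∀ s : ℝ, 1 < s → res / 2 < (s - 1) * zetaReal K s →
      ∀ T : Finset (HeightOneSpectrum (𝓞 K)),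
        ∑ p ∈ T, primeWeight K s p ≤ Real.log (zetaReal K s) := by
    intro s hs h T
    obtain ⟨h0, hsum⟩ := hgood s hs h
    rw [Real.le_log_iff_exp_le h0, Real.exp_sum]
    refine le_trans (Finset.prod_le_prod (fun p _ => (Real.exp_pos _).le) fun p _ => ?_)
      (prod_le_zetaReal hs.le h0 hsum T)
    exact exp_le_inv_one_sub (lt_of_le_of_lt (primeWeight_le_half hs.le p) (by norm_num))
  obtain ⟨s₀, hs₀, hs₀', hs₀2⟩ := ((hev.and (Ioo_mem_nhdsGT one_lt_two)).exists)
  have hsum₀ : Summable (primeWeight K s₀) :=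
    summable_of_sum_le (fun p => (primeWeight_pos s₀ p).le) (hlog s₀ hs₀' hs₀.1)
  set Q := ∑' p, primeWeight K s₀ p with hQ
  set D := (Module.finrank ℚ K : ℝ) * ∑' ℓ : Nat.Primes, ((ℓ : ℕ) : ℝ) ^ (-2 : ℝ) with hD
  refine ⟨max |Real.log (res / 2)| |Real.log (2 * res)| + 2 * Q + D, ?_⟩
  filter_upwards [hev, self_mem_nhdsWithin] with s hsres hs1
  have hs : 1 < s := hs1
  obtain ⟨h0, hsum⟩ := hgood s hs hsres.1
  have hsumP : Summable (primeWeight K s) :=
    summable_of_sum_le (fun p => (primeWeight_pos s p).le) (hlog s hs hsres.1)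
  have hup : ∑' p, primeWeight K s p ≤ Real.log (zetaReal K s) :=
    Real.tsum_le_of_sum_le (fun p => (primeWeight_pos s p).le) (hlog s hs hsres.1)
  have hsq : ∀ p, primeWeight K s p ^ 2 ≤ primeWeight K s₀ p := fun p => by
    rw [primeWeight, primeWeight, ← Real.rpow_natCast, ← Real.rpow_mul (Nat.cast_nonneg _)]
    exact Real.rpow_le_rpow_of_exponent_le
      (by exact_mod_cast (one_le_two.trans (two_le_absNorm p))) (by push_cast; linarith)
  have hlow : Real.log (zetaReal K s) ≤ (∑' p, primeWeight K s p) + 2 * Q := by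
    rw [← Real.log_exp ((∑' p, primeWeight K s p) + 2 * Q)]
    refine Real.log_le_log h0 (zetaReal_le_of_prod_le hs.le (Real.exp_pos _).le hsum fun T => ?_)
    calc ∏ p ∈ T, (1 - primeWeight K s p)⁻¹
        ≤ ∏ p ∈ T, Real.exp (primeWeight K s p + 2 * primeWeight K s₀ p) := by
          refine Finset.prod_le_prod (fun p _ => ?_) fun p _ => ?_
          · exact inv_nonneg.mpr (by linarith [primeWeight_le_half hs.le p])
          · refine
              (inv_one_sub_le_exp (primeWeight_pos s p).le (primeWeight_le_half hs.le p)).trans ?_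
            gcongr
            exact hsq p
      _ ≤ _ := by
          rw [← Real.exp_sum, Finset.sum_add_distrib, ← Finset.mul_sum]
          gcongr
          · exact hsumP.sum_le_tsum _ fun p _ => (primeWeight_pos s p).le
          · exact hsum₀.sum_le_tsum _ fun p _ => (primeWeight_pos s₀ p).le
  have hsplit : (∑' p, primeWeight K s p) =
      (∑' p : {p : HeightOneSpectrum (𝓞 K) // (Ideal.absNorm p.asIdeal).Prime}, primeWeight K s p) +
      ∑' p : {p : HeightOneSpectrum (𝓞 K) // ¬ (Ideal.absNorm p.asIdeal).Prime},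
        primeWeight K s p :=
    (hsumP.tsum_subtype_add_tsum_subtype_compl
      {p : HeightOneSpectrum (𝓞 K) | (Ideal.absNorm p.asIdeal).Prime}).symm
  have hprime := tsum_prime_norm_eq hsumP
  have hnp0 : 0 ≤ ∑' p : {p : HeightOneSpectrum (𝓞 K) // ¬ (Ideal.absNorm p.asIdeal).Prime},
      primeWeight K s p := tsum_nonneg fun p => (primeWeight_pos s p.1).le
  have hnpD : (∑' p : {p : HeightOneSpectrum (𝓞 K) // ¬ (Ideal.absNorm p.asIdeal).Prime},
      primeWeight K s p) ≤ D := by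
    refine Real.tsum_le_of_sum_le (fun p => (primeWeight_pos s p.1).le) fun U => ?_
    refine (le_of_eq ?_).trans (sum_nonprime_norm_le hs.le (U.map (Function.Embedding.subtype _))
      fun p hp => by obtain ⟨x, -, rfl⟩ := Finset.mem_map.mp hp; exact x.2)
    rw [Finset.sum_map]
    rfl
  have hlogeq : Real.log (zetaReal K s) =
      Real.log ((s - 1) * zetaReal K s) + Real.log (s - 1)⁻¹ := by
    rw [Real.log_mul (by linarith) h0.ne', Real.log_inv]; ring
  have hb :
      |Real.log ((s - 1) * zetaReal K s)| ≤ max |Real.log (res / 2)| |Real.log (2 * res)| := by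
    refine abs_le_max_abs_abs ?_ ?_ <;> refine Real.log_le_log (by linarith [hsres.1]) ?_ <;>
      linarith [hsres.1, hsres.2]
  have hQ0 : 0 ≤ Q := tsum_nonneg fun p => (primeWeight_pos s₀ p).le
  rw [← hprime]
  rw [hsplit] at hup hlow
  rw [hlogeq] at hup hlow
  have := abs_le.mp hb
  rw [abs_le]
  constructor <;> linarith

end Fermat.Agent.Gal
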