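import Mathlib.FieldTheory.Galois.Infinite
import Mathlib.FieldTheory.Galois.Profinite
import Mathlib.FieldTheory.IsAlgClosed.AlgebraicClosure
import Mathlib.RingTheory.IntegralClosure.Algebra.Basic
import Mathlib.RingTheory.Invariant.Profinite
import Mathlib.RingTheory.LocalRing.ResidueField.Basic
import Mathlib.RingTheory.Polynomial.Content
import Mathlib.RingTheory.Valuation.LocalSubring
import Fermat.Prelude.Def_EllipticCurve_FrobeniusTrace

/-!
# Places of `ℚ̄` over a rational prime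

Conjugacy of the places, decomposition and inertia groups, existence of Frobenius elements: the
basis of all local statements about Galois representations.
-/

noncomputable section

open scoped Pointwise
open Polynomial IsLocalRing

namespace Fermat.Agent.Gal

/-- The algebraic closure of `ℚ`. -/
local notation "Qbar" => AlgebraicClosure ℚ

/-- The ring of algebraic integers. -/
local notation "OZ" => integralClosure ℤ (AlgebraicClosure ℚ)

/-- The absolute Galois group of `ℚ`. -/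
abbrev AbsGal : Type := AlgebraicClosure ℚ ≃ₐ[ℚ] AlgebraicClosure ℚ

instance isAlgebraic_qbar : Algebra.IsAlgebraic ℚ Qbar := AlgebraicClosure.isAlgebraic ℚ

instance normal_qbar : Normal ℚ Qbar :=
  normal_iff.2 fun x => ⟨(Algebra.IsAlgebraic.isAlgebraic x).isIntegral, IsAlgClosed.splits _⟩

instance isGalois_qbar : IsGalois ℚ Qbar := ⟨⟩

/-- An element fixed by the whole Galois group is rational. -/
theorem exists_rat_of_fixed {x : Qbar} (h : ∀ σ : AbsGal, σ x = x) : ∃ q : ℚ, x = (q : Qbar) := by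
  obtain ⟨q, hq⟩ := (InfiniteGalois.mem_range_algebraMap_iff_fixed x).2 h
  exact ⟨q, by rw [← hq, eq_ratCast]⟩

variable {A B : ValuationSubring Qbar} {σ τ : AbsGal} {ℓ : ℕ}

/-! ### Integral elements -/

/-- A place contains every algebraic integer. -/
theorem mem_of_isIntegral {x : Qbar} (hx : IsIntegral ℤ x) : x ∈ A := by
  obtain ⟨y, hy⟩ := IsIntegrallyClosed.isIntegral_iff.mp (hx.tower_top (A := A))
  exact hy ▸ y.2

/-- The maximal ideal of a place absorbs the place. -/
theorem mul_mem_nonunits {x y : Qbar} (hx : x ∈ A) (hy : y ∈ A.nonunits) :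
    x * y ∈ A.nonunits := by
  rw [A.mem_nonunits_iff, map_mul]
  exact mul_lt_one_of_nonneg_of_lt_one_right ((A.valuation_le_one_iff x).mpr hx) zero_le hy

/-- An element lying in every valuation subring is integral. -/
theorem isIntegral_of_forall_mem {x : Qbar} (h : ∀ V : ValuationSubring Qbar, x ∈ V) :
    IsIntegral ℤ x := by
  have hx : x ∈ (⨅ V : {V : ValuationSubring Qbar // (∅ : Set Qbar) ⊆ V.toSubring},
      V.1.toSubring) := Subring.mem_iInf.mpr fun V => h V.1
  rw [iInf_valuationSubring_superset] at hx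
  have : Algebra.IsIntegral ℤ (Subring.closure (∅ : Set Qbar)) := by
    refine ⟨fun z => ?_⟩
    have hz : (z : Qbar) ∈ (⊥ : Subring Qbar) := by rw [← Subring.closure_empty]; exact z.2
    obtain ⟨n, hn⟩ := Subring.mem_bot.mp hz
    have : z = algebraMap ℤ (Subring.closure (∅ : Set Qbar)) n := Subtype.ext (by simp [hn])
    exact this ▸ isIntegral_algebraMap
  exact isIntegral_trans (R := ℤ) (A := Subring.closure (∅ : Set Qbar)) x hx

/-- The evaluations of the truncations of an integral polynomial at a root are integral. -/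
theorem isIntegral_aeval_divX_iterate {p : ℤ[X]} {x : Qbar} (hp : aeval x p = 0) (m : ℕ) :
    IsIntegral ℤ (aeval x (divX^[m] p)) := by
  refine isIntegral_of_forall_mem fun V => ?_
  by_cases hx : x ∈ V
  · rw [aeval_eq_sum_range]
    exact sum_mem fun i _ => by
      rw [zsmul_eq_mul]; exact mul_mem (intCast_mem V _) (pow_mem hx i)
  · have hx' : x⁻¹ ∈ V := (V.mem_or_inv_mem x).resolve_left hx
    have hx0 : x ≠ 0 := fun h => hx (h ▸ V.zero_mem)
    induction m with
    | zero => simp [hp]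
    | succ m ih =>
      have key := congrArg (aeval x) (X_mul_divX_add (divX^[m] p))
      simp only [map_add, map_mul, aeval_X, aeval_C] at key
      rw [Function.iterate_succ_apply']
      have : aeval x (divX (divX^[m] p)) =
          (aeval x (divX^[m] p) - algebraMap ℤ Qbar ((divX^[m] p).coeff 0)) * x⁻¹ := by
        rw [← key]; field_simp; ring
      rw [this, eq_intCast (algebraMap ℤ Qbar)]
      exact mul_mem (sub_mem ih (intCast_mem V _)) hx'

/-- In a place over `ℓ`, an element `x` is a quotient, with unit denominator, of algebraic integers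
of `ℤ[x]`. -/
theorem exists_integral_mul_eq' (hℓ : ℓ.Prime)
    (hZ : ∀ n : ℤ, (n : Qbar) ∈ A.nonunits → (ℓ : ℤ) ∣ n) {x : Qbar} (hx : x ∈ A) :
    ∃ a b : Qbar, IsIntegral ℤ a ∧ IsIntegral ℤ b ∧ b ∈ Algebra.adjoin ℤ {x} ∧
      a ∈ Algebra.adjoin ℤ {x} ∧ b ∉ A.nonunits ∧ x * b = a := by
  have halg : IsAlgebraic ℤ x :=
    (IsFractionRing.isAlgebraic_iff ℤ ℚ Qbar).mpr (Algebra.IsAlgebraic.isAlgebraic x)
  obtain ⟨p, hp0, hp⟩ := halg
  set q := p.primPart with hq
  have hqx : aeval x q = 0 := by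
    rw [p.eq_C_content_mul_primPart, map_mul, aeval_C, mul_eq_zero] at hp
    exact hp.resolve_left fun h => hp0
      (content_eq_zero_iff.mp ((FaithfulSMul.algebraMap_eq_zero_iff ℤ Qbar).mp h))
  set c : ℕ → Qbar := fun m => aeval x (divX^[m] q) with hc
  have hrec : ∀ m, c m = x * c (m + 1) + ((divX^[m] q).coeff 0 : Qbar) := by
    intro m
    simp only [hc, Function.iterate_succ_apply']
    conv_lhs => rw [← X_mul_divX_add (divX^[m] q)]
    simp
  have hcoeff : ∀ i m, (divX^[m] q).coeff i = q.coeff (i + m) := by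
    intro i m
    induction m generalizing i with
    | zero => simp
    | succ m ih => rw [Function.iterate_succ_apply', coeff_divX, ih]; congr 1; omega
  by_contra hcon
  push Not at hcon
  have hall : ∀ m, c m ∈ A.nonunits := by
    intro m
    by_contra hm
    cases m with
    | zero => exact hm (by simp [hc, hqx, A.nonunits.zero_mem])
    | succ m =>
      have h1 : IsIntegral ℤ (c m - ((divX^[m] q).coeff 0 : Qbar)) :=
        (isIntegral_aeval_divX_iterate hqx m).sub
          (eq_intCast (algebraMap ℤ Qbar) ((divX^[m] q).coeff 0) ▸ isIntegral_algebraMap)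
      have hmem : ∀ k, c k ∈ Algebra.adjoin ℤ {x} := fun k => aeval_mem_adjoin_singleton ℤ x
      exact hcon _ (c (m + 1)) h1 (isIntegral_aeval_divX_iterate hqx (m + 1)) (hmem _)
        (sub_mem (hmem m) (intCast_mem _ _)) hm (by rw [hrec m]; ring)
  have hdvd : C (ℓ : ℤ) ∣ q := by
    refine (C_dvd_iff_dvd_coeff _ _).mpr fun i => hZ _ ?_
    have : (q.coeff i : Qbar) = c i - x * c (i + 1) := by
      rw [hrec i, hcoeff 0 i, zero_add]; ring
    rw [this]
    exact sub_mem (hall i) (mul_mem_nonunits hx (hall (i + 1)))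
  exact hℓ.not_isUnit (Int.ofNat_isUnit.mp (p.isPrimitive_primPart _ hdvd))

/-- Every element of a place over `ℓ` is `a / b` with `a`, `b` integral and `b` a unit there. -/
theorem exists_integral_mul_eq (hℓ : ℓ.Prime)
    (hZ : ∀ n : ℤ, (n : Qbar) ∈ A.nonunits → (ℓ : ℤ) ∣ n) {x : Qbar} (hx : x ∈ A) :
    ∃ a b : Qbar, IsIntegral ℤ a ∧ IsIntegral ℤ b ∧ b ∉ A.nonunits ∧ x * b = a := by
  obtain ⟨a, b, ha, hb, -, -, hbA, h⟩ := exists_integral_mul_eq' hℓ hZ hx
  exact ⟨a, b, ha, hb, hbA, h⟩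

/-- A nonzero integer which is a nonunit at `A` has a prime factor under `A`. -/
theorem exists_prime_liesOver_of_intCast_mem {n : ℤ} (hn : n ≠ 0)
    (h : (n : Qbar) ∈ A.nonunits) : ∃ p : ℕ, p.Prime ∧ (p : ℤ) ∣ n ∧ A.LiesOverPrime p := by
  suffices key : ∀ m : ℕ, m ≠ 0 → (m : Qbar) ∈ A.nonunits →
      ∃ p : ℕ, p.Prime ∧ p ∣ m ∧ A.LiesOverPrime p by
    have hm : (n.natAbs : Qbar) ∈ A.nonunits := by
      rcases n.natAbs_eq with hn' | hn' <;> rw [hn'] at h
      · simpa using h
      · simpa using neg_mem h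
    obtain ⟨p, hp, hdvd, hA⟩ := key _ (Int.natAbs_ne_zero.mpr hn) hm
    exact ⟨p, hp, Int.natCast_dvd.mpr hdvd, hA⟩
  intro m
  induction m using induction_on_primes with
  | zero => exact fun h => absurd rfl h
  | one =>
    intro _ h
    rw [Nat.cast_one, A.mem_nonunits_iff, map_one] at h
    exact absurd h (lt_irrefl _)
  | prime_mul p a hp ih =>
    intro hne hmem
    by_cases hpA : (p : Qbar) ∈ A.nonunits
    · exact ⟨p, hp, dvd_mul_right _ _, hpA⟩
    · rw [Nat.cast_mul, A.mem_nonunits_iff, map_mul] at hmem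
      have hp1 : A.valuation (p : Qbar) = 1 :=
        le_antisymm ((A.valuation_le_one_iff _).mpr (natCast_mem A p)) (not_lt.mp hpA)
      rw [hp1, one_mul] at hmem
      obtain ⟨q, hq, hdvd, hA⟩ := ih (right_ne_zero_of_mul hne) hmem
      exact ⟨q, hq, dvd_mul_of_dvd_right hdvd _, hA⟩

/-! ### Places over a prime -/

/-- An integer is in the maximal ideal of a place over `ℓ` iff `ℓ` divides it. -/
theorem intCast_mem_nonunits_iff (hℓ : ℓ.Prime) (hA : A.LiesOverPrime ℓ) (n : ℤ) :
    (n : Qbar) ∈ A.nonunits ↔ (ℓ : ℤ) ∣ n := by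
  constructor
  · intro hn
    by_contra hnd
    obtain ⟨a, b, hab⟩ : IsCoprime (ℓ : ℤ) n :=
      (Prime.coprime_iff_not_dvd (Nat.prime_iff_prime_int.mp hℓ)).mpr hnd
    have h1 : (1 : Qbar) ∈ A.nonunits := by
      have hℓ' : ((ℓ : ℤ) : Qbar) ∈ A.nonunits := by exact_mod_cast hA
      have : (1 : Qbar) = (a : Qbar) * ((ℓ : ℤ) : Qbar) + (b : Qbar) * (n : Qbar) := by
        exact_mod_cast hab.symm
      rw [this]
      exact add_mem (mul_mem_nonunits (intCast_mem A _) hℓ')
        (mul_mem_nonunits (intCast_mem A _) hn)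
    rw [A.mem_nonunits_iff, map_one] at h1
    exact lt_irrefl _ h1
  · rintro ⟨k, rfl⟩
    push_cast
    rw [mul_comm]
    exact mul_mem_nonunits (intCast_mem A _) hA

/-- A place lies over at most one prime. -/
theorem liesOverPrime_unique {p q : ℕ} (hp : p.Prime) (hq : q.Prime)
    (h₁ : A.LiesOverPrime p) (h₂ : A.LiesOverPrime q) : p = q :=
  (Nat.prime_dvd_prime_iff_eq hp hq).mp
    (Int.natCast_dvd_natCast.mp ((intCast_mem_nonunits_iff hp h₁ q).mp (by exact_mod_cast h₂)))

/-- Every prime has a place of `ℚ̄` over it. -/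
theorem exists_liesOverPrime (hℓ : ℓ.Prime) :
    ∃ A : ValuationSubring Qbar, A.LiesOverPrime ℓ := by
  have hmem : (ℓ : Qbar) ∈ (⊥ : Subring Qbar) := natCast_mem _ _
  have hI : Ideal.span {(⟨_, hmem⟩ : (⊥ : Subring Qbar))} ≠ ⊤ := by
    intro h
    obtain ⟨⟨y, hy⟩, hy1⟩ := isUnit_iff_exists_inv.mp (Ideal.span_singleton_eq_top.mp h)
    obtain ⟨n, rfl⟩ := Subring.mem_bot.mp hy
    have : ((ℓ : ℤ) * n : ℤ) = 1 := by
      have := congrArg Subtype.val hy1
      simp only [Subring.coe_mul, Subring.coe_one] at this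
      exact_mod_cast this
    exact hℓ.not_isUnit (Int.ofNat_isUnit.mp (IsUnit.of_mul_eq_one n this))
  obtain ⟨A, -, hA⟩ := Ideal.image_subset_nonunits_valuationSubring _ hI
  exact ⟨A, hA ⟨_, Ideal.subset_span rfl, rfl⟩⟩

theorem mem_smul_iff {x : Qbar} : x ∈ σ • A ↔ σ⁻¹ x ∈ A :=
  ValuationSubring.mem_pointwise_smul_iff_inv_smul_mem

theorem mem_nonunits_smul_iff {x : Qbar} : x ∈ (σ • A).nonunits ↔ σ⁻¹ x ∈ A.nonunits := by
  simp only [ValuationSubring.mem_nonunits_iff_or, mem_smul_iff, map_inv₀,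
    map_eq_zero_iff _ (σ⁻¹ : AbsGal).injective]

/-- The decomposition group consists of the automorphisms preserving the place. -/
theorem mem_decomposition_iff :
    σ ∈ A.decompositionSubgroup ℚ ↔ ∀ x, σ x ∈ A ↔ x ∈ A := by
  rw [MulAction.mem_stabilizer_iff, SetLike.ext_iff]
  constructor
  · intro h x
    rw [← h (σ x), mem_smul_iff]
    exact iff_of_eq (congrArg (· ∈ A) (σ.symm_apply_apply x))
  · intro h x
    rw [mem_smul_iff, ← h (σ⁻¹ x)]
    exact iff_of_eq (congrArg (· ∈ A) (σ.apply_symm_apply x))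

theorem decomposition_mem_nonunits_iff (hσ : σ ∈ A.decompositionSubgroup ℚ) {x : Qbar} :
    σ x ∈ A.nonunits ↔ x ∈ A.nonunits := by
  simp only [ValuationSubring.mem_nonunits_iff_or, map_eq_zero_iff _ σ.injective, ← map_inv₀,
    mem_decomposition_iff.mp hσ]

/-- Conjugate places lie over the same prime. -/
theorem liesOverPrime_smul (σ : AbsGal) (hA : A.LiesOverPrime ℓ) : (σ • A).LiesOverPrime ℓ := by
  unfold ValuationSubring.LiesOverPrime at *
  rwa [mem_nonunits_smul_iff, map_natCast]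

/-- A place is determined by the integral elements in its maximal ideal. -/
theorem eq_of_forall_isIntegral (hℓ : ℓ.Prime) (hA : A.LiesOverPrime ℓ) (hB : B.LiesOverPrime ℓ)
    (h : ∀ x : Qbar, IsIntegral ℤ x → (x ∈ A.nonunits ↔ x ∈ B.nonunits)) : A = B := by
  suffices key : ∀ {A B : ValuationSubring Qbar}, A.LiesOverPrime ℓ →
      (∀ x : Qbar, IsIntegral ℤ x → (x ∈ A.nonunits ↔ x ∈ B.nonunits)) → A ≤ B from
    le_antisymm (key hA h) (key hB fun x hx => (h x hx).symm)
  intro A B hA h x hx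
  obtain ⟨a, b, ha, hb, hbA, hab⟩ :=
    exists_integral_mul_eq hℓ (fun n => (intCast_mem_nonunits_iff hℓ hA n).mp) hx
  have hbB : b ∉ B.nonunits := fun hb' => hbA ((h b hb).mpr hb')
  rw [B.mem_nonunits_iff_or] at hbB
  push Not at hbB
  rw [eq_mul_inv_iff_mul_eq₀ hbB.1 |>.mpr hab]
  exact mul_mem (mem_of_isIntegral ha) hbB.2

/-- Ring maps out of a place agree once they agree on integral elements. -/
theorem ringHom_eq_of_isIntegral (hℓ : ℓ.Prime) (hA : A.LiesOverPrime ℓ) {k : Type*} [Field k]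
    (f g : A →+* k) (hfg : ∀ x : A, IsIntegral ℤ (x : Qbar) → f x = g x) : f = g := by
  refine RingHom.ext fun x => ?_
  obtain ⟨a, b, ha, hb, hbA, hab⟩ :=
    exists_integral_mul_eq hℓ (fun n => (intCast_mem_nonunits_iff hℓ hA n).mp) x.2
  let a' : A := ⟨a, mem_of_isIntegral ha⟩
  let b' : A := ⟨b, mem_of_isIntegral hb⟩
  have hu : IsUnit b' := by
    by_contra hu
    exact hbA (ValuationSubring.coe_mem_nonunits_iff.mpr ((mem_maximalIdeal b').mpr hu))
  have hxb : x * b' = a' := Subtype.ext hab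
  refine mul_right_cancel₀ (hu.map f).ne_zero ?_
  rw [← map_mul, hxb, hfg a' ha]
  conv_rhs => rw [hfg b' hb, ← map_mul, hxb]

/-! ### The prime of the algebraic integers attached to a place -/

/-- The inclusion of the algebraic integers in a place. -/
def integersToPlace (A : ValuationSubring Qbar) : OZ →+* A where
  toFun x := ⟨x.1, mem_of_isIntegral x.2⟩
  map_one' := rfl
  map_mul' _ _ := rfl
  map_zero' := rfl
  map_add' _ _ := rfl

/-- The prime ideal of the algebraic integers cut out by a place. -/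
def idealAt (A : ValuationSubring Qbar) : Ideal OZ :=
  (maximalIdeal A).comap (integersToPlace A)

instance idealAt_isPrime (A : ValuationSubring Qbar) : (idealAt A).IsPrime :=
  Ideal.comap_isPrime _ _

theorem mem_idealAt {x : OZ} : x ∈ idealAt A ↔ (x : Qbar) ∈ A.nonunits :=
  ValuationSubring.coe_mem_nonunits_iff.symm

/-- A place over `ℓ` is determined by its ideal of algebraic integers. -/
theorem eq_of_idealAt_eq (hℓ : ℓ.Prime) (hA : A.LiesOverPrime ℓ) (hB : B.LiesOverPrime ℓ)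
    (h : idealAt A = idealAt B) : A = B :=
  eq_of_forall_isIntegral hℓ hA hB fun x hx => by
    have := SetLike.ext_iff.mp h ⟨x, hx⟩
    rwa [mem_idealAt, mem_idealAt] at this

theorem idealAt_smul (σ : AbsGal) : idealAt (σ • A) = σ • idealAt A := by
  ext x
  rw [mem_idealAt, Ideal.mem_pointwise_smul_iff_inv_smul_mem, mem_idealAt, mem_nonunits_smul_iff]
  rfl

section Relative

variable (H : Subgroup AbsGal)

instance smulCommClass_fixed : SMulCommClass H (FixedPoints.subalgebra ℤ OZ H) OZ where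
  smul_comm h a x := by
    rw [Algebra.smul_def, Algebra.smul_def, smul_mul']
    congr 1
    exact a.2 h

/-- The algebraic integers fixed by `H` are the invariants of `H`. -/
theorem isInvariant_fixed : Algebra.IsInvariant (FixedPoints.subalgebra ℤ OZ H) OZ H :=
  ⟨fun b hb => ⟨⟨b, hb⟩, rfl⟩⟩

theorem under_fixed_eq_iff {P Q : Ideal OZ} :
    P.under (FixedPoints.subalgebra ℤ OZ H) = Q.under (FixedPoints.subalgebra ℤ OZ H) ↔
      ∀ x : OZ, (∀ h : H, h • x = x) → (x ∈ P ↔ x ∈ Q) := by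
  constructor
  · exact fun h x hx => SetLike.ext_iff.mp h ⟨x, hx⟩
  · exact fun h => SetLike.ext fun x => h x.1 x.2

/-- A subgroup of `G_ℚ` acts continuously on the discrete ring of algebraic integers. -/
theorem continuousSMul_subgroup [TopologicalSpace OZ] [DiscreteTopology OZ] :
    ContinuousSMul H OZ :=
  continuousSMul_iff_stabilizer_isOpen.mpr fun x => by
    have := (stabilizer_isOpen_of_isIntegral (K := ℚ) (x : Qbar)).preimage
      (continuous_subtype_val (p := (· ∈ H)))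
    convert this using 1
    ext g
    exact ⟨fun hg => congrArg Subtype.val hg, fun hg => Subtype.ext hg⟩

/-- Two places with the same trace on the integers fixed by a closed subgroup are conjugate
under that subgroup. -/
theorem exists_mem_smul_eq (hH : IsClosed (H : Set AbsGal)) (hℓ : ℓ.Prime)
    (hA : A.LiesOverPrime ℓ) (hB : B.LiesOverPrime ℓ)
    (h : ∀ x : Qbar, IsIntegral ℤ x → (∀ σ ∈ H, σ x = x) →
      (x ∈ A.nonunits ↔ x ∈ B.nonunits)) :
    ∃ σ ∈ H, σ • A = B := by
  let : TopologicalSpace OZ := ⊥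
  have : DiscreteTopology OZ := ⟨rfl⟩
  have : CompactSpace H := isCompact_iff_compactSpace.mp hH.isCompact
  have := continuousSMul_subgroup H
  have := isInvariant_fixed H
  obtain ⟨g, hg⟩ := Algebra.IsInvariant.exists_smul_of_under_eq_of_profinite
    (A := FixedPoints.subalgebra ℤ OZ H) (G := H) (idealAt A) (idealAt B)
    ((under_fixed_eq_iff H).mpr fun x hx => by
      rw [mem_idealAt, mem_idealAt]
      exact h x x.2 fun σ hσ => congrArg Subtype.val (hx ⟨σ, hσ⟩))
  refine ⟨g, g.2, eq_of_idealAt_eq hℓ (liesOverPrime_smul _ hA) hB ?_⟩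
  rw [idealAt_smul]
  exact hg.symm

/-- Every automorphism of the residue ring of `idealAt A` fixing the residues of `H`-invariant
integers is induced by an element of `H` in the decomposition group. -/
theorem exists_mem_residue_eq (hH : IsClosed (H : Set AbsGal)) (hℓ : ℓ.Prime)
    (hA : A.LiesOverPrime ℓ) (φ : (OZ ⧸ idealAt A) ≃+* (OZ ⧸ idealAt A))
    (hφ : ∀ x : OZ, (∀ h : H, h • x = x) →
      φ (Ideal.Quotient.mk _ x) = Ideal.Quotient.mk _ x) :
    ∃ σ ∈ H, σ ∈ A.decompositionSubgroup ℚ ∧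
      ∀ x : OZ, Ideal.Quotient.mk (idealAt A) (σ • x) = φ (Ideal.Quotient.mk _ x) := by
  let : TopologicalSpace OZ := ⊥
  have : DiscreteTopology OZ := ⟨rfl⟩
  have : CompactSpace H := isCompact_iff_compactSpace.mp hH.isCompact
  have := continuousSMul_subgroup H
  have := isInvariant_fixed H
  let P := (idealAt A).under (FixedPoints.subalgebra ℤ OZ H)
  let φ' : (OZ ⧸ idealAt A) ≃ₐ[FixedPoints.subalgebra ℤ OZ H ⧸ P] (OZ ⧸ idealAt A) :=
    AlgEquiv.ofRingEquiv (f := φ) fun x => by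
      obtain ⟨x, rfl⟩ := Ideal.Quotient.mk_surjective x
      exact hφ x.1 x.2
  obtain ⟨⟨g, hg⟩, hgφ⟩ := Ideal.Quotient.stabilizerHom_surjective_of_profinite P (idealAt A)
    (G := H) φ'
  refine ⟨g, g.2, MulAction.mem_stabilizer_iff.mpr
    (eq_of_idealAt_eq hℓ (liesOverPrime_smul _ hA) hA ?_), fun x => ?_⟩
  · rw [idealAt_smul]
    exact hg
  · exact DFunLike.congr_fun hgφ (Ideal.Quotient.mk _ x)

end Relative

theorem isClosed_top : IsClosed ((⊤ : Subgroup AbsGal) : Set AbsGal) := by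
  rw [Subgroup.coe_top]; exact isClosed_univ

/-- A rational algebraic integer is an integer. -/
theorem exists_intCast_eq {x : Qbar} (hx : IsIntegral ℤ x) (hfix : ∀ σ : AbsGal, σ x = x) :
    ∃ n : ℤ, (n : Qbar) = x := by
  obtain ⟨r, rfl⟩ := (InfiniteGalois.mem_range_algebraMap_iff_fixed x).mpr hfix
  obtain ⟨n, hn⟩ := IsIntegrallyClosed.isIntegral_iff.mp
    ((isIntegral_algebraMap_iff (algebraMap ℚ Qbar).injective).mp hx)
  exact ⟨n, by rw [← hn]; simp⟩

/-- Places over the same prime are conjugate. -/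
theorem exists_smul_eq (hℓ : ℓ.Prime) (hA : A.LiesOverPrime ℓ) (hB : B.LiesOverPrime ℓ) :
    ∃ σ : AbsGal, σ • A = B := by
  obtain ⟨σ, -, hσ⟩ := exists_mem_smul_eq ⊤ isClosed_top hℓ hA hB fun x hx hfix => by
    obtain ⟨n, rfl⟩ := exists_intCast_eq hx fun σ => hfix σ trivial
    rw [intCast_mem_nonunits_iff hℓ hA, intCast_mem_nonunits_iff hℓ hB]
  exact ⟨σ, hσ⟩

/-! ### The residue field -/

/-- The residue field of a place over `ℓ` has characteristic `ℓ`. -/
theorem residueField_charP (hℓ : ℓ.Prime) (hA : A.LiesOverPrime ℓ) :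
    CharP (ResidueField A) ℓ := by
  have h0 : (ℓ : ResidueField A) = 0 := by
    rw [← map_natCast (residue A), residue_eq_zero_iff]
    exact ValuationSubring.coe_mem_nonunits_iff.mp (by rw [SubringClass.coe_natCast]; exact hA)
  exact (CharP.charP_iff_prime_eq_zero hℓ).mpr h0

/-- The residue field of a place is algebraically closed. -/
theorem residueField_isAlgClosed : IsAlgClosed (ResidueField A) := by
  refine IsAlgClosed.of_exists_root _ fun p hp hirr => ?_
  have hl : p ∈ lifts (residue A) := (lifts_iff_coeff_lifts _).mpr fun n => residue_surjective _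
  obtain ⟨q, hq, hdeg, hmon⟩ := lifts_and_degree_eq_and_monic hl hp
  have hqd : (q.map (algebraMap A Qbar)).degree ≠ 0 := by
    rw [degree_map_eq_of_injective (FaithfulSMul.algebraMap_injective A Qbar), hdeg]
    exact (degree_pos_of_irreducible hirr).ne'
  obtain ⟨x, hx⟩ := IsAlgClosed.exists_root _ hqd
  obtain ⟨y, rfl⟩ := IsIntegrallyClosed.isIntegral_iff.mp
    (⟨q, hmon, by rwa [IsRoot.def, eval_map] at hx⟩ : IsIntegral A x)
  refine ⟨residue A y, ?_⟩
  rw [← hq, eval_map_apply]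
  rw [IsRoot.def, eval_map_apply,
    map_eq_zero_iff _ (FaithfulSMul.algebraMap_injective A Qbar)] at hx
  rw [hx, map_zero]

/-- A decomposition element acts on the place by restriction. -/
theorem smul_coe (g : A.decompositionSubgroup ℚ) (x : A) :
    ((g • x : A) : Qbar) = (g : AbsGal) x := rfl

/-- Inertia consists of the decomposition elements acting trivially modulo the place. -/
theorem mem_inertia_iff :
    σ ∈ A.inertiaSubgroupIn ℚ ↔
      σ ∈ A.decompositionSubgroup ℚ ∧ ∀ x ∈ A, σ x - x ∈ A.nonunits := by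
  simp only [ValuationSubring.inertiaSubgroupIn, Subgroup.mem_map, Subgroup.coe_subtype]
  constructor
  · rintro ⟨g, hg, rfl⟩
    refine ⟨g.2, fun x hx => ?_⟩
    have := DFunLike.congr_fun (MonoidHom.mem_ker.mp hg) (residue A ⟨x, hx⟩)
    change g • residue A ⟨x, hx⟩ = residue A ⟨x, hx⟩ at this
    rw [← ResidueField.residue_smul, ← sub_eq_zero, ← map_sub, residue_eq_zero_iff] at this
    exact ValuationSubring.coe_mem_nonunits_iff.mpr this
  · rintro ⟨hσ, h⟩
    refine ⟨⟨σ, hσ⟩, MonoidHom.mem_ker.mpr (RingEquiv.ext fun y => ?_), rfl⟩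
    obtain ⟨⟨x, hx⟩, rfl⟩ := residue_surjective y
    change (⟨σ, hσ⟩ : A.decompositionSubgroup ℚ) • residue A ⟨x, hx⟩ = residue A ⟨x, hx⟩
    rw [← ResidueField.residue_smul, ← sub_eq_zero, ← map_sub, residue_eq_zero_iff]
    exact ValuationSubring.coe_mem_nonunits_iff.mp (h x hx)

/-- A Frobenius element acts as the `ℓ`-th power modulo the place. -/
theorem isFrobeniusAt_iff :
    A.IsFrobeniusAt σ ℓ ↔
      σ ∈ A.decompositionSubgroup ℚ ∧ ∀ x ∈ A, σ x - x ^ ℓ ∈ A.nonunits := by
  constructor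
  · rintro ⟨hσ, h⟩
    refine ⟨hσ, fun x hx => ?_⟩
    have := h (residue A ⟨x, hx⟩)
    rw [← ResidueField.residue_smul, ← map_pow, ← sub_eq_zero, ← map_sub,
      residue_eq_zero_iff] at this
    exact ValuationSubring.coe_mem_nonunits_iff.mpr this
  · rintro ⟨hσ, h⟩
    refine ⟨hσ, fun y => ?_⟩
    obtain ⟨⟨x, hx⟩, rfl⟩ := residue_surjective y
    rw [← ResidueField.residue_smul, ← map_pow, ← sub_eq_zero, ← map_sub, residue_eq_zero_iff]
    exact ValuationSubring.coe_mem_nonunits_iff.mp (h x hx)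

/-- Powers of a Frobenius element are powers of the `ℓ`-th power modulo the place. -/
theorem frobenius_pow_sub_mem_nonunits {Φ : Qbar ≃ₐ[ℚ] Qbar} (hΦ : A.IsFrobeniusAt Φ ℓ) {x : Qbar}
    (hx : x ∈ A) (j : ℕ) : (Φ ^ j) x - x ^ ℓ ^ j ∈ A.nonunits := by
  obtain ⟨hΦD, hΦF⟩ := isFrobeniusAt_iff.1 hΦ
  induction j with
  | zero => simp [A.nonunits.zero_mem]
  | succ j ih =>
    have hc : Φ (x ^ ℓ ^ j) - x ^ ℓ ^ (j + 1) ∈ A.nonunits := by
      rw [pow_succ, pow_mul]
      exact hΦF _ (pow_mem hx _)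
    have := add_mem ((decomposition_mem_nonunits_iff hΦD).2 ih) hc
    rw [map_sub, sub_add_sub_cancel] at this
    rw [pow_succ', AlgEquiv.mul_apply]
    exact this

/-- The residue homomorphism precomposed with a decomposition element. -/
def residueComp (hσ : σ ∈ A.decompositionSubgroup ℚ) : A →+* ResidueField A :=
  (residue A).comp (MulSemiringAction.toRingHom _ A (⟨σ, hσ⟩ : A.decompositionSubgroup ℚ))

theorem residueComp_eq_iff (hσ : σ ∈ A.decompositionSubgroup ℚ) (x : A) (y : A) :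
    residueComp hσ x = residue A y ↔ σ (x : Qbar) - (y : Qbar) ∈ A.nonunits := by
  change residue A ((⟨σ, hσ⟩ : A.decompositionSubgroup ℚ) • x) = residue A y ↔ _
  rw [← sub_eq_zero, ← map_sub, residue_eq_zero_iff, ← ValuationSubring.coe_mem_nonunits_iff]
  rfl

/-- The residue inertia condition need only be tested on algebraic integers. -/
theorem mem_inertia_of_isIntegral (hℓ : ℓ.Prime) (hA : A.LiesOverPrime ℓ)
    (hσ : σ ∈ A.decompositionSubgroup ℚ)
    (h : ∀ x : Qbar, IsIntegral ℤ x → σ x - x ∈ A.nonunits) : σ ∈ A.inertiaSubgroupIn ℚ := by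
  have := ringHom_eq_of_isIntegral hℓ hA (residueComp hσ) (residue A)
    fun x hx => (residueComp_eq_iff hσ x x).mpr (h x hx)
  refine mem_inertia_iff.mpr ⟨hσ, fun x hx => ?_⟩
  exact (residueComp_eq_iff hσ ⟨x, hx⟩ ⟨x, hx⟩).mp (DFunLike.congr_fun this _)

/-- The Frobenius condition need only be tested on algebraic integers. -/
theorem isFrobeniusAt_of_isIntegral (hℓ : ℓ.Prime) (hA : A.LiesOverPrime ℓ)
    (hσ : σ ∈ A.decompositionSubgroup ℚ)
    (h : ∀ x : Qbar, IsIntegral ℤ x → σ x - x ^ ℓ ∈ A.nonunits) : A.IsFrobeniusAt σ ℓ := by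
  have := residueField_charP hℓ hA
  have : Fact ℓ.Prime := ⟨hℓ⟩
  have key := ringHom_eq_of_isIntegral hℓ hA (residueComp hσ)
    ((frobenius (ResidueField A) ℓ).comp (residue A)) fun x hx => by
      rw [RingHom.comp_apply, frobenius_def, ← map_pow]
      exact (residueComp_eq_iff hσ x (x ^ ℓ)).mpr (h x hx)
  refine isFrobeniusAt_iff.mpr ⟨hσ, fun x hx => ?_⟩
  have := DFunLike.congr_fun key ⟨x, hx⟩
  rw [RingHom.comp_apply, frobenius_def, ← map_pow] at this
  exact (residueComp_eq_iff hσ ⟨x, hx⟩ (⟨x, hx⟩ ^ ℓ)).mp this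

/-! ### Frobenius elements -/

/-- The algebraic integers modulo the ideal of a place over `ℓ` have characteristic `ℓ`. -/
theorem idealAt_charP (hℓ : ℓ.Prime) (hA : A.LiesOverPrime ℓ) :
    CharP (OZ ⧸ idealAt A) ℓ := by
  refine (CharP.charP_iff_prime_eq_zero hℓ).mpr ?_
  rw [← map_natCast (Ideal.Quotient.mk (idealAt A)), Ideal.Quotient.eq_zero_iff_mem, mem_idealAt]
  exact hA

/-- Frobenius elements exist. -/
theorem exists_isFrobeniusAt (hℓ : ℓ.Prime) (hA : A.LiesOverPrime ℓ) :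
    ∃ σ : AbsGal, A.IsFrobeniusAt σ ℓ := by
  have : Fact ℓ.Prime := ⟨hℓ⟩
  have := idealAt_charP hℓ hA
  have hsurj : Function.Surjective (frobenius (OZ ⧸ idealAt A) ℓ) := by
    intro y
    obtain ⟨x, rfl⟩ := Ideal.Quotient.mk_surjective y
    obtain ⟨z, hz⟩ := IsAlgClosed.exists_pow_nat_eq (x : Qbar) hℓ.pos
    refine ⟨Ideal.Quotient.mk _ ⟨z, IsIntegral.of_pow hℓ.pos (hz ▸ x.2)⟩, ?_⟩
    rw [frobenius_def, ← map_pow]
    exact congrArg _ (Subtype.ext hz)
  let φ : (OZ ⧸ idealAt A) ≃+* (OZ ⧸ idealAt A) :=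
    RingEquiv.ofBijective _ ⟨frobenius_inj _ ℓ, hsurj⟩
  obtain ⟨σ, -, hσ, hσφ⟩ := exists_mem_residue_eq ⊤ isClosed_top hℓ hA φ fun x hx => by
    obtain ⟨n, hn⟩ := exists_intCast_eq x.2 fun σ => congrArg Subtype.val (hx ⟨σ, trivial⟩)
    have : x = (n : OZ) := Subtype.ext (by simp [hn])
    rw [this, map_intCast]
    exact map_intCast φ n
  refine ⟨σ, isFrobeniusAt_of_isIntegral hℓ hA hσ fun x hx => ?_⟩
  have := hσφ ⟨x, hx⟩
  rw [RingEquiv.ofBijective_apply, frobenius_def, ← map_pow, Ideal.Quotient.eq, mem_idealAt] at this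
  exact this

/-- Every prime has a place over it with a Frobenius element. -/
theorem exists_liesOverPrime_isFrobeniusAt (hℓ : ℓ.Prime) :
    ∃ (A : ValuationSubring Qbar) (σ : AbsGal), A.LiesOverPrime ℓ ∧ A.IsFrobeniusAt σ ℓ := by
  obtain ⟨A, hA⟩ := exists_liesOverPrime hℓ
  obtain ⟨σ, hσ⟩ := exists_isFrobeniusAt hℓ hA
  exact ⟨A, σ, hA, hσ⟩

theorem conj_mem_decomposition (h : σ ∈ A.decompositionSubgroup ℚ) (τ : AbsGal) :
    τ * σ * τ⁻¹ ∈ (τ • A).decompositionSubgroup ℚ := by
  rw [MulAction.mem_stabilizer_iff] at *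
  rw [mul_smul, mul_smul, inv_smul_smul, h]

/-- Conjugates of Frobenius elements are Frobenius elements at conjugate places. -/
theorem isFrobeniusAt_conj (h : A.IsFrobeniusAt σ ℓ) (τ : AbsGal) :
    (τ • A).IsFrobeniusAt (τ * σ * τ⁻¹) ℓ := by
  rw [isFrobeniusAt_iff] at *
  refine ⟨conj_mem_decomposition h.1 τ, fun x hx => ?_⟩
  have := h.2 (τ⁻¹ x) (mem_smul_iff.mp hx)
  rw [mem_nonunits_smul_iff, map_sub, map_pow]
  simpa using this

/-- Conjugates of inertia elements are inertia elements at conjugate places. -/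
theorem conj_mem_inertia (h : σ ∈ A.inertiaSubgroupIn ℚ) (τ : AbsGal) :
    τ * σ * τ⁻¹ ∈ (τ • A).inertiaSubgroupIn ℚ := by
  rw [mem_inertia_iff] at *
  refine ⟨conj_mem_decomposition h.1 τ, fun x hx => ?_⟩
  have := h.2 (τ⁻¹ x) (mem_smul_iff.mp hx)
  rw [mem_nonunits_smul_iff, map_sub]
  simpa using this

/-- Two Frobenius elements at a place differ by inertia. -/
theorem inv_mul_mem_inertia (h : A.IsFrobeniusAt σ ℓ) (h' : A.IsFrobeniusAt τ ℓ) :
    σ⁻¹ * τ ∈ A.inertiaSubgroupIn ℚ := by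
  rw [isFrobeniusAt_iff] at h h'
  refine mem_inertia_iff.mpr ⟨mul_mem (inv_mem h.1) h'.1, fun x hx => ?_⟩
  rw [← decomposition_mem_nonunits_iff h.1, map_sub, AlgEquiv.mul_apply,
    AlgEquiv.aut_inv, AlgEquiv.apply_symm_apply]
  have := sub_mem (h'.2 x hx) (h.2 x hx)
  rwa [sub_sub_sub_cancel_right] at this

/-! ### Roots of separable polynomials -/

/-- Two congruent roots of a polynomial are equal if one of them is simple modulo `A`. -/
theorem eq_of_congruent_roots {R : Type*} [CommRing R] [Algebra R Qbar]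
    (hR : ∀ r : R, algebraMap R Qbar r ∈ A) {f : R[X]} {x y : Qbar} (hxA : x ∈ A) (hyA : y ∈ A)
    (hx : aeval x f = 0) (hy : aeval y f = 0)
    (hsep : aeval x f.derivative ∉ A.nonunits) (h : y - x ∈ A.nonunits) : y = x := by
  let ι : R →+* A := (algebraMap R Qbar).codRestrict A.toSubring hR
  let a : A := ⟨x, hxA⟩
  let b : A := ⟨y, hyA⟩
  have hev : ∀ (z : A) (g : R[X]), (((g.map ι).eval z : A) : Qbar) = aeval (z : Qbar) g := by
    intro z g
    rw [eval_map, aeval_def]
    exact hom_eval₂ g ι A.toSubring.subtype z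
  obtain ⟨k, hk⟩ := (f.map ι).binomExpansion a (b - a)
  rw [add_sub_cancel] at hk
  have hfa : (f.map ι).eval a = 0 := Subtype.ext (by rw [hev]; exact hx)
  have hfb : (f.map ι).eval b = 0 := Subtype.ext (by rw [hev]; exact hy)
  rw [hfa, hfb, zero_add, pow_two, ← mul_assoc, ← add_mul] at hk
  have hu : IsUnit ((f.map ι).derivative.eval a + k * (b - a)) := by
    rw [← notMem_maximalIdeal]
    intro hmem
    refine hsep ?_
    rw [← show (((f.map ι).derivative.eval a : A) : Qbar) = aeval x f.derivative by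
      rw [derivative_map]; exact hev a f.derivative]
    refine ValuationSubring.coe_mem_nonunits_iff.mpr ?_
    exact (Ideal.add_mem_iff_left _ (Ideal.mul_mem_left _ k
      (ValuationSubring.coe_mem_nonunits_iff.mp h))).mp hmem
  exact congrArg Subtype.val (sub_eq_zero.mp ((hu.mul_right_eq_zero).mp hk.symm))

/-- An inertia element fixes an integral root with unit derivative. -/
theorem inertia_fixes_of_separable (hσ : σ ∈ A.inertiaSubgroupIn ℚ) {f : Polynomial ℤ}
    (hf : f.Monic) {x : Qbar} (hx : Polynomial.aeval x f = 0)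
    (hsep : Polynomial.aeval x f.derivative ∉ A.nonunits) : σ x = x := by
  have hxA : x ∈ A := mem_of_isIntegral ⟨f, hf, hx⟩
  obtain ⟨hD, hI⟩ := mem_inertia_iff.mp hσ
  refine eq_of_congruent_roots (fun r : ℤ => by simp) hxA
    ((mem_decomposition_iff.mp hD x).mpr hxA) hx ?_ hsep (hI x hxA)
  rw [show σ x = (σ.toAlgHom.restrictScalars ℤ) x from rfl, aeval_algHom_apply, hx, map_zero]

/-- Modulo a place over `ℓ`, the roots of `X ^ m - 1` are simple when `ℓ ∤ m`. -/
theorem natCast_mul_pow_ne_zero (hℓ : ℓ.Prime) (hA : A.LiesOverPrime ℓ) {m : ℕ} (hm : ¬ ℓ ∣ m)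
    {ζ : Qbar} (hζ : ζ ^ m = 1) : aeval ζ (X ^ m - 1 : ℤ[X]).derivative ∉ A.nonunits := by
  have hm0 : 0 < m := Nat.pos_of_ne_zero fun h => hm (h ▸ dvd_zero ℓ)
  have hζA : ζ ∈ A := mem_of_isIntegral (IsIntegral.of_pow hm0 (hζ ▸ isIntegral_one))
  intro h
  simp only [derivative_sub, derivative_X_pow, derivative_one, sub_zero, map_mul, map_natCast,
    map_pow, aeval_X] at h
  have h2 : ((m : ℕ) : Qbar) * ζ ^ (m - 1) * ζ ∈ A.nonunits :=
    mul_comm ζ _ ▸ mul_mem_nonunits hζA h
  rw [mul_assoc, ← pow_succ, Nat.sub_add_cancel hm0, hζ, mul_one] at h2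
  exact hm (Int.natCast_dvd_natCast.mp
    ((intCast_mem_nonunits_iff hℓ hA m).mp (by exact_mod_cast h2)))

/-- A Frobenius element acts on roots of unity of order prime to `ℓ` as the `ℓ`-th power. -/
theorem isFrobeniusAt_rootOfUnity (hℓ : ℓ.Prime) (hA : A.LiesOverPrime ℓ)
    (h : A.IsFrobeniusAt σ ℓ) {m : ℕ} (hm : ¬ ℓ ∣ m) {ζ : Qbar} (hζ : ζ ^ m = 1) :
    σ ζ = ζ ^ ℓ := by
  have hm0 : 0 < m := Nat.pos_of_ne_zero fun h => hm (h ▸ dvd_zero ℓ)
  have hζA : ζ ∈ A := mem_of_isIntegral (IsIntegral.of_pow hm0 (hζ ▸ isIntegral_one))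
  have hζ' : (ζ ^ ℓ) ^ m = 1 := by rw [← pow_mul, mul_comm, pow_mul, hζ, one_pow]
  obtain ⟨hD, hF⟩ := isFrobeniusAt_iff.mp h
  refine eq_of_congruent_roots (f := X ^ m - 1) (fun r : ℤ => by simp)
    (pow_mem hζA ℓ) ((mem_decomposition_iff.mp hD ζ).mpr hζA) (by simp [hζ']) ?_
    (natCast_mul_pow_ne_zero hℓ hA hm hζ') (hF ζ hζA)
  rw [map_sub, map_one, map_pow, aeval_X, ← map_pow, hζ, map_one, sub_self]

/-- Inertia at `ℓ` fixes the roots of unity of order prime to `ℓ`. -/
theorem inertia_rootOfUnity (hℓ : ℓ.Prime) (hA : A.LiesOverPrime ℓ)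
    (h : σ ∈ A.inertiaSubgroupIn ℚ) {m : ℕ} (hm : ¬ ℓ ∣ m) {ζ : Qbar} (hζ : ζ ^ m = 1) :
    σ ζ = ζ :=
  have hm0 : 0 < m := Nat.pos_of_ne_zero fun h => hm (h ▸ dvd_zero ℓ)
  inertia_fixes_of_separable h (monic_X_pow_sub_C (1 : ℤ) hm0.ne')
    (by simp [hζ]) (by rw [map_one]; exact natCast_mul_pow_ne_zero hℓ hA hm hζ)

end Fermat.Agent.Gal
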