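import Mathlib.NumberTheory.NumberField.Discriminant.Basic
import Mathlib.NumberTheory.NumberField.Discriminant.Different
import Mathlib.NumberTheory.RamificationInertia.Galois
import Mathlib.RingTheory.Unramified.Dedekind
import Fermat.Prelude.Def_GaloisRep_Residual
import Fermat.Agent.Gal.Basic

/-!
# Finite levels of the absolute Galois group

Lifting of inertia to `ℚ̄`, unramifiedness at almost all primes, and Minkowski's theorem for the
finite extensions cut out by representations.
-/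

noncomputable section

open scoped Pointwise NumberField
open IntermediateField Polynomial

namespace Fermat.Agent.Gal

local notation "Qbar" => AlgebraicClosure ℚ
local notation "OZ" => integralClosure ℤ (AlgebraicClosure ℚ)

variable {A : ValuationSubring Qbar} {ℓ : ℕ}

/-! ### Lifting decomposition and inertia elements -/

/-- An algebraic integer fixed by the fixing subgroup of `F` lies in `F`. -/
theorem coe_mem_of_fixed {F : IntermediateField ℚ Qbar} {x : OZ}
    (hx : ∀ h : F.fixingSubgroup, h • x = x) : (x : Qbar) ∈ F := by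
  rw [← InfiniteGalois.fixedField_fixingSubgroup F]
  exact fun h => congrArg Subtype.val (hx h)

/-- An automorphism preserving the trace of a place on `F` agrees on `F` with an element of the
decomposition group. -/
theorem exists_mem_decomposition_eqOn (hℓ : ℓ.Prime) (hA : A.LiesOverPrime ℓ)
    (F : IntermediateField ℚ Qbar) (g : AbsGal)
    (h : ∀ x ∈ F, IsIntegral ℤ x → (g x ∈ A.nonunits ↔ x ∈ A.nonunits)) :
    ∃ σ ∈ A.decompositionSubgroup ℚ, ∀ x ∈ F, σ x = g x := by
  obtain ⟨τ, hτ, hτA⟩ := exists_mem_smul_eq F.fixingSubgroup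
    (InfiniteGalois.fixingSubgroup_isClosed F) hℓ hA (liesOverPrime_smul g⁻¹ hA)
    fun x hx hfix => by
      have hxF : x ∈ F := coe_mem_of_fixed (x := ⟨x, hx⟩) fun k => Subtype.ext (hfix k k.2)
      rw [mem_nonunits_smul_iff, inv_inv, h x hxF hx]
  refine ⟨g * τ, ?_, fun x hx => ?_⟩
  · rw [MulAction.mem_stabilizer_iff, mul_smul, hτA, smul_inv_smul]
  · rw [AlgEquiv.mul_apply, (mem_fixingSubgroup_iff F τ).mp hτ x hx]

/-- An automorphism congruent to the identity on the integers of `F` agrees on `F` with an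
inertia element. -/
theorem exists_mem_inertia_eqOn (hℓ : ℓ.Prime) (hA : A.LiesOverPrime ℓ)
    (F : IntermediateField ℚ Qbar) (g : AbsGal)
    (h : ∀ x ∈ F, IsIntegral ℤ x → g x - x ∈ A.nonunits) :
    ∃ σ ∈ A.inertiaSubgroupIn ℚ, ∀ x ∈ F, σ x = g x := by
  obtain ⟨σ, hσ, hσF⟩ := exists_mem_decomposition_eqOn hℓ hA F g fun x hx hxi => by
    constructor
    · intro hg
      simpa using sub_mem hg (h x hx hxi)
    · intro hx'
      simpa using add_mem hx' (h x hx hxi)
  have hP : idealAt A = σ • idealAt A := by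
    rw [← idealAt_smul, MulAction.mem_stabilizer_iff.mp hσ]
  let φ : (OZ ⧸ idealAt A) ≃+* (OZ ⧸ idealAt A) :=
    Ideal.quotientEquiv _ _ (MulSemiringAction.toRingEquiv _ OZ σ)
      (by rw [Ideal.pointwise_smul_def] at hP; exact hP)
  have hφ : ∀ x : OZ, φ (Ideal.Quotient.mk _ x) = Ideal.Quotient.mk _ (σ • x) := fun _ => rfl
  obtain ⟨τ, hτF, hτ, hτσ⟩ := exists_mem_residue_eq F.fixingSubgroup
    (InfiniteGalois.fixingSubgroup_isClosed F) hℓ hA φ fun x hx => by
      rw [hφ, Ideal.Quotient.eq, mem_idealAt]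
      have hxF := coe_mem_of_fixed hx
      change σ (x : Qbar) - (x : Qbar) ∈ A.nonunits
      rw [hσF _ hxF]
      exact h _ hxF x.2
  refine ⟨σ * τ⁻¹, mem_inertia_of_isIntegral hℓ hA (mul_mem hσ (inv_mem hτ)) fun y hy => ?_,
    fun x hx => ?_⟩
  · set x : OZ := τ⁻¹ • ⟨y, hy⟩ with hx
    have := hτσ x
    rw [hφ, Ideal.Quotient.eq, mem_idealAt] at this
    have h2 : (τ • x : OZ) = ⟨y, hy⟩ := by rw [hx, smul_inv_smul]
    rw [h2] at this
    have h3 := neg_mem this
    rw [AlgEquiv.mul_apply]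
    simpa [hx] using! h3
  · rw [AlgEquiv.mul_apply, (mem_fixingSubgroup_iff F _).mp (inv_mem hτF) x hx, hσF x hx]

/-! ### Places and primes of a number field inside `ℚ̄` -/

/-- The prime of `𝓞 F` under a place. -/
def placePrime (A : ValuationSubring Qbar) (F : IntermediateField ℚ Qbar) : Ideal (𝓞 F) :=
  (IsLocalRing.maximalIdeal A).comap
    (RingHom.codRestrict ((algebraMap F Qbar).comp (algebraMap (𝓞 F) F)) A.toSubring
      fun x => mem_of_isIntegral (x.2.map (IsScalarTower.toAlgHom ℤ F Qbar)))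

instance placePrime_isPrime (A : ValuationSubring Qbar) (F : IntermediateField ℚ Qbar) :
    (placePrime A F).IsPrime :=
  Ideal.comap_isPrime _ _

theorem mem_placePrime {F : IntermediateField ℚ Qbar} {x : 𝓞 F} :
    x ∈ placePrime A F ↔ ((x : F) : Qbar) ∈ A.nonunits :=
  ValuationSubring.coe_mem_nonunits_iff.symm

/-- Every prime of `𝓞 F` over `ℓ` lies under a place over `ℓ`. -/
theorem exists_place_of_prime (hℓ : ℓ.Prime) (F : IntermediateField ℚ Qbar)
    [FiniteDimensional ℚ F] (P : Ideal (𝓞 F)) [P.IsPrime] (hP : (ℓ : 𝓞 F) ∈ P) :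
    ∃ A : ValuationSubring Qbar, A.LiesOverPrime ℓ ∧ placePrime A F = P := by
  have : NumberField F := @NumberField.mk _ _ inferInstance ‹_›
  let ι : 𝓞 F →+* Qbar := (algebraMap F Qbar).comp (algebraMap (𝓞 F) F)
  have hι : Function.Injective ι :=
    (algebraMap F Qbar).injective.comp NumberField.RingOfIntegers.coe_injective
  let e : 𝓞 F ≃+* ι.range := RingEquiv.ofBijective ι.rangeRestrict
    ⟨fun x y h => hι (congrArg (fun z : ι.range => (z : Qbar)) h), ι.rangeRestrict_surjective⟩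
  have hI : P.map (e : 𝓞 F →+* ι.range) ≠ ⊤ :=
    (Ideal.map_isPrime_of_equiv e).ne_top
  obtain ⟨A, -, hA⟩ := Ideal.image_subset_nonunits_valuationSubring _ hI
  have hle : P ≤ placePrime A F := fun x hx =>
    mem_placePrime.mpr (hA ⟨_, Ideal.mem_map_of_mem _ hx, rfl⟩)
  have hℓA : A.LiesOverPrime ℓ := by
    have := mem_placePrime.mp (hle hP)
    simpa [ValuationSubring.LiesOverPrime] using! this
  refine ⟨A, hℓA, ?_⟩
  have hne : P ≠ ⊥ := fun h => by
    rw [h, Ideal.mem_bot, Nat.cast_eq_zero] at hP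
    exact hℓ.ne_zero hP
  exact ((Ideal.IsPrime.isMaximal ‹_› hne).eq_of_le (placePrime_isPrime A F).ne_top hle).symm

/-! ### Almost everywhere unramified -/

/-- For a nonzero algebraic integer there is a nonzero rational integer (the constant term of its
minimal polynomial) which is a nonunit at every place where it is. -/
theorem exists_int_of_isIntegral_ne_zero {α : Qbar} (hα : IsIntegral ℤ α) (h0 : α ≠ 0) :
    ∃ c : ℤ, c ≠ 0 ∧ ∀ A : ValuationSubring Qbar, α ∈ A.nonunits → (c : Qbar) ∈ A.nonunits := by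
  have hne : (minpoly ℤ α).coeff 0 ≠ 0 := fun h => by
    have h' := minpoly.coeff_zero_ne_zero (hα.tower_top (A := ℚ)) h0
    rw [minpoly.isIntegrallyClosed_eq_field_fractions' ℚ hα, coeff_map, h, map_zero] at h'
    exact h' rfl
  refine ⟨(minpoly ℤ α).coeff 0, hne, fun A hA => ?_⟩
  have h := congrArg (aeval α) (X_mul_divX_add (minpoly ℤ α))
  simp only [map_add, map_mul, aeval_X, aeval_C, minpoly.aeval, eq_intCast (algebraMap ℤ Qbar)] at h
  rw [show ((minpoly ℤ α).coeff 0 : Qbar) = -(aeval α (minpoly ℤ α).divX) * α by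
    linear_combination h]
  refine mul_mem_nonunits (neg_mem ?_) hA
  exact mem_of_isIntegral (IsIntegral.of_mem_of_fg _ hα.fg_adjoin_singleton _
    (aeval_mem_adjoin_singleton ℤ α))

/-- Inertia fixes a given algebraic number outside finitely many primes. -/
theorem exists_finset_inertia_fixes_element (x : Qbar) :
    ∃ S : Finset ℕ, ∀ ℓ : ℕ, ℓ.Prime → ℓ ∉ S → ∀ A : ValuationSubring Qbar, A.LiesOverPrime ℓ →
      ∀ σ ∈ A.inertiaSubgroupIn ℚ, σ x = x := by
  have halg : IsAlgebraic ℤ x :=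
    (IsFractionRing.isAlgebraic_iff ℤ ℚ Qbar).mpr (Algebra.IsAlgebraic.isAlgebraic x)
  obtain ⟨m, hm, hy⟩ := halg.exists_integral_multiple
  set f := minpoly ℤ (m • x) with hf
  have hd : aeval (m • x) f.derivative ≠ 0 := by
    have h := (minpoly.irreducible ((Algebra.IsAlgebraic.isAlgebraic
      (R := ℚ) (m • x)).isIntegral)).separable.aeval_derivative_ne_zero (minpoly.aeval ℚ (m • x))
    rwa [minpoly.isIntegrallyClosed_eq_field_fractions' ℚ hy, derivative_map,
      aeval_map_algebraMap] at h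
  obtain ⟨c, hc, hcA⟩ := exists_int_of_isIntegral_ne_zero
    (IsIntegral.of_mem_of_fg _ hy.fg_adjoin_singleton _ (aeval_mem_adjoin_singleton ℤ _)) hd
  refine ⟨c.natAbs.primeFactors, fun ℓ hℓ hℓS A hA σ hσ => ?_⟩
  have hfix : σ (m • x) = m • x :=
    inertia_fixes_of_separable hσ (minpoly.monic hy) (minpoly.aeval ℤ _) fun h => by
      refine hℓS (Nat.mem_primeFactors.mpr ⟨hℓ, ?_, Int.natAbs_ne_zero.mpr hc⟩)
      exact Int.natCast_dvd.mp ((intCast_mem_nonunits_iff hℓ hA c).mp (hcA A h))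
  rw [map_zsmul] at hfix
  exact smul_right_injective Qbar hm hfix

/-- Inertia at every place over a prime outside a finite set fixes a given finite extension. -/
theorem exists_finset_inertia_fixes (L : IntermediateField ℚ Qbar) [FiniteDimensional ℚ L] :
    ∃ S : Finset ℕ, ∀ ℓ : ℕ, ℓ.Prime → ℓ ∉ S → ∀ A : ValuationSubring Qbar, A.LiesOverPrime ℓ →
      ∀ σ ∈ A.inertiaSubgroupIn ℚ, ∀ x ∈ L, σ x = x := by
  classical
  choose S hS using exists_finset_inertia_fixes_element
  let b := Module.finBasis ℚ L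
  refine ⟨Finset.univ.biUnion fun i => S (b i : Qbar), fun ℓ hℓ hℓS A hA σ hσ x hx => ?_⟩
  have hb : ∀ i, σ (b i : Qbar) = b i := fun i =>
    hS _ ℓ hℓ (fun h => hℓS (Finset.mem_biUnion.mpr ⟨i, Finset.mem_univ _, h⟩)) A hA σ hσ
  have : σ.toLinearMap.comp L.val.toLinearMap = L.val.toLinearMap :=
    b.ext fun i => hb i
  exact LinearMap.congr_fun this ⟨x, hx⟩

/-- A map through a finite level is unramified outside a finite set of primes. -/
theorem exists_finset_unramified {M : Type} [MulOneClass M] (ρ : AbsGal →* M)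
    (hρ : GaloisFactorsThroughFiniteLevel ρ) :
    ∃ S : Finset ℕ, ∀ ℓ : ℕ, ℓ.Prime → ℓ ∉ S → ∀ A : ValuationSubring Qbar, A.LiesOverPrime ℓ →
      ∀ σ ∈ A.inertiaSubgroupIn ℚ, ρ σ = 1 := by
  obtain ⟨L, hL, hρ⟩ := hρ
  obtain ⟨S, hS⟩ := exists_finset_inertia_fixes L
  exact ⟨S, fun ℓ hℓ hℓS A hA σ hσ => hρ σ (hS ℓ hℓ hℓS A hA σ hσ)⟩

/-! ### Normal closure and unramified primes -/

/-- If all inertia groups over `ℓ` fix `L`, they fix its normal closure. -/
theorem inertia_fixes_normalClosure (L : IntermediateField ℚ Qbar)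
    (h : ∀ A : ValuationSubring Qbar, A.LiesOverPrime ℓ →
      ∀ σ ∈ A.inertiaSubgroupIn ℚ, ∀ x ∈ L, σ x = x)
    (A : ValuationSubring Qbar) (hA : A.LiesOverPrime ℓ) (σ : AbsGal)
    (hσ : σ ∈ A.inertiaSubgroupIn ℚ) :
    ∀ x ∈ IntermediateField.normalClosure ℚ L Qbar, σ x = x := by
  suffices IntermediateField.normalClosure ℚ L Qbar ≤
      IntermediateField.fixedField (Subgroup.zpowers σ) from
    fun x hx => this hx ⟨σ, Subgroup.mem_zpowers σ⟩
  refine (IntermediateField.normalClosure_def'' L).trans_le (iSup_le fun f => ?_)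
  rintro _ ⟨x, hx, rfl⟩ ⟨k, j, rfl⟩
  have key : σ (f x) = f x := by
    have h1 := h _ (liesOverPrime_smul f⁻¹ hA) _ (conj_mem_inertia hσ f⁻¹) x hx
    rw [inv_inv] at h1
    simpa using! congrArg f h1
  exact zpow_mem (K := MulAction.stabilizer AbsGal (f x)) key j

/-- The absolute discriminant avoids the primes whose inertia groups fix a Galois extension. -/
theorem not_dvd_discr_of_inertia_fixes (hℓ : ℓ.Prime) (L : IntermediateField ℚ Qbar)
    [FiniteDimensional ℚ L] [IsGalois ℚ L] [NumberField L]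
    (h : ∀ A : ValuationSubring Qbar, A.LiesOverPrime ℓ →
      ∀ σ ∈ A.inertiaSubgroupIn ℚ, ∀ x ∈ L, σ x = x) :
    ¬ (ℓ : ℤ) ∣ NumberField.discr L := by
  rw [NumberField.not_dvd_discr_iff_forall_mem L (𝓞 L) (Nat.prime_iff_prime_int.mp hℓ)]
  intro P _ hP
  rw [Int.cast_natCast] at hP
  obtain ⟨A, hA, rfl⟩ := exists_place_of_prime hℓ L P hP
  have : IsGaloisGroup Gal(L/ℚ) ℤ (𝓞 L) := IsGaloisGroup.of_isFractionRing _ ℤ (𝓞 L) ℚ L
  have hbot : (placePrime A L).inertia Gal(L/ℚ) = ⊥ := by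
    refine (Subgroup.eq_bot_iff_forall _).mpr fun g hg => AlgEquiv.ext fun z => ?_
    obtain ⟨σ, hσ, hσg⟩ := exists_mem_inertia_eqOn hℓ hA L (g.liftNormal Qbar) fun x hx hxi => by
      have hxi' : IsIntegral ℤ (⟨x, hx⟩ : L) :=
        (isIntegral_algHom_iff (IsScalarTower.toAlgHom ℤ L Qbar)
          (algebraMap L Qbar).injective).mp hxi
      have h1 := mem_placePrime.mp (hg ⟨⟨x, hx⟩, hxi'⟩)
      have h2 : g.liftNormal Qbar x = ((g ⟨x, hx⟩ : L) : Qbar) := g.liftNormal_commutes Qbar ⟨x, hx⟩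
      rw [h2]
      simpa using! h1
    refine (algebraMap L Qbar).injective ?_
    rw [← g.liftNormal_commutes Qbar z]
    exact (hσg _ z.2).symm.trans (h A hA σ hσ _ z.2)
  have hne : placePrime A L ≠ ⊥ := fun h0 => by
    rw [h0, Ideal.mem_bot, Nat.cast_eq_zero] at hP
    exact hℓ.ne_zero hP
  have : (placePrime A L).IsMaximal := Ideal.IsPrime.isMaximal inferInstance hne
  rw [← Ideal.ramificationIdx_eq_one_iff,
    ← Ideal.ramificationIdxIn_eq_ramificationIdx ((placePrime A L).under ℤ) _ Gal(L/ℚ),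
    ← Ideal.card_inertia_eq_ramificationIdxIn (G := Gal(L/ℚ)) ((placePrime A L).under ℤ)
      (placePrime A L), hbot, Subgroup.card_bot]

/-- Minkowski: a finite extension of `ℚ` fixed by all inertia groups is `ℚ`. -/
theorem intermediateField_eq_bot_of_unramified (L : IntermediateField ℚ Qbar)
    [FiniteDimensional ℚ L]
    (h : ∀ ℓ : ℕ, ℓ.Prime → ∀ A : ValuationSubring Qbar, A.LiesOverPrime ℓ →
      ∀ σ ∈ A.inertiaSubgroupIn ℚ, ∀ x ∈ L, σ x = x) : L = ⊥ := by
  let N := IntermediateField.normalClosure ℚ L Qbar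
  have : NumberField N := @NumberField.mk _ _ inferInstance inferInstance
  have : Normal ℚ N := normalClosure.normal ℚ L Qbar
  have : IsGalois ℚ N := ⟨⟩
  have h1 : Module.finrank ℚ N = 1 := by
    by_contra hne
    have h2 := NumberField.abs_discr_gt_two (K := N) (by
      have := Module.finrank_pos (R := ℚ) (M := N); omega)
    obtain ⟨p, hp, hpd⟩ := (NumberField.discr N).exists_prime_and_dvd (by
      intro hu; rw [← Int.natCast_natAbs, hu] at h2; norm_num at h2)
    have hp' : p.natAbs.Prime := Int.prime_iff_natAbs_prime.mp hp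
    exact not_dvd_discr_of_inertia_fixes hp' N
      (inertia_fixes_normalClosure L (h _ hp')) (Int.natAbs_dvd.mpr hpd)
  exact le_bot_iff.mp (L.le_normalClosure.trans (IntermediateField.finrank_eq_one_iff.mp h1).le)

/-- An everywhere unramified finite-level homomorphism on `G_ℚ` is trivial. -/
theorem eq_one_of_unramified {M : Type} [Monoid M] (ρ : AbsGal →* M)
    (hρ : GaloisFactorsThroughFiniteLevel ρ)
    (h : ∀ ℓ : ℕ, ℓ.Prime → ∀ A : ValuationSubring Qbar, A.LiesOverPrime ℓ →
      ∀ σ ∈ A.inertiaSubgroupIn ℚ, ρ σ = 1) (g : AbsGal) : ρ g = 1 := by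
  obtain ⟨L, hL, hρ⟩ := hρ
  let H : Subgroup AbsGal := ρ.toHomUnits.ker
  have hH : ∀ σ, σ ∈ H ↔ ρ σ = 1 := fun σ => by
    rw [MonoidHom.mem_ker, Units.ext_iff, MonoidHom.coe_toHomUnits, Units.val_one]
  let F := IntermediateField.fixedField H
  have hFL : F ≤ L := by
    rw [← InfiniteGalois.fixedField_fixingSubgroup L]
    exact IntermediateField.fixedField_le ((fun σ hσ => (hH σ).mpr
      (hρ σ ((mem_fixingSubgroup_iff L σ).mp hσ))))
  have : FiniteDimensional ℚ F := FiniteDimensional.of_injective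
    (IntermediateField.inclusion hFL).toLinearMap (IntermediateField.inclusion hFL).injective
  have hF := intermediateField_eq_bot_of_unramified F fun ℓ hℓ A hA σ hσ x hx =>
    hx ⟨σ, (hH σ).mpr (h ℓ hℓ A hA σ hσ)⟩
  have hop : IsOpen (H : Set AbsGal) := Subgroup.isOpen_mono
    (fun σ hσ => (hH σ).mpr (hρ σ ((mem_fixingSubgroup_iff L σ).mp hσ))) L.fixingSubgroup_isOpen
  have htop : H = ⊤ := by
    have := InfiniteGalois.fixingSubgroup_fixedField ⟨H, Subgroup.isClosed_of_isOpen H hop⟩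
    change F.fixingSubgroup = H at this
    rw [← this, hF, IntermediateField.fixingSubgroup_bot]
  exact (hH g).mp (htop ▸ Subgroup.mem_top g)

end Fermat.Agent.Gal
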