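import Mathlib.FieldTheory.Galois.Basic
import Mathlib.RingTheory.ZMod
import Fermat.Agent.Gal.EulerLog
import Fermat.Agent.Gal.FiniteLevel

/-!
# Frobenius density

A weak form of the Chebotarev density theorem: every element of a finite Galois group generates the
same cyclic subgroup as some Frobenius element outside a given finite set of primes.
-/

noncomputable section

open Filter Topology
open scoped Pointwise NumberField
open IntermediateField Polynomial IsLocalRing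

namespace Fermat.Agent.Gal

local notation "Qbar" => AlgebraicClosure ℚ

section Embeddings

variable (F : Type) [Field F] [NumberField F]

/-- Outside a finite set of primes, congruent embeddings of a number field are equal. -/
theorem exists_finset_embeddings_separated :
    ∃ S : Finset ℕ, ∀ ℓ : ℕ, ℓ.Prime → ℓ ∉ S → ∀ A : ValuationSubring Qbar, A.LiesOverPrime ℓ →
      ∀ e e' : F →ₐ[ℚ] Qbar, (∀ z : 𝓞 F, e z - e' z ∈ A.nonunits) → e = e' := by
  classical
  have key : ∀ p : (F →ₐ[ℚ] Qbar) × (F →ₐ[ℚ] Qbar), ∃ S : Finset ℕ, ∀ ℓ : ℕ, ℓ.Prime → ℓ ∉ S →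
      ∀ A : ValuationSubring Qbar, A.LiesOverPrime ℓ →
        (∀ z : 𝓞 F, p.1 z - p.2 z ∈ A.nonunits) → p.1 = p.2 := by
    rintro ⟨e, e'⟩
    by_cases hee : e = e'
    · exact ⟨∅, fun _ _ _ _ _ _ => hee⟩
    obtain ⟨z, hz⟩ : ∃ z : 𝓞 F, e z ≠ e' z := by
      by_contra hcon
      push Not at hcon
      refine hee (AlgHom.ext fun x => ?_)
      obtain ⟨a, b, hb, rfl⟩ := IsFractionRing.div_surjective (𝓞 F) x
      rw [map_div₀, map_div₀, hcon a, hcon b]
    have hint : IsIntegral ℤ (e z - e' z) :=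
      (z.2.map (e.restrictScalars ℤ)).sub (z.2.map (e'.restrictScalars ℤ))
    obtain ⟨c, hc, hcA⟩ := exists_int_of_isIntegral_ne_zero hint (sub_ne_zero.mpr hz)
    refine ⟨c.natAbs.primeFactors, fun ℓ hℓ hℓS A hA h => absurd ?_ hℓS⟩
    exact Nat.mem_primeFactors.mpr ⟨hℓ,
      Int.natCast_dvd.mp ((intCast_mem_nonunits_iff hℓ hA c).mp (hcA A (h z))),
      Int.natAbs_ne_zero.mpr hc⟩
  choose S hS using key
  exact ⟨Finset.univ.biUnion S, fun ℓ hℓ hℓS A hA e e' h => hS (e, e') ℓ hℓ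
    (fun hmem => hℓS (Finset.mem_biUnion.mpr ⟨_, Finset.mem_univ _, hmem⟩)) A hA h⟩

variable {F}

/-- The residue map of an embedding at a place. -/
def residueAt (A : ValuationSubring Qbar) (e : F →ₐ[ℚ] Qbar) : 𝓞 F →+* ResidueField A :=
  (residue A).comp ((e.toRingHom.comp (algebraMap (𝓞 F) F)).codRestrict A.toSubring
    fun z => mem_of_isIntegral (z.2.map (e.restrictScalars ℤ)))

/-- The kernel of the residue map of an embedding. -/
theorem residueAt_eq_zero {A : ValuationSubring Qbar} {e : F →ₐ[ℚ] Qbar} {z : 𝓞 F} :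
    residueAt A e z = 0 ↔ e z ∈ A.nonunits := by
  rw [residueAt, RingHom.comp_apply, residue_eq_zero_iff]
  exact ValuationSubring.coe_mem_nonunits_iff.symm

/-- Two residues agree iff the difference is a nonunit at the place. -/
theorem residueAt_congr {A : ValuationSubring Qbar} {e e' : F →ₐ[ℚ] Qbar} {z z' : 𝓞 F} :
    residueAt A e z = residueAt A e' z' ↔ e z - e' z' ∈ A.nonunits := by
  rw [← sub_eq_zero, residueAt, residueAt, RingHom.comp_apply, RingHom.comp_apply, ← map_sub,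
    residue_eq_zero_iff]
  exact ValuationSubring.coe_mem_nonunits_iff.symm

/-- The kernel of a residue map at a place over a prime is not zero. -/
theorem ker_residueAt_ne_bot {ℓ : ℕ} (hℓ : ℓ.Prime) {A : ValuationSubring Qbar}
    (hA : A.LiesOverPrime ℓ) (e : F →ₐ[ℚ] Qbar) : RingHom.ker (residueAt A e) ≠ ⊥ := by
  intro h
  have := residueField_charP hℓ hA
  have h1 : (ℓ : 𝓞 F) ∈ RingHom.ker (residueAt A e) := by
    rw [RingHom.mem_ker, map_natCast, CharP.cast_eq_zero]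
  rw [h, Ideal.mem_bot, Nat.cast_eq_zero] at h1
  exact hℓ.ne_zero h1

/-- An embedding fixed by a Frobenius element at a place over `ℓ` cuts out a prime of norm `ℓ`. -/
theorem absNorm_ker_residueAt {ℓ : ℕ} (hℓ : ℓ.Prime) {A : ValuationSubring Qbar}
    (hA : A.LiesOverPrime ℓ) {σ : AbsGal} (hσ : A.IsFrobeniusAt σ ℓ) {e : F →ₐ[ℚ] Qbar}
    (he : σ.toAlgHom.comp e = e) : Ideal.absNorm (RingHom.ker (residueAt A e)) = ℓ := by
  classical
  obtain ⟨-, hF⟩ := isFrobeniusAt_iff.mp hσ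
  have : Fact ℓ.Prime := ⟨hℓ⟩
  have := residueField_charP hℓ hA
  set P := RingHom.ker (residueAt A e) with hP
  have hfix : ∀ z : 𝓞 F, residueAt A e z ^ ℓ = residueAt A e z := fun z => by
    rw [← map_pow, residueAt_congr]
    have h1 := hF (e z) (mem_of_isIntegral (z.2.map (e.restrictScalars ℤ)))
    rw [show σ (e z) = e z from AlgHom.congr_fun he z] at h1
    simpa using! neg_mem h1
  have : P.IsPrime := RingHom.ker_isPrime _
  have hroots : Set.Finite {x : ResidueField A | x ^ ℓ = x} := by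
    refine (Polynomial.finite_setOfPred_isRoot (p := (X ^ ℓ - X : (ResidueField A)[X]))
      (FiniteField.X_pow_card_sub_X_ne_zero _ hℓ.one_lt)).subset fun x hx => ?_
    simp [sub_eq_zero, show x ^ ℓ = x from hx]
  have hle : Ideal.absNorm P ≤ ℓ := by
    have := hroots.to_subtype
    rw [Ideal.absNorm_apply, Submodule.cardQuot_apply]
    refine (Nat.card_le_card_of_injective
      (fun q : 𝓞 F ⧸ P => (⟨RingHom.kerLift (residueAt A e) q, ?_⟩ :
        {x : ResidueField A | x ^ ℓ = x})) ?_).trans ?_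
    · obtain ⟨z, rfl⟩ := Ideal.Quotient.mk_surjective q
      exact hfix z
    · exact fun a b hab => RingHom.kerLift_injective _ (congrArg Subtype.val hab)
    · rw [Nat.card_coe_set_eq]
      refine le_trans (Set.ncard_le_ncard
        (t := ((X ^ ℓ - X : (ResidueField A)[X]).roots.toFinset : Set (ResidueField A)))
        (fun x hx => ?_) (Finset.finite_toSet _)) ?_
      · simp [FiniteField.X_pow_card_sub_X_ne_zero _ hℓ.one_lt, show x ^ ℓ = x from hx]
      · rw [Set.ncard_coe_finset]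
        exact (Multiset.toFinset_card_le _).trans ((Polynomial.card_roots' _).trans
          (FiniteField.X_pow_card_sub_X_natDegree_eq _ hℓ.one_lt).le)
  obtain ⟨q, hq, hqP, hqN⟩ :=
    exists_prime_pow_absNorm ⟨P, inferInstance, ker_residueAt_ne_bot hℓ hA e⟩
  have hqℓ : q = ℓ := by
    refine liesOverPrime_unique (A := A) hq hℓ ?_ hA
    have h1 : residueAt A e (q : 𝓞 F) = 0 := RingHom.mem_ker.mp hqP
    rw [residueAt_eq_zero] at h1
    simpa [ValuationSubring.LiesOverPrime] using! h1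
  subst hqℓ
  exact le_antisymm hle (Nat.le_of_dvd
    (Nat.pos_of_ne_zero (mt Ideal.absNorm_eq_zero_iff.mp (ker_residueAt_ne_bot hℓ hA e))) hqN)

/-- Modulo an ideal of prime norm every integer is congruent to a rational one. -/
theorem exists_int_sub_mem {ℓ : ℕ} (hℓ : ℓ.Prime) {P : Ideal (𝓞 F)} (hP : Ideal.absNorm P = ℓ)
    (z : 𝓞 F) : ∃ n : ℤ, z - n ∈ P := by
  have : Fact ℓ.Prime := ⟨hℓ⟩
  rw [Ideal.absNorm_apply, Submodule.cardQuot_apply] at hP
  have : Finite (𝓞 F ⧸ P) := Nat.finite_of_card_ne_zero (hP ▸ hℓ.ne_zero)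
  have := Fintype.ofFinite (𝓞 F ⧸ P)
  rw [Nat.card_eq_fintype_card] at hP
  let ε := ZMod.ringEquivOfPrime (𝓞 F ⧸ P) hℓ hP
  refine ⟨(ε.symm (Ideal.Quotient.mk P z)).val, ?_⟩
  rw [← Ideal.Quotient.eq, map_intCast, Int.cast_natCast, ← map_natCast ε,
    ZMod.natCast_zmod_val, RingEquiv.apply_symm_apply]

/-- The ideals of norm `ℓ` of a number field correspond to the embeddings fixed by a Frobenius
element, away from a finite set. -/
theorem normCount_eq_card_fixed {S : Finset ℕ}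
    (hS : ∀ ℓ : ℕ, ℓ.Prime → ℓ ∉ S → ∀ A : ValuationSubring Qbar, A.LiesOverPrime ℓ →
      ∀ e e' : F →ₐ[ℚ] Qbar, (∀ z : 𝓞 F, e z - e' z ∈ A.nonunits) → e = e')
    {ℓ : ℕ} (hℓ : ℓ.Prime) (hℓS : ℓ ∉ S) {A : ValuationSubring Qbar} (hA : A.LiesOverPrime ℓ)
    {σ : AbsGal} (hσ : A.IsFrobeniusAt σ ℓ) :
    normCount F ℓ = Nat.card {e : F →ₐ[ℚ] Qbar // σ.toAlgHom.comp e = e} := by
  classical
  obtain ⟨hD, -⟩ := isFrobeniusAt_iff.mp hσ
  have hcard : ∀ e : {e : F →ₐ[ℚ] Qbar // σ.toAlgHom.comp e = e},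
      Ideal.absNorm (RingHom.ker (residueAt A e.1)) = ℓ :=
    fun e => absNorm_ker_residueAt hℓ hA hσ e.2
  refine (Nat.card_eq_of_bijective (fun e : {e : F →ₐ[ℚ] Qbar // σ.toAlgHom.comp e = e} =>
    (⟨RingHom.ker (residueAt A e.1), hcard e⟩ : {I : Ideal (𝓞 F) // Ideal.absNorm I = ℓ}))
    ⟨?_, ?_⟩).symm
  · rintro ⟨e, he⟩ ⟨e', he'⟩ h
    have hker : RingHom.ker (residueAt A e) = RingHom.ker (residueAt A e') := congrArg Subtype.val h
    refine Subtype.ext (hS ℓ hℓ hℓS A hA e e' fun z => ?_)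
    obtain ⟨n, hn⟩ := exists_int_sub_mem hℓ (hcard ⟨e, he⟩) z
    have h1 : residueAt A e (z - n) = 0 := hn
    have h2 : residueAt A e' (z - n) = 0 := (SetLike.ext_iff.mp hker _).mp hn
    rw [map_sub, map_intCast, sub_eq_zero] at h1 h2
    exact residueAt_congr.mp (h1.trans h2.symm)
  · rintro ⟨P, hP⟩
    have hPp : P.IsPrime := Ideal.isPrime_of_irreducible_absNorm (by rw [hP]; exact hℓ)
    let e₀ : F →ₐ[ℚ] Qbar := IsAlgClosed.lift
    let ι : 𝓞 F →+* Qbar := e₀.toRingHom.comp (algebraMap (𝓞 F) F)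
    have hι : Function.Injective ι :=
      e₀.toRingHom.injective.comp NumberField.RingOfIntegers.coe_injective
    let eq : 𝓞 F ≃+* ι.range := RingEquiv.ofBijective ι.rangeRestrict
      ⟨fun x y h => hι (congrArg (fun w : ι.range => (w : Qbar)) h), ι.rangeRestrict_surjective⟩
    have hI : P.map (eq : 𝓞 F →+* ι.range) ≠ ⊤ := (Ideal.map_isPrime_of_equiv eq).ne_top
    obtain ⟨A', -, hA'⟩ := Ideal.image_subset_nonunits_valuationSubring _ hI
    have hP' : ∀ z ∈ P, e₀ z ∈ A'.nonunits := fun z hz =>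
      hA' ⟨_, Ideal.mem_map_of_mem _ hz, rfl⟩
    have hA'ℓ : A'.LiesOverPrime ℓ := by
      have := hP' (ℓ : 𝓞 F) (by rw [← hP]; exact Ideal.absNorm_mem P)
      simpa [ValuationSubring.LiesOverPrime] using! this
    obtain ⟨τ, hτ⟩ := exists_smul_eq hℓ hA hA'ℓ
    let e : F →ₐ[ℚ] Qbar := (τ⁻¹).toAlgHom.comp e₀
    have hle : P ≤ RingHom.ker (residueAt A e) := fun z hz => by
      rw [RingHom.mem_ker, residueAt_eq_zero]
      have h1 := hP' z hz
      rw [← hτ, mem_nonunits_smul_iff] at h1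
      exact h1
    have hbot : P ≠ ⊥ := fun h => hℓ.ne_zero (by rw [← hP, h, Ideal.absNorm_bot])
    have hPe : P = RingHom.ker (residueAt A e) :=
      (hPp.isMaximal hbot).eq_of_le (RingHom.ker_isPrime _).ne_top hle
    have he : σ.toAlgHom.comp e = e := by
      refine hS ℓ hℓ hℓS A hA _ _ fun z => ?_
      obtain ⟨n, hn⟩ := exists_int_sub_mem hℓ hP z
      have h1 : e (z - n : 𝓞 F) ∈ A.nonunits := residueAt_eq_zero.mp (RingHom.mem_ker.mp (hle hn))
      have h2 := (decomposition_mem_nonunits_iff hD).mpr h1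
      have h3 := sub_mem h2 h1
      simpa using! h3
    exact ⟨⟨e, he⟩, Subtype.ext hPe.symm⟩

end Embeddings

/-! ### Counting inside a finite Galois group -/

section Counting

variable (N : IntermediateField ℚ Qbar) [FiniteDimensional ℚ N] [IsGalois ℚ N]

open Classical in
/-- The number of `x` conjugating `g` to a generator of `D`. -/
def genCount (g : Gal(N/ℚ)) (D : Subgroup Gal(N/ℚ)) : ℕ :=
  Nat.card {x : Gal(N/ℚ) // Subgroup.zpowers (x⁻¹ * g * x) = D}

/-- The number of `x` conjugating `g` into `C`. -/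
def conjCount (g : Gal(N/ℚ)) (C : Subgroup Gal(N/ℚ)) : ℕ :=
  Nat.card {x : Gal(N/ℚ) // x⁻¹ * g * x ∈ C}

/-- The number of generators of `D`. -/
def generatorCount (D : Subgroup Gal(N/ℚ)) : ℕ :=
  Nat.card {h : Gal(N/ℚ) // Subgroup.zpowers h = D}

variable {N}

omit [IsGalois ℚ N] in
open Classical in
/-- Sorting elements with value in `C` by the cyclic group their value generates. -/
theorem card_subtype_le_eq_sum (C : Subgroup Gal(N/ℚ)) (u : Gal(N/ℚ) → Gal(N/ℚ)) :
    Nat.card {x : Gal(N/ℚ) // u x ∈ C} =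
      ∑ D ∈ Finset.univ.filter (· ≤ C), Nat.card {x : Gal(N/ℚ) // Subgroup.zpowers (u x) = D} := by
  simp only [Nat.card_eq_fintype_card, Fintype.card_subtype]
  rw [Finset.card_eq_sum_card_fiberwise (f := fun x => Subgroup.zpowers (u x))
    (t := Finset.univ.filter (· ≤ C)) (fun x hx => by
      simpa [Subgroup.zpowers_le] using hx)]
  refine Finset.sum_congr rfl fun D hD => congrArg Finset.card ?_
  ext x
  simp only [Finset.mem_filter, Finset.mem_univ, true_and] at hD ⊢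
  exact ⟨fun h => h.2, fun h => ⟨hD (h ▸ Subgroup.mem_zpowers _), h⟩⟩

open Classical in
/-- The conjugators of `σ|N` into `C` are `#C` times the embeddings of `N^C` fixed by `σ`. -/
theorem conjCount_eq_mul (σ : AbsGal) (C : Subgroup Gal(N/ℚ)) :
    conjCount N (AlgEquiv.restrictNormalHom N σ) C = Nat.card C *
      Nat.card {e : IntermediateField.fixedField C →ₐ[ℚ] Qbar // σ.toAlgHom.comp e = e} := by
  set F := IntermediateField.fixedField C
  let r : Gal(N/ℚ) → (F →ₐ[ℚ] Qbar) := fun x => (N.val.comp x.toAlgHom).comp F.val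
  have hr : ∀ x y, r x = r y ↔ x⁻¹ * y ∈ C := by
    intro x y
    conv_rhs => rw [← IntermediateField.fixingSubgroup_fixedField C]
    rw [IntermediateField.mem_fixingSubgroup_iff]
    constructor
    · intro h z hz
      have h1 : x z = y z := Subtype.ext (AlgHom.congr_fun h ⟨z, hz⟩)
      rw [AlgEquiv.mul_apply, ← h1]
      exact x.symm_apply_apply z
    · intro h
      refine AlgHom.ext fun z => congrArg Subtype.val (?_ : x z = y z)
      have h1 := congrArg x (h z z.2)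
      rw [AlgEquiv.mul_apply] at h1
      exact h1.symm.trans (x.apply_symm_apply (y z))
  have hfib : ∀ x, (Finset.univ.filter fun y => r y = r x).card = Nat.card C := by
    intro x
    rw [Nat.card_eq_fintype_card, ← Finset.card_univ]
    refine Finset.card_bij (fun y hy => (⟨x⁻¹ * y, (hr x y).mp (by
      simpa using (Finset.mem_filter.mp hy).2.symm)⟩ : C)) (fun _ _ => Finset.mem_univ _) ?_ ?_
    · intro a _ b _ hab
      exact mul_left_cancel (congrArg Subtype.val hab)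
    · rintro ⟨c, hc⟩ -
      refine ⟨x * c, Finset.mem_filter.mpr ⟨Finset.mem_univ _, ?_⟩, Subtype.ext (by simp)⟩
      rw [eq_comm, hr]
      simpa using hc
  have himg : (Finset.univ.image r).card * Nat.card C = Nat.card Gal(N/ℚ) := by
    rw [Nat.card_eq_fintype_card (α := Gal(N/ℚ)), ← Finset.card_univ,
      Finset.card_eq_sum_card_image r Finset.univ, ← smul_eq_mul, ← Finset.sum_const]
    refine Finset.sum_congr rfl fun e he => ?_
    obtain ⟨x, -, rfl⟩ := Finset.mem_image.mp he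
    exact (hfib x).symm
  have hsurj : ∀ e, ∃ x, r x = e := by
    have huniv : Finset.univ.image r = Finset.univ := by
      refine Finset.eq_univ_of_card _ (Nat.eq_of_mul_eq_mul_right (Nat.card_pos (α := C)) ?_)
      rw [himg, AlgHom.card ℚ F Qbar, IsGalois.card_aut_eq_finrank,
        ← IntermediateField.finrank_fixedField_eq_card C, Module.finrank_mul_finrank]
    intro e
    have := Finset.mem_univ e
    rw [← huniv] at this
    obtain ⟨x, -, hx⟩ := Finset.mem_image.mp this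
    exact ⟨x, hx⟩
  have hσr : ∀ x, σ.toAlgHom.comp (r x) = r (AlgEquiv.restrictNormalHom N σ * x) := fun x =>
    AlgHom.ext fun z => (σ.restrictNormal_commutes N (x z)).symm
  rw [conjCount, Nat.card_eq_fintype_card (α := {x : Gal(N/ℚ) // _}), Fintype.card_subtype,
    Nat.card_eq_fintype_card (α := {e : F →ₐ[ℚ] Qbar // _}), Fintype.card_subtype, mul_comm,
    ← smul_eq_mul, ← Finset.sum_const,
    Finset.card_eq_sum_card_fiberwise (f := r)
      (t := Finset.univ.filter fun e => σ.toAlgHom.comp e = e) (fun x hx => ?_)]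
  · refine Finset.sum_congr rfl fun e he => ?_
    obtain ⟨x, rfl⟩ := hsurj e
    rw [← hfib x, Finset.filter_filter]
    refine congrArg Finset.card (Finset.filter_congr fun y _ => ⟨fun h => h.2, fun h => ⟨?_, h⟩⟩)
    have h1 := (Finset.mem_filter.mp he).2
    rw [← h, hσr, eq_comm, hr, ← mul_assoc] at h1
    exact h1
  · have h1 : x⁻¹ * AlgEquiv.restrictNormalHom N σ * x ∈ C := by simpa using hx
    simp only [Finset.coe_filter, Finset.mem_univ, true_and, Set.mem_ofPred_eq]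
    rw [hσr, eq_comm, hr, ← mul_assoc]
    exact h1

end Counting

/-! ### Densities -/

section Dens

/-- Weighted prime sums with an asymptotic `c * log (1 / (s - 1))`. -/
def HasDens (u : Nat.Primes → ℝ) (c : ℝ) : Prop :=
  (∀ s : ℝ, 1 < s → Summable fun ℓ : Nat.Primes => u ℓ * ((ℓ : ℕ) : ℝ) ^ (-s)) ∧
    Tendsto (fun s : ℝ => (∑' ℓ : Nat.Primes, u ℓ * ((ℓ : ℕ) : ℝ) ^ (-s)) / Real.log (s - 1)⁻¹)
      (𝓝[>] 1) (𝓝 c)

theorem tendsto_log_inv_sub_one :
    Tendsto (fun s : ℝ => Real.log (s - 1)⁻¹) (𝓝[>] 1) atTop := by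
  refine Real.tendsto_log_atTop.comp (tendsto_inv_nhdsGT_zero.comp ?_)
  refine tendsto_nhdsWithin_iff.mpr ⟨?_, ?_⟩
  · exact ((continuous_sub_right (1 : ℝ)).tendsto' 1 0 (sub_self 1)).mono_left nhdsWithin_le_nhds
  · filter_upwards [self_mem_nhdsWithin] with s hs
    exact Set.mem_Ioi.mpr (sub_pos.mpr (Set.mem_Ioi.mp hs))

/-- The density is unique. -/
theorem HasDens.unique {u : Nat.Primes → ℝ} {a b : ℝ} (ha : HasDens u a) (hb : HasDens u b) :
    a = b :=
  tendsto_nhds_unique ha.2 hb.2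

theorem hasDens_zero : HasDens (fun _ => 0) 0 :=
  ⟨fun s _ => by simp, by simp⟩

theorem HasDens.add {u v : Nat.Primes → ℝ} {a b : ℝ} (ha : HasDens u a) (hb : HasDens v b) :
    HasDens (fun ℓ => u ℓ + v ℓ) (a + b) := by
  refine ⟨fun s hs => by simpa [add_mul] using (ha.1 s hs).add (hb.1 s hs), ?_⟩
  refine (ha.2.add hb.2).congr' ?_
  filter_upwards [self_mem_nhdsWithin] with s hs
  rw [← add_div, ← (ha.1 s hs).tsum_add (hb.1 s hs)]
  simp only [add_mul]

theorem HasDens.const_mul {u : Nat.Primes → ℝ} {a : ℝ} (ha : HasDens u a) (r : ℝ) :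
    HasDens (fun ℓ => r * u ℓ) (r * a) := by
  refine ⟨fun s hs => by simpa [mul_assoc] using (ha.1 s hs).mul_left r, ?_⟩
  refine (ha.2.const_mul r).congr fun s => ?_
  rw [mul_div_assoc', ← tsum_mul_left]
  simp only [mul_assoc]

theorem hasDens_sum {ι : Type*} (t : Finset ι) {u : ι → Nat.Primes → ℝ} {a : ι → ℝ}
    (h : ∀ i ∈ t, HasDens (u i) (a i)) :
    HasDens (fun ℓ => ∑ i ∈ t, u i ℓ) (∑ i ∈ t, a i) := by
  classical
  induction t using Finset.induction with
  | empty => simpa using hasDens_zero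
  | @insert i t hi ih =>
    simp only [Finset.sum_insert hi]
    exact (h i (Finset.mem_insert_self i t)).add
      (ih fun j hj => h j (Finset.mem_insert_of_mem hj))

/-- Changing finitely many values does not affect the density. -/
theorem HasDens.congr_finite {u v : Nat.Primes → ℝ} {a : ℝ} (ha : HasDens u a) (S : Finset ℕ)
    (h : ∀ ℓ : Nat.Primes, (ℓ : ℕ) ∉ S → u ℓ = v ℓ) : HasDens v a := by
  classical
  let T : Finset Nat.Primes :=
    S.preimage (fun ℓ : Nat.Primes => (ℓ : ℕ)) (fun a _ b _ h => Subtype.ext h)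
  have hoff : ∀ (s : ℝ) (ℓ : Nat.Primes), ℓ ∉ T → (v ℓ - u ℓ) * ((ℓ : ℕ) : ℝ) ^ (-s) = 0 :=
    fun s ℓ hℓ => by rw [h ℓ (fun hm => hℓ (Finset.mem_preimage.mpr hm)), sub_self, zero_mul]
  have hsd : ∀ s : ℝ, Summable fun ℓ : Nat.Primes => (v ℓ - u ℓ) * ((ℓ : ℕ) : ℝ) ^ (-s) :=
    fun s => summable_of_ne_finset_zero (hoff s)
  have heq : ∀ s : ℝ, ∀ ℓ : Nat.Primes, v ℓ * ((ℓ : ℕ) : ℝ) ^ (-s) =
      u ℓ * ((ℓ : ℕ) : ℝ) ^ (-s) + (v ℓ - u ℓ) * ((ℓ : ℕ) : ℝ) ^ (-s) := fun s ℓ => by ring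
  refine ⟨fun s hs => by simpa only [← heq] using (ha.1 s hs).add (hsd s), ?_⟩
  have hz : Tendsto (fun s : ℝ => (∑' ℓ : Nat.Primes, (v ℓ - u ℓ) * ((ℓ : ℕ) : ℝ) ^ (-s)) /
      Real.log (s - 1)⁻¹) (𝓝[>] 1) (𝓝 0) := by
    refine Tendsto.congr (f₁ := fun s : ℝ => (∑ ℓ ∈ T, (v ℓ - u ℓ) * ((ℓ : ℕ) : ℝ) ^ (-s)) /
      Real.log (s - 1)⁻¹) (fun s => by rw [tsum_eq_sum (hoff s)]) ?_
    refine Tendsto.div_atTop (a := ∑ ℓ ∈ T, (v ℓ - u ℓ) * ((ℓ : ℕ) : ℝ) ^ (-1 : ℝ)) ?_
      tendsto_log_inv_sub_one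
    refine tendsto_finsetSum _ fun ℓ _ => Tendsto.const_mul _ ?_
    exact ((Real.continuousAt_const_rpow (Nat.cast_ne_zero.mpr ℓ.2.ne_zero)).tendsto.comp
      (continuous_neg.tendsto (1 : ℝ))).mono_left nhdsWithin_le_nhds
  have := ha.2.add hz
  rw [add_zero] at this
  refine this.congr' ?_
  filter_upwards [self_mem_nhdsWithin] with s hs
  rw [← add_div, ← (ha.1 s hs).tsum_add (hsd s)]
  simp only [← heq]

/-- The number of degree one primes of a number field over `ℓ` has density one. -/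
theorem hasDens_normCount (F : Type) [Field F] [NumberField F] :
    HasDens (fun ℓ : Nat.Primes => (normCount F ℓ : ℝ)) 1 := by
  refine ⟨fun s hs => Summable.of_nonneg_of_le (fun ℓ => by positivity) (fun ℓ => ?_)
    ((Nat.Primes.summable_rpow.mpr (by linarith : -s < -1)).mul_left
      (Module.finrank ℚ F : ℝ)), ?_⟩
  · gcongr
    exact Nat.cast_le.mpr (normCount_le (K := F) ℓ)
  obtain ⟨C, hC⟩ := exists_bound_primeSum F
  have hz : Tendsto (fun s : ℝ =>
      ((∑' ℓ : Nat.Primes, (normCount F ℓ : ℝ) * ((ℓ : ℕ) : ℝ) ^ (-s)) - Real.log (s - 1)⁻¹) /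
        Real.log (s - 1)⁻¹) (𝓝[>] 1) (𝓝 0) := by
    refine squeeze_zero_norm' ?_
      ((tendsto_const_nhds (x := C)).div_atTop tendsto_log_inv_sub_one)
    filter_upwards [hC, tendsto_log_inv_sub_one.eventually_gt_atTop 0] with s hs hpos
    rw [norm_div, Real.norm_eq_abs, Real.norm_eq_abs, abs_of_pos hpos]
    gcongr
  have := hz.const_add 1
  rw [add_zero] at this
  refine this.congr' ?_
  filter_upwards [tendsto_log_inv_sub_one.eventually_gt_atTop 0] with s hpos
  rw [sub_div, div_self hpos.ne', add_sub_cancel]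

end Dens

/-- For any choice of Frobenius elements, `genCount` has density `generatorCount`. -/
theorem hasDens_genCount (N : IntermediateField ℚ Qbar) [FiniteDimensional ℚ N] [IsGalois ℚ N]
    (A : Nat.Primes → ValuationSubring Qbar) (σ : Nat.Primes → AbsGal)
    (hA : ∀ ℓ, (A ℓ).LiesOverPrime ℓ) (hσ : ∀ ℓ, (A ℓ).IsFrobeniusAt (σ ℓ) ℓ)
    (C : Subgroup Gal(N/ℚ)) :
    HasDens (fun ℓ => (genCount N (AlgEquiv.restrictNormalHom N (σ ℓ)) C : ℝ))
      (generatorCount N C : ℝ) := by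
  classical
  refine WellFoundedLT.induction (motive := fun C => HasDens
    (fun ℓ => (genCount N (AlgEquiv.restrictNormalHom N (σ ℓ)) C : ℝ)) (generatorCount N C : ℝ)) C
    fun C ih => ?_
  have : NumberField N := @NumberField.mk _ _ inferInstance inferInstance
  obtain ⟨S, hS⟩ := exists_finset_embeddings_separated (IntermediateField.fixedField C)
  have hconj : HasDens (fun ℓ => (conjCount N (AlgEquiv.restrictNormalHom N (σ ℓ)) C : ℝ))
      (Nat.card C : ℝ) := by
    have h1 := ((hasDens_normCount (IntermediateField.fixedField C)).const_mul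
      (Nat.card C : ℝ)).congr_finite S (v := fun ℓ =>
        (conjCount N (AlgEquiv.restrictNormalHom N (σ ℓ)) C : ℝ)) fun ℓ hℓ => by
      rw [conjCount_eq_mul, ← normCount_eq_card_fixed hS ℓ.2 hℓ (hA ℓ) (hσ ℓ), Nat.cast_mul]
    rwa [mul_one] at h1
  set t := (Finset.univ.filter (· ≤ C)).erase C with ht
  have hCmem : C ∈ (Finset.univ.filter (· ≤ C)) := by simp
  have hrest := hasDens_sum t fun D hD => by
    rw [ht, Finset.mem_erase, Finset.mem_filter] at hD
    exact ih D (lt_of_le_of_ne hD.2.2 hD.1)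
  have h2 := hconj.add (hrest.const_mul (-1))
  have hval : (Nat.card C : ℝ) + -1 * ∑ D ∈ t, (generatorCount N D : ℝ) = generatorCount N C := by
    have h3 := card_subtype_le_eq_sum C (fun x : Gal(N/ℚ) => x)
    rw [← Finset.add_sum_erase _ _ hCmem] at h3
    have h4 : (Nat.card C : ℝ) = generatorCount N C + ∑ D ∈ t, (generatorCount N D : ℝ) := by
      exact_mod_cast h3
    rw [h4]; ring
  rw [hval] at h2
  convert h2 using 1
  funext ℓ
  have h3 := card_subtype_le_eq_sum C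
    (fun x : Gal(N/ℚ) => x⁻¹ * AlgEquiv.restrictNormalHom N (σ ℓ) * x)
  rw [← Finset.add_sum_erase _ _ hCmem] at h3
  have h4 : (conjCount N (AlgEquiv.restrictNormalHom N (σ ℓ)) C : ℝ) =
      genCount N (AlgEquiv.restrictNormalHom N (σ ℓ)) C +
        ∑ D ∈ t, (genCount N (AlgEquiv.restrictNormalHom N (σ ℓ)) D : ℝ) := by
    exact_mod_cast h3
  rw [h4]; ring

/-- Weak Chebotarev: modulo the fixing subgroup of a finite extension, every element generates
the same cyclic group as some Frobenius element outside any finite set of primes. -/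
theorem exists_frobenius_generates (L : IntermediateField ℚ Qbar) [FiniteDimensional ℚ L]
    (g : AbsGal) (S : Finset ℕ) :
    ∃ ℓ : ℕ, ℓ.Prime ∧ ℓ ∉ S ∧ ∃ A : ValuationSubring Qbar, A.LiesOverPrime ℓ ∧
      ∃ σ : AbsGal, A.IsFrobeniusAt σ ℓ ∧
        ∃ a b : ℕ, (∀ x ∈ L, g x = (σ ^ a) x) ∧ (∀ x ∈ L, σ x = (g ^ b) x) := by
  classical
  let N := IntermediateField.normalClosure ℚ L Qbar
  have : Normal ℚ N := normalClosure.normal ℚ L Qbar
  have : IsGalois ℚ N := ⟨⟩
  choose A σ hA hσ using fun ℓ : Nat.Primes => exists_liesOverPrime_isFrobeniusAt ℓ.2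
  let π := AlgEquiv.restrictNormalHom (F := ℚ) (K₁ := Qbar) N
  let C := Subgroup.zpowers (π g)
  have hd := hasDens_genCount N A σ hA hσ C
  obtain ⟨ℓ, hℓS, x, hx⟩ : ∃ ℓ : Nat.Primes, (ℓ : ℕ) ∉ S ∧
      ∃ x : Gal(N/ℚ), Subgroup.zpowers (x⁻¹ * π (σ ℓ) * x) = C := by
    by_contra hcon
    push Not at hcon
    have h0 : HasDens (fun _ => (0 : ℝ)) (generatorCount N C : ℝ) :=
        hd.congr_finite S fun ℓ hℓ => by
      have : IsEmpty {x : Gal(N/ℚ) // Subgroup.zpowers (x⁻¹ * π (σ ℓ) * x) = C} :=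
        ⟨fun x => hcon ℓ hℓ x.1 x.2⟩
      rw [genCount, Nat.card_of_isEmpty, Nat.cast_zero]
    have hpos : 0 < generatorCount N C := by
      have : Nonempty {h : Gal(N/ℚ) // Subgroup.zpowers h = C} := ⟨⟨π g, rfl⟩⟩
      exact Nat.card_pos
    exact absurd (h0.unique hasDens_zero) (by exact_mod_cast hpos.ne')
  obtain ⟨τ, rfl⟩ := AlgEquiv.restrictNormalHom_surjective (E := Qbar) x
  refine ⟨ℓ, ℓ.2, hℓS, τ⁻¹ • A ℓ, liesOverPrime_smul _ (hA ℓ), τ⁻¹ * σ ℓ * τ⁻¹⁻¹,
    isFrobeniusAt_conj (hσ ℓ) _, ?_⟩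
  rw [inv_inv]
  have hπ : π (τ⁻¹ * σ ℓ * τ) = (π τ)⁻¹ * π (σ ℓ) * π τ := by simp
  have h1 : π g ∈ Subgroup.zpowers (π (τ⁻¹ * σ ℓ * τ)) := by
    rw [hπ, show Subgroup.zpowers _ = C from hx]; exact Subgroup.mem_zpowers _
  have h2 : π (τ⁻¹ * σ ℓ * τ) ∈ Subgroup.zpowers (π g) := by
    rw [hπ, show Subgroup.zpowers (π g) = Subgroup.zpowers _ from hx.symm]
    exact Subgroup.mem_zpowers _
  obtain ⟨a, ha⟩ := ((isOfFinOrder_of_finite _).mem_powers_iff_mem_zpowers).mpr h1
  obtain ⟨b, hb⟩ := ((isOfFinOrder_of_finite _).mem_powers_iff_mem_zpowers).mpr h2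
  have key : ∀ u v : AbsGal, π u = π v → ∀ z ∈ L, u z = v z := fun u v huv z hz => by
    have hzN : z ∈ N := L.le_normalClosure hz
    rw [← show ((π u ⟨z, hzN⟩ : N) : Qbar) = u z from u.restrictNormal_commutes N ⟨z, hzN⟩,
      ← show ((π v ⟨z, hzN⟩ : N) : Qbar) = v z from v.restrictNormal_commutes N ⟨z, hzN⟩, huv]
  exact ⟨a, b, key _ _ (by rw [map_pow]; exact ha.symm), key _ _ (by rw [map_pow]; exact hb.symm)⟩

/-- The same for a homomorphism of finite level. -/
theorem exists_frobenius_map_generates {M : Type} [Monoid M] (ρ : AbsGal →* M)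
    (hρ : GaloisFactorsThroughFiniteLevel ρ) (g : AbsGal) (S : Finset ℕ) :
    ∃ ℓ : ℕ, ℓ.Prime ∧ ℓ ∉ S ∧ ∃ A : ValuationSubring Qbar, A.LiesOverPrime ℓ ∧
      ∃ σ : AbsGal, A.IsFrobeniusAt σ ℓ ∧
        ∃ a b : ℕ, ρ g = ρ σ ^ a ∧ ρ σ = ρ g ^ b := by
  obtain ⟨L, hL, hρ⟩ := hρ
  obtain ⟨ℓ, hℓ, hℓS, A, hA, σ, hσ, a, b, ha, hb⟩ := exists_frobenius_generates L g S
  have key : ∀ u v : AbsGal, (∀ x ∈ L, u x = v x) → ρ u = ρ v := fun u v huv => by
    have h1 := hρ (v⁻¹ * u) fun x hx => by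
      rw [AlgEquiv.mul_apply, huv x hx]; exact v.symm_apply_apply x
    rw [show u = v * (v⁻¹ * u) by rw [mul_inv_cancel_left], map_mul, h1, mul_one]
  exact ⟨ℓ, hℓ, hℓS, A, hA, σ, hσ, a, b, (key _ _ ha).trans (map_pow ρ σ a),
    (key _ _ hb).trans (map_pow ρ g b)⟩

end Fermat.Agent.Gal
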