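import Mathlib.FieldTheory.IsAlgClosed.Basic
import Mathlib.LinearAlgebra.Charpoly.Basic
import Mathlib.LinearAlgebra.Charpoly.ToMatrix
import Mathlib.LinearAlgebra.Determinant
import Mathlib.LinearAlgebra.Matrix.Adjugate
import Mathlib.LinearAlgebra.Matrix.Charpoly.Coeff
import Mathlib.LinearAlgebra.Matrix.NonsingularInverse
import Mathlib.LinearAlgebra.Matrix.ToLinearEquiv
import Mathlib.LinearAlgebra.Projection
import Mathlib.LinearAlgebra.Trace
import Mathlib.RingTheory.FiniteType
import Mathlib.RingTheory.LocalRing.Basic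
import Mathlib.RingTheory.LocalRing.MaximalIdeal.Basic
import Mathlib.RingTheory.OrzechProperty
import Mathlib.Tactic.LinearCombination

/-!
# Representations of rank two

Characteristic polynomials from traces, spanning of `M₂` by irreducible images, and Carayol's
lemma over a local ring: representations with equal traces and a perfect trace form are conjugate.
-/

noncomputable section

open Module Matrix

namespace Fermat.Agent.Gal

variable {G : Type*} [Monoid G] {R V W : Type*} [CommRing R]
  [AddCommGroup V] [Module R V] [AddCommGroup W] [Module R W]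

/-- Some four values of `ρ` have an invertible trace form. For a plane over a field this says that
the image spans `M₂`. -/
def HasTraceBasis (ρ : G →* Module.End R V) : Prop :=
  ∃ g : Fin 4 → G,
    IsUnit (Matrix.of fun i j => LinearMap.trace R V (ρ (g i) * ρ (g j))).det

/-- `HasTraceBasis` descends along a local homomorphism carrying one trace to the other. -/
theorem hasTraceBasis_of_trace_map {S U : Type*} [CommRing S] [AddCommGroup U] [Module S U]
    (φ : R →+* S) [IsLocalHom φ] (ρ : G →* Module.End R V) (ρ' : G →* Module.End S U)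
    (h : ∀ g, LinearMap.trace S U (ρ' g) = φ (LinearMap.trace R V (ρ g)))
    (hρ' : HasTraceBasis ρ') : HasTraceBasis ρ := by
  obtain ⟨g, hg⟩ := hρ'
  refine ⟨g, IsUnit.of_map φ _ ?_⟩
  rw [RingHom.map_det]
  convert hg using 2
  ext i j
  simp [← map_mul, h]

section Basics

variable [Module.Free R V] [Module.Finite R V] [Module.Free R W] [Module.Finite R W]

/-- A basis indexed by `Fin 2` of a free module of rank two. -/
def basisTwo [Nontrivial R] (hV : finrank R V = 2) : Basis (Fin 2) R V :=
  (finBasis R V).reindex (finCongr hV)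

/-- The characteristic polynomial in rank two. -/
theorem charpoly_fin_two' [Nontrivial R] (hV : finrank R V = 2) (f : Module.End R V) :
    f.charpoly = Polynomial.X ^ 2 - Polynomial.C (LinearMap.trace R V f) * Polynomial.X +
      Polynomial.C (LinearMap.det f) := by
  rw [← f.charpoly_toMatrix (basisTwo hV), Matrix.charpoly_fin_two,
    LinearMap.trace_eq_matrix_trace R (basisTwo hV), LinearMap.det_toMatrix]

/-- Cayley–Hamilton in rank two. -/
theorem cayleyHamilton_two [Nontrivial R] (hV : finrank R V = 2) (f : Module.End R V) :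
    f * f = LinearMap.trace R V f • f - LinearMap.det f • 1 := by
  have h := LinearMap.aeval_self_charpoly f
  rw [charpoly_fin_two' hV] at h
  simp only [map_add, map_sub, map_mul, Polynomial.aeval_C, Polynomial.aeval_X_pow,
    Polynomial.aeval_X, Algebra.algebraMap_eq_smul_one, smul_mul_assoc, one_mul] at h
  rw [pow_two] at h
  rw [← sub_eq_zero, ← h]
  abel

/-- In rank two the characteristic polynomial is given by trace and determinant. -/
theorem charpoly_eq_iff [Nontrivial R] (hV : finrank R V = 2) (hW : finrank R W = 2)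
    (f : Module.End R V) (f' : Module.End R W) :
    f.charpoly = f'.charpoly ↔
      LinearMap.trace R V f = LinearMap.trace R W f' ∧ LinearMap.det f = LinearMap.det f' := by
  rw [charpoly_fin_two' hV, charpoly_fin_two' hW]
  constructor
  · intro h
    have h1 := congrArg (fun p : Polynomial R => p.coeff 1) h
    have h0 := congrArg (fun p : Polynomial R => p.coeff 0) h
    simp [Polynomial.coeff_X_pow, Polynomial.coeff_C] at h1 h0
    exact ⟨h1, h0⟩
  · rintro ⟨h1, h0⟩
    rw [h1, h0]

/-- `charpoly_pow_eq` over a nontrivial ring. -/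
theorem charpoly_pow_eq_aux [Nontrivial R] (hV : finrank R V = 2) (hW : finrank R W = 2)
    (f : Module.End R V) (f' : Module.End R W) (h : f.charpoly = f'.charpoly) (n : ℕ) :
    (f ^ n).charpoly = (f' ^ n).charpoly := by
  obtain ⟨ht, hd⟩ := (charpoly_eq_iff hV hW f f').mp h
  refine (charpoly_eq_iff hV hW _ _).mpr ⟨?_, by rw [map_pow, map_pow, hd]⟩
  induction n using Nat.twoStepInduction with
  | zero => rw [pow_zero, pow_zero, LinearMap.trace_one, LinearMap.trace_one, hV, hW]
  | one => rw [pow_one, pow_one, ht]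
  | more n ih₁ ih₂ =>
    rw [pow_add f n 2, pow_add f' n 2, pow_two f, pow_two f', cayleyHamilton_two hV f,
      cayleyHamilton_two hW f', mul_sub, mul_sub, mul_smul_comm, mul_smul_comm, mul_smul_comm,
      mul_smul_comm, mul_one, mul_one, ← pow_succ, ← pow_succ, map_sub, map_sub, map_smul,
      map_smul, map_smul, map_smul, ht, hd, ih₁, ih₂]

end Basics

/-! ### The matrix form -/

section MatrixForm

variable {k : Type*} [Field k]

/-- If no vector spans a stable line, then no covector does. -/
theorem exists_vecMul_ne_smul (m : G →* Matrix (Fin 2) (Fin 2) k)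
    (h : ∀ v : Fin 2 → k, v ≠ 0 → ∃ g, ∀ c : k, m g *ᵥ v ≠ c • v) (φ : Fin 2 → k) (hφ : φ ≠ 0) :
    ∃ g, ∀ c : k, φ ᵥ* m g ≠ c • φ := by
  by_contra hcon
  push Not at hcon
  have hv : (![-φ 1, φ 0] : Fin 2 → k) ≠ 0 := by
    intro h0
    refine hφ (funext fun i => ?_)
    fin_cases i
    · simpa using congrFun h0 1
    · simpa using congrFun h0 0
  obtain ⟨g, hg⟩ := h _ hv
  obtain ⟨c, hc⟩ := hcon g
  have h0 := congrFun hc 0
  have h1 := congrFun hc 1
  simp only [Matrix.vecMul, dotProduct, Fin.sum_univ_two, Pi.smul_apply, smul_eq_mul] at h0 h1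
  refine hg ((m g) 0 0 + (m g) 1 1 - c) (funext fun i => ?_)
  fin_cases i <;> simp [Matrix.mulVec, dotProduct, Fin.sum_univ_two]
  · linear_combination h1
  · linear_combination -h0

/-- Two vectors, the second not a multiple of the first, span the plane. -/
theorem span_eq_top_of_pair {w₁ w₂ : Fin 2 → k} (h₁ : w₁ ≠ 0) (h₂ : ∀ c : k, w₂ ≠ c • w₁) :
    Submodule.span k (Set.range ![w₁, w₂]) = ⊤ := by
  refine LinearIndependent.span_eq_top_of_card_eq_finrank ?_ (by simp)
  rw [LinearIndependent.pair_iff' h₁]
  exact fun c hc => h₂ c hc.symm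

/-- A monoid of matrices without a common eigenline spans all `2 × 2` matrices. -/
theorem span_range_eq_top [IsAlgClosed k] (m : G →* Matrix (Fin 2) (Fin 2) k)
    (h : ∀ v : Fin 2 → k, v ≠ 0 → ∃ g, ∀ c : k, m g *ᵥ v ≠ c • v) :
    Submodule.span k (Set.range m) = ⊤ := by
  set S := Submodule.span k (Set.range m) with hS
  have hmem : ∀ g, m g ∈ S := fun g => Submodule.subset_span ⟨g, rfl⟩
  have hmul : ∀ x ∈ S, ∀ y ∈ S, x * y ∈ S := fun x hx y hy => by
    have hxy := Submodule.mul_mem_mul hx hy
    rw [hS, Submodule.span_mul_span] at hxy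
    refine Submodule.span_mono ?_ hxy
    rintro _ ⟨_, ⟨a, rfl⟩, _, ⟨b, rfl⟩, rfl⟩
    exact ⟨a * b, map_mul m a b⟩
  obtain ⟨g₀, hg₀⟩ := h ![1, 0] (fun h0 => by simpa using congrFun h0 0)
  have hne : (m g₀) 1 0 ≠ 0 := fun h0 => hg₀ ((m g₀) 0 0) (funext fun i => by
    fin_cases i <;> simp [Matrix.mulVec, dotProduct, Fin.sum_univ_two, h0])
  obtain ⟨t, ht⟩ := IsAlgClosed.exists_root (m g₀).charpoly (by
    rw [Matrix.charpoly_degree_eq_dim]; simp)
  rw [Polynomial.IsRoot.def, Matrix.charpoly_fin_two] at ht
  simp only [Polynomial.eval_add, Polynomial.eval_sub, Polynomial.eval_pow, Polynomial.eval_X,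
    Polynomial.eval_mul, Polynomial.eval_C, Matrix.trace_fin_two, Matrix.det_fin_two] at ht
  set n := m g₀ - t • (1 : Matrix (Fin 2) (Fin 2) k) with hn
  have hnS : n ∈ S := S.sub_mem (hmem _) (S.smul_mem t (map_one m ▸ hmem 1))
  set w : Fin 2 → k := ![(m g₀) 0 0 - t, (m g₀) 1 0] with hw
  set φ : Fin 2 → k := ![1, ((m g₀) 1 1 - t) / (m g₀) 1 0] with hφ
  have hnw : n = vecMulVec w φ := by
    ext i j
    fin_cases i <;> fin_cases j <;> simp [hn, hw, hφ, vecMulVec_apply] <;> field_simp
    linear_combination -ht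
  have hw0 : w ≠ 0 := fun h0 => hne (by simpa [hw] using congrFun h0 1)
  have hφ0 : φ ≠ 0 := fun h0 => by simpa [hφ] using congrFun h0 0
  obtain ⟨a, ha⟩ := h w hw0
  obtain ⟨b, hb⟩ := exists_vecMul_ne_smul m h φ hφ0
  let P : Submodule k ((Fin 2 → k)) := Submodule.span k (Set.range ![w, m a *ᵥ w])
  have hP : P = ⊤ := span_eq_top_of_pair hw0 ha
  have hQ : Submodule.span k (Set.range ![φ, φ ᵥ* m b]) = ⊤ := span_eq_top_of_pair hφ0 hb
  have hall : ∀ u v : Fin 2 → k, vecMulVec u v ∈ S := by
    intro u v
    have hu : u ∈ P := hP ▸ Submodule.mem_top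
    induction hu using Submodule.span_induction with
    | mem u hu =>
      have hv : v ∈ Submodule.span k (Set.range ![φ, φ ᵥ* m b]) := hQ ▸ Submodule.mem_top
      induction hv using Submodule.span_induction with
      | mem v hv =>
        obtain ⟨i, rfl⟩ := hu
        obtain ⟨j, rfl⟩ := hv
        fin_cases i <;> fin_cases j <;> simp only [Fin.zero_eta, Fin.mk_one, Fin.isValue,
          Matrix.cons_val_zero, Matrix.cons_val_one]
        · rw [← hnw]; exact hnS
        · rw [← vecMulVec_mul, ← hnw]; exact hmul _ hnS _ (hmem b)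
        · rw [← mul_vecMulVec, ← hnw]; exact hmul _ (hmem a) _ hnS
        · rw [← vecMulVec_mul, ← mul_vecMulVec, ← hnw]
          exact hmul _ (hmul _ (hmem a) _ hnS) _ (hmem b)
      | zero => rw [vecMulVec_zero]; exact S.zero_mem
      | add x y _ _ hx hy => rw [vecMulVec_add]; exact S.add_mem hx hy
      | smul c x _ hx => rw [vecMulVec_smul]; exact S.smul_mem c hx
    | zero => rw [zero_vecMulVec]; exact S.zero_mem
    | add x y _ _ hx hy => rw [add_vecMulVec]; exact S.add_mem hx hy
    | smul c x _ hx => rw [smul_vecMulVec]; exact S.smul_mem c hx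
  refine eq_top_iff.mpr fun X _ => ?_
  rw [Matrix.matrix_eq_sum_single X]
  refine Submodule.sum_mem _ fun i _ => Submodule.sum_mem _ fun j _ => ?_
  have : Matrix.single i j (X i j) = vecMulVec (Pi.single i (X i j)) (Pi.single j 1) := by
    ext a b
    simp [vecMulVec_apply, Matrix.single_apply, Pi.single_apply]
    grind
  rw [this]
  exact hall _ _

/-- If the image spans the matrices then four elements have invertible trace form. -/
theorem exists_gram_isUnit (m : G →* Matrix (Fin 2) (Fin 2) k)
    (h : Submodule.span k (Set.range m) = ⊤) :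
    ∃ g : Fin 4 → G, IsUnit (Matrix.of fun i j => Matrix.trace (m (g i) * m (g j))).det := by
  obtain ⟨b, hb, hspan, hli⟩ := exists_linearIndependent k (Set.range m)
  rw [h] at hspan
  have : Fintype b := hli.setFinite.fintype
  have hcard : Fintype.card b = 4 := by
    have := Module.finrank_eq_card_basis (Basis.mk hli (by rw [Subtype.range_coe]; exact hspan.ge))
    rw [Module.finrank_matrix] at this
    simpa using this.symm
  let e : Fin 4 ≃ b := (finCongr hcard.symm).trans (Fintype.equivFin b).symm
  choose g hg using fun i => hb (e i).2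
  refine ⟨g, isUnit_iff_ne_zero.mpr fun hdet => ?_⟩
  obtain ⟨c, hc, hc0⟩ := Matrix.exists_vecMul_eq_zero_iff.mpr hdet
  refine hc (funext fun i => ?_)
  have hX : ∀ Y : Matrix (Fin 2) (Fin 2) k, Matrix.trace ((∑ i, c i • m (g i)) * Y) = 0 := by
    intro Y
    have hY : Y ∈ Submodule.span k (b : Set (Matrix (Fin 2) (Fin 2) k)) := hspan ▸ Submodule.mem_top
    induction hY using Submodule.span_induction with
    | mem Y hY =>
      have := congrFun hc0 (e.symm ⟨Y, hY⟩)
      simp only [Matrix.vecMul, dotProduct, Matrix.of_apply, hg, e.apply_symm_apply,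
        Pi.zero_apply] at this
      rw [Finset.sum_mul, Matrix.trace_sum]
      simpa [hg, Matrix.trace_smul] using this
    | zero => simp
    | add x y _ _ hx hy => rw [mul_add, Matrix.trace_add, hx, hy, add_zero]
    | smul a x _ hx => rw [mul_smul_comm, Matrix.trace_smul, hx, smul_zero]
  have hzero : ∑ i, c i • m (g i) = 0 := by
    ext i j
    have := hX (Matrix.single j i 1)
    simp [Matrix.trace_fin_two, Matrix.mul_apply, Fin.sum_univ_two, Matrix.single_apply] at this
    fin_cases i <;> fin_cases j <;> simpa using this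
  simp only [hg] at hzero
  exact Fintype.linearIndependent_iff.mp (hli.comp e e.injective) c hzero i

end MatrixForm

/-! ### Carayol's theorem for matrices -/

section Carayol

variable [IsLocalRing R]

omit [IsLocalRing R] in
/-- With an invertible trace form, the values at `g` form a basis of the matrices and pairing with
them detects a matrix. -/
theorem linearCombination_bijective_of_gram (m n : G →* Matrix (Fin 2) (Fin 2) R) (g : Fin 4 → G)
    (hg : IsUnit (Matrix.of fun i j => Matrix.trace (m (g i) * m (g j))).det)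
    (hn : ∀ x, Matrix.trace (m x) = Matrix.trace (n x)) :
    Function.Bijective (Fintype.linearCombination R fun i => n (g i)) ∧
      ∀ X Y, (∀ j, Matrix.trace (X * n (g j)) = Matrix.trace (Y * n (g j))) → X = Y := by
  set L := Fintype.linearCombination R fun i => n (g i) with hL
  let T : Matrix (Fin 2) (Fin 2) R →ₗ[R] (Fin 4 → R) := LinearMap.pi fun j =>
    (Matrix.traceLinearMap (Fin 2) R R).comp (LinearMap.mulRight R (n (g j)))
  have hTL : T.comp L =
      Matrix.vecMulLinear (Matrix.of fun i j => Matrix.trace (m (g i) * m (g j))) := by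
    refine LinearMap.ext fun c => funext fun j => ?_
    simp [T, hL, Fintype.linearCombination_apply, Matrix.vecMul, dotProduct, ← map_mul, hn]
  have hbij : Function.Bijective (T ∘ L) := by
    have : Function.Bijective (fun c : Fin 4 → R =>
        c ᵥ* (Matrix.of fun i j => Matrix.trace (m (g i) * m (g j)))) := by
      refine Function.bijective_iff_has_inverse.mpr
        ⟨fun c => c ᵥ* (Matrix.of fun i j => Matrix.trace (m (g i) * m (g j)))⁻¹,
          fun c => ?_, fun c => ?_⟩
      · simp [Matrix.vecMul_vecMul, Matrix.mul_nonsing_inv _ hg]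
      · simp [Matrix.vecMul_vecMul, Matrix.nonsing_inv_mul _ hg]
    rw [← LinearMap.coe_comp, hTL]
    exact this
  let e4 : Matrix (Fin 2) (Fin 2) R ≃ₗ[R] (Fin 4 → R) :=
    ((Matrix.ofLinearEquiv R).symm.trans (LinearEquiv.curry R R (Fin 2) (Fin 2)).symm).trans
      (LinearEquiv.funCongrLeft R R (finProdFinEquiv (m := 2) (n := 2)).symm)
  have hTs : Function.Surjective T := hbij.2.of_comp
  have hTi : Function.Injective T := by
    have := OrzechProperty.injective_of_surjective_endomorphism (T.comp e4.symm.toLinearMap)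
      (hTs.comp e4.symm.surjective)
    exact fun x y hxy => e4.injective (this (by simpa using hxy))
  refine ⟨⟨hbij.1.of_comp, fun X => ?_⟩, fun X Y hXY => hTi (funext hXY)⟩
  obtain ⟨c, hc⟩ := hbij.2 (T X)
  exact ⟨c, hTi hc⟩

/-- Carayol: equal traces and an invertible trace form give conjugate matrix maps. -/
theorem exists_conj_matrix (m m' : G →* Matrix (Fin 2) (Fin 2) R) (g : Fin 4 → G)
    (hg : IsUnit (Matrix.of fun i j => Matrix.trace (m (g i) * m (g j))).det)
    (h : ∀ x, Matrix.trace (m x) = Matrix.trace (m' x)) :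
    ∃ P : Matrix (Fin 2) (Fin 2) R, IsUnit P.det ∧ ∀ x, m' x * P = P * m x := by
  obtain ⟨hL, -⟩ := linearCombination_bijective_of_gram m m g hg fun _ => rfl
  obtain ⟨hL', hT'⟩ := linearCombination_bijective_of_gram m m' g hg h
  let Φ : Matrix (Fin 2) (Fin 2) R ≃ₗ[R] Matrix (Fin 2) (Fin 2) R :=
    (LinearEquiv.ofBijective _ hL).symm.trans (LinearEquiv.ofBijective _ hL')
  have hΦ : ∀ c, Φ (Fintype.linearCombination R (fun i => m (g i)) c) =
      Fintype.linearCombination R (fun i => m' (g i)) c := fun c => by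
    simp [Φ, LinearEquiv.ofBijective_symm_apply_apply]
  have hΦm : ∀ x, Φ (m x) = m' x := by
    intro x
    obtain ⟨c, hc⟩ := hL.2 (m x)
    rw [← hc, hΦ]
    refine hT' _ _ fun j => ?_
    have e1 : ∀ n : G →* Matrix (Fin 2) (Fin 2) R,
        Matrix.trace (Fintype.linearCombination R (fun i => n (g i)) c * n (g j)) =
          ∑ i, c i * Matrix.trace (n (g i * g j)) := fun n => by
      simp [Fintype.linearCombination_apply, Finset.sum_mul, Matrix.trace_sum, Matrix.trace_smul]
    calc Matrix.trace (Fintype.linearCombination R (fun i => m' (g i)) c * m' (g j))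
        = ∑ i, c i * Matrix.trace (m' (g i * g j)) := e1 m'
      _ = Matrix.trace (Fintype.linearCombination R (fun i => m (g i)) c * m (g j)) := by
        rw [e1 m]; simp only [h]
      _ = Matrix.trace (m' x * m' (g j)) := by rw [hc, ← map_mul, h, map_mul]
  have hΦmul : ∀ X Y, Φ (X * Y) = Φ X * Φ Y := by
    intro X Y
    obtain ⟨c, rfl⟩ := hL.2 X
    obtain ⟨d, rfl⟩ := hL.2 Y
    simp [Fintype.linearCombination_apply, Finset.sum_mul, Finset.mul_sum, ← map_mul, hΦm]
  have hΦ1 : Φ 1 = 1 := (congrArg Φ (map_one m).symm).trans ((hΦm 1).trans (map_one m'))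
  let E : Fin 2 → Fin 2 → Matrix (Fin 2) (Fin 2) R := fun a b => Matrix.single a b 1
  obtain ⟨r, s, hrs⟩ : ∃ r s, IsUnit (Φ (E 0 0) r s) := by
    by_contra hcon
    push Not at hcon
    have hmem : ∀ r s, Φ (E 0 0) r s ∈ IsLocalRing.maximalIdeal R := hcon
    have hone : (1 : Matrix (Fin 2) (Fin 2) R) = E 0 0 + E 1 0 * E 0 0 * E 0 1 := by
      ext a b
      fin_cases a <;> fin_cases b <;> simp [E]
    have h1 := congrArg Φ hone
    rw [hΦ1, map_add, hΦmul, hΦmul] at h1
    have h2 := congrFun (congrFun h1 0) 0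
    simp only [Matrix.one_apply_eq, Matrix.add_apply, Matrix.mul_apply, Fin.sum_univ_two] at h2
    exact (IsLocalRing.maximalIdeal.isMaximal R).ne_top
      ((Ideal.eq_top_iff_one _).mpr (h2 ▸ Ideal.add_mem _ (hmem 0 0)
        (Ideal.add_mem _
          (Ideal.mul_mem_right _ _ (Ideal.add_mem _ (Ideal.mul_mem_left _ _ (hmem 0 0))
            (Ideal.mul_mem_left _ _ (hmem 1 0))))
          (Ideal.mul_mem_right _ _ (Ideal.add_mem _ (Ideal.mul_mem_left _ _ (hmem 0 1))
            (Ideal.mul_mem_left _ _ (hmem 1 1)))))))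
  let P : Matrix (Fin 2) (Fin 2) R := Matrix.of fun a c => Φ (E c 0) a s
  have hP : ∀ X, Φ X * P = P * X := by
    intro X
    ext a c
    have hXE : X * E c 0 = ∑ b, X b c • E b 0 := by
      ext i j
      fin_cases i <;> fin_cases j <;> fin_cases c <;>
        simp [E, Matrix.mul_apply, Fin.sum_univ_two, Matrix.single_apply]
    have h1 := congrFun (congrFun (congrArg Φ hXE) a) s
    rw [hΦmul, map_sum] at h1
    simp only [map_smul, Matrix.sum_apply, Matrix.smul_apply, smul_eq_mul, Matrix.mul_apply] at h1
    simpa [P, Matrix.mul_apply, mul_comm] using h1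
  refine ⟨P, ?_, fun x => by rw [← hΦm]; exact hP (m x)⟩
  by_contra hdet
  have hd : P.det ∈ IsLocalRing.maximalIdeal R := hdet
  have key : ∀ b c i j, P i b * P.adjugate c j ∈ IsLocalRing.maximalIdeal R := by
    intro b c i j
    have h1 : P * E b c * P.adjugate = P.det • Φ (E b c) := by
      rw [← hP, Matrix.mul_assoc, Matrix.mul_adjugate, Matrix.mul_smul, Matrix.mul_one]
    have h2 := congrFun (congrFun h1 i) j
    fin_cases b <;> fin_cases c <;>
    · simp [E, Matrix.mul_apply, Fin.sum_univ_two, Matrix.single_apply] at h2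
      simp only [Fin.zero_eta, Fin.mk_one, Fin.isValue]
      rw [h2]
      exact Ideal.mul_mem_right _ _ hd
  have hr : IsUnit (P r 0) := hrs
  have hadj : ∀ c j, P.adjugate c j ∈ IsLocalRing.maximalIdeal R := fun c j =>
    ((IsLocalRing.maximalIdeal.isMaximal R).isPrime.mem_or_mem (key 0 c r j)).resolve_left
      (IsLocalRing.notMem_maximalIdeal.mpr hr)
  have h00 := hadj 1 1
  have h10 := hadj 1 0
  simp [Matrix.adjugate_fin_two] at h00 h10
  fin_cases r
  · exact h00 hr
  · exact h10 hr

end Carayol

/-! ### Endomorphism form -/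

section EndForm

variable {G : Type*} [Monoid G]

/-- The matrices of a representation in a basis. -/
def matrixRep {R V : Type*} [CommRing R] [AddCommGroup V] [Module R V] (b : Basis (Fin 2) R V)
    (ρ : G →* Module.End R V) : G →* Matrix (Fin 2) (Fin 2) R :=
  (LinearMap.toMatrixAlgEquiv b).toMonoidHom.comp ρ

/-- The trace of `matrixRep` is the trace of the representation. -/
theorem trace_matrixRep {R V : Type*} [CommRing R] [AddCommGroup V] [Module R V]
    (b : Basis (Fin 2) R V) (ρ : G →* Module.End R V) (g : G) :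
    Matrix.trace (matrixRep b ρ g) = LinearMap.trace R V (ρ g) :=
  (LinearMap.trace_eq_matrix_trace R b _).symm

/-- An irreducible plane over an algebraically closed field has a trace basis. -/
theorem hasTraceBasis_of_irreducible {G : Type*} [Monoid G] {k V : Type*} [Field k]
    [IsAlgClosed k] [AddCommGroup V] [Module k V] (hV : Module.finrank k V = 2)
    (ρ : G →* Module.End k V)
    (h : ∀ U : Submodule k V, (∀ g, ∀ x ∈ U, ρ g x ∈ U) → U = ⊥ ∨ U = ⊤) :
    HasTraceBasis ρ := by
  have : Module.Finite k V := Module.finite_of_finrank_eq_succ hV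
  let b := basisTwo hV
  have hm : ∀ v : Fin 2 → k, v ≠ 0 → ∃ g, ∀ c : k, matrixRep b ρ g *ᵥ v ≠ c • v := by
    intro v hv
    by_contra hcon
    push Not at hcon
    have hrepr : ∀ g x, b.repr (ρ g x) = matrixRep b ρ g *ᵥ (b.repr x) :=
      fun g x => (LinearMap.toMatrix_mulVec_repr b b (ρ g) x).symm
    have hu : b.equivFun.symm v ≠ 0 := fun h0 =>
      hv (b.equivFun.symm.injective (h0.trans (map_zero _).symm))
    rcases h (k ∙ b.equivFun.symm v) (fun g x hx => by
      obtain ⟨a, rfl⟩ := Submodule.mem_span_singleton.mp hx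
      obtain ⟨c, hc⟩ := hcon g
      rw [map_smul]
      refine Submodule.smul_mem _ a (Submodule.mem_span_singleton.mpr ⟨c, ?_⟩)
      apply b.equivFun.injective
      rw [map_smul, LinearEquiv.apply_symm_apply, Basis.equivFun_apply, hrepr,
        ← Basis.equivFun_apply, LinearEquiv.apply_symm_apply, hc]) with h0 | h0
    · exact hu (Submodule.span_singleton_eq_bot.mp h0)
    · have := finrank_span_singleton (K := k) hu
      rw [h0, finrank_top, hV] at this
      omega
  obtain ⟨g, hg⟩ := exists_gram_isUnit _ (span_range_eq_top _ hm)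
  refine ⟨g, ?_⟩
  simpa [← map_mul, trace_matrixRep] using hg

/-- Carayol: equal traces and a trace basis give isomorphic representations. -/
theorem exists_conj_of_trace_eq {G : Type*} [Monoid G] {R V W : Type*} [CommRing R]
    [IsLocalRing R] [AddCommGroup V] [Module R V] [Module.Free R V] [Module.Finite R V]
    [AddCommGroup W] [Module R W] [Module.Free R W] [Module.Finite R W]
    (hV : Module.finrank R V = 2) (hW : Module.finrank R W = 2)
    (ρ : G →* Module.End R V) (ρ' : G →* Module.End R W) (hρ : HasTraceBasis ρ)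
    (h : ∀ g, LinearMap.trace R V (ρ g) = LinearMap.trace R W (ρ' g)) :
    ∃ e : V ≃ₗ[R] W, ∀ g x, e (ρ g x) = ρ' g (e x) := by
  obtain ⟨g, hg⟩ := hρ
  let b := basisTwo hV
  let b' := basisTwo hW
  obtain ⟨P, hP, hconj⟩ := exists_conj_matrix (matrixRep b ρ) (matrixRep b' ρ') g
    (by simpa [← map_mul, trace_matrixRep] using hg) (fun x => by simp [trace_matrixRep, h])
  let e : V ≃ₗ[R] W := LinearEquiv.ofLinearMap (Matrix.toLin b b' P) (Matrix.toLin b' b P⁻¹)
    (by rw [← Matrix.toLin_mul, Matrix.mul_nonsing_inv P hP, Matrix.toLin_one])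
    (by rw [← Matrix.toLin_mul, Matrix.nonsing_inv_mul P hP, Matrix.toLin_one])
  refine ⟨e, fun x v => ?_⟩
  have key : (Matrix.toLin b b' P).comp (ρ x) = (ρ' x).comp (Matrix.toLin b b' P) := by
    conv_lhs => rw [← Matrix.toLin_toMatrix b b (ρ x)]
    conv_rhs => rw [← Matrix.toLin_toMatrix b' b' (ρ' x)]
    rw [← Matrix.toLin_mul, ← Matrix.toLin_mul]
    exact congrArg _ (hconj x).symm
  exact LinearMap.congr_fun key v

/-- Equal characteristic polynomials give equal ones for all powers. -/
theorem charpoly_pow_eq {k V W : Type*} [CommRing k] [AddCommGroup V] [Module k V] [Module.Free k V]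
    [Module.Finite k V] [AddCommGroup W] [Module k W] [Module.Free k W] [Module.Finite k W]
    (hV : Module.finrank k V = 2) (hW : Module.finrank k W = 2)
    (f : Module.End k V) (f' : Module.End k W)
    (h : LinearMap.charpoly f = LinearMap.charpoly f') (n : ℕ) :
    LinearMap.charpoly (f ^ n) = LinearMap.charpoly (f' ^ n) := by
  cases subsingleton_or_nontrivial k
  · exact Subsingleton.elim _ _
  · exact charpoly_pow_eq_aux hV hW f f' h n

end EndForm

/-- A map scaling a line by `a` and fixing the quotient by it has determinant `a`. -/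
theorem det_eq_of_line {F V : Type*} [Field F] [AddCommGroup V] [Module F V]
    (hV : Module.finrank F V = 2) {N : Submodule F V} {T x : V}
    (hT : T ∈ N) (hT0 : T ≠ 0) (hx : x ∉ N) (f : V →ₗ[F] V) {a b : F} (hfT : f T = a • T)
    (hfx : f x = b • T + x) : LinearMap.det f = a := by
  have hli : LinearIndependent F ![T, x] := by
    rw [LinearIndependent.pair_iff' hT0]
    exact fun c hc => hx (hc ▸ N.smul_mem c hT)
  obtain ⟨B, hB⟩ : ∃ B : Module.Basis (Fin 2) F V, (B : Fin 2 → V) = ![T, x] :=
    ⟨basisOfLinearIndependentOfCardEqFinrank hli (by rw [hV, Fintype.card_fin]),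
      coe_basisOfLinearIndependentOfCardEqFinrank _ _⟩
  rw [← LinearMap.det_toMatrix B, Matrix.det_fin_two]
  have e0 : B 0 = T := by rw [hB]; rfl
  have e1 : B 1 = x := by rw [hB]; rfl
  simp only [LinearMap.toMatrix_apply, e0, e1, hfT, hfx]
  simp [← e0, ← e1]

end Fermat.Agent.Gal
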