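import Mathlib.RingTheory.Filtration
import Fermat.Prelude.Def_GaloisRep_Adic
import Fermat.Agent.Gal.Density
import Fermat.Agent.Gal.RepTwo

/-!
# Representations determined by Frobenius characteristic polynomials

By density of Frobenius and Carayol's lemma: used to compare the representations attached to
eigenforms with the torsion of elliptic curves.
-/

noncomputable section

open Module IsLocalRing

namespace Fermat.Agent.Gal

local notation "Qbar" => AlgebraicClosure ℚ

section Congr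

variable {R V : Type*} [CommRing R] [AddCommGroup V] [Module R V]

/-- A vector in `I • V` has coordinates in `I`. -/
theorem repr_mem_of_mem_smul_top {ι : Type*} (b : Basis ι R V) {I : Ideal R} {v : V}
    (hv : v ∈ I • (⊤ : Submodule R V)) (i : ι) : b.repr v i ∈ I := by
  refine Submodule.smul_induction_on hv (fun a ha w _ => ?_) fun x y hx hy => ?_
  · rw [map_smul, Finsupp.smul_apply, smul_eq_mul]
    exact I.mul_mem_right _ ha
  · rw [map_add, Finsupp.add_apply]
    exact I.add_mem hx hy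

/-- Congruent endomorphisms have congruent trace and determinant. -/
theorem trace_det_congr (b : Basis (Fin 2) R V) {I : Ideal R} {f f' : Module.End R V}
    (h : ∀ v, f v - f' v ∈ I • (⊤ : Submodule R V)) :
    LinearMap.trace R V f - LinearMap.trace R V f' ∈ I ∧
      LinearMap.det f - LinearMap.det f' ∈ I := by
  have hent : ∀ i j, (Ideal.Quotient.mk I) (LinearMap.toMatrix b b f i j) =
      (Ideal.Quotient.mk I) (LinearMap.toMatrix b b f' i j) := fun i j => by
    rw [Ideal.Quotient.eq, LinearMap.toMatrix_apply, LinearMap.toMatrix_apply, ← Finsupp.sub_apply,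
      ← map_sub]
    exact repr_mem_of_mem_smul_top b (h _) i
  rw [← Ideal.Quotient.eq, ← Ideal.Quotient.eq]
  simp only [LinearMap.trace_eq_matrix_trace R b, ← LinearMap.det_toMatrix b,
    Matrix.trace_fin_two, Matrix.det_fin_two, map_add, map_sub, map_mul, hent, and_self]

end Congr

/-- Adic representations over a Noetherian local ring with the same Frobenius characteristic
polynomials outside a finite set have the same characteristic polynomials. -/
theorem charpoly_eq_of_frobenius {R : Type} [CommRing R] [IsLocalRing R] [IsNoetherianRing R]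
    (ρ₁ ρ₂ : GaloisRepAdic R) (S : Finset ℕ)
    (h : ∀ ℓ : ℕ, ℓ.Prime → ℓ ∉ S → ∀ A : ValuationSubring Qbar, A.LiesOverPrime ℓ →
      ∀ σ : AbsGal, A.IsFrobeniusAt σ ℓ →
        LinearMap.charpoly (ρ₁.ρ σ) = LinearMap.charpoly (ρ₂.ρ σ)) (g : AbsGal) :
    LinearMap.charpoly (ρ₁.ρ g) = LinearMap.charpoly (ρ₂.ρ g) := by
  have key : ∀ n : ℕ,
      ρ₁.trace g - ρ₂.trace g ∈ maximalIdeal R ^ n ∧
        LinearMap.det (ρ₁.ρ g) - LinearMap.det (ρ₂.ρ g) ∈ maximalIdeal R ^ n := by
    intro n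
    obtain ⟨L₁, hL₁, h₁⟩ := ρ₁.isAdicContinuous n
    obtain ⟨L₂, hL₂, h₂⟩ := ρ₂.isAdicContinuous n
    obtain ⟨ℓ, hℓ, hℓS, A, hA, σ, hσ, a, -, hga, -⟩ := exists_frobenius_generates (L₁ ⊔ L₂) g S
    have hfix : ∀ x ∈ L₁ ⊔ L₂, ((σ ^ a)⁻¹ * g) x = x := fun x hx => by
      rw [AlgEquiv.mul_apply, hga x hx]
      exact (σ ^ a).symm_apply_apply x
    have hc : ∀ ρ : GaloisRepAdic R,
        (∀ τ : AbsGal, (∀ x ∈ L₁ ⊔ L₂, τ x = x) →
          ∀ v, ρ.ρ τ v - v ∈ (maximalIdeal R ^ n) • (⊤ : Submodule R ρ.V)) →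
        ρ.trace g - ρ.trace (σ ^ a) ∈ maximalIdeal R ^ n ∧
          LinearMap.det (ρ.ρ g) - LinearMap.det (ρ.ρ (σ ^ a)) ∈ maximalIdeal R ^ n := by
      intro ρ hρ
      refine trace_det_congr (basisTwo ρ.finrank_eq) fun v => ?_
      have h1 := hρ _ hfix v
      have h2 : ρ.ρ g v - ρ.ρ (σ ^ a) v = ρ.ρ (σ ^ a) (ρ.ρ ((σ ^ a)⁻¹ * g) v - v) := by
        rw [map_sub, ← Module.End.mul_apply, ← map_mul, mul_inv_cancel_left]
      rw [h2]
      exact Submodule.smul_induction_on
        (p := fun z => ρ.ρ (σ ^ a) z ∈ (maximalIdeal R ^ n) • (⊤ : Submodule R ρ.V)) h1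
        (fun r hr z _ => by rw [map_smul]; exact Submodule.smul_mem_smul hr Submodule.mem_top)
        (fun x y hx hy => by rw [map_add]; exact Submodule.add_mem _ hx hy)
    have hc₁ := hc ρ₁ fun τ hτ => h₁ τ fun x hx => hτ x (le_sup_left (a := L₁) (b := L₂) hx)
    have hc₂ := hc ρ₂ fun τ hτ => h₂ τ fun x hx => hτ x (le_sup_right (a := L₁) (b := L₂) hx)
    have hpow := charpoly_pow_eq ρ₁.finrank_eq ρ₂.finrank_eq _ _ (h ℓ hℓ hℓS A hA σ hσ) a
    rw [← map_pow, ← map_pow, charpoly_eq_iff ρ₁.finrank_eq ρ₂.finrank_eq] at hpow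
    have ht : ρ₁.trace (σ ^ a) = ρ₂.trace (σ ^ a) := hpow.1
    constructor
    · have := Ideal.sub_mem _ hc₁.1 hc₂.1
      rwa [ht, sub_sub_sub_cancel_right] at this
    · have := Ideal.sub_mem _ hc₁.2 hc₂.2
      rwa [hpow.2, sub_sub_sub_cancel_right] at this
  have hsep : ∀ r : R, (∀ n : ℕ, r ∈ maximalIdeal R ^ n) → r = 0 := fun r hr => by
    have : r ∈ ⨅ n : ℕ, maximalIdeal R ^ n := Ideal.mem_iInf.mpr hr
    rwa [Ideal.iInf_pow_eq_bot_of_isLocalRing _ (maximalIdeal.isMaximal R).ne_top,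
      Ideal.mem_bot] at this
  refine (charpoly_eq_iff ρ₁.finrank_eq ρ₂.finrank_eq _ _).mpr ⟨?_, ?_⟩
  · exact sub_eq_zero.mp (hsep _ fun n => (key n).1)
  · exact sub_eq_zero.mp (hsep _ fun n => (key n).2)

/-- Residual representations with the same Frobenius characteristic polynomials outside a
finite set have the same characteristic polynomials. -/
theorem residual_charpoly_eq_of_frobenius {k : Type} [Field k]
    (ρ₁ ρ₂ : ResidualGaloisRep k) (S : Finset ℕ)
    (h : ∀ ℓ : ℕ, ℓ.Prime → ℓ ∉ S → ∀ A : ValuationSubring Qbar, A.LiesOverPrime ℓ →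
      ∀ σ : AbsGal, A.IsFrobeniusAt σ ℓ →
        LinearMap.charpoly (ρ₁.ρ σ) = LinearMap.charpoly (ρ₂.ρ σ)) (g : AbsGal) :
    LinearMap.charpoly (ρ₁.ρ g) = LinearMap.charpoly (ρ₂.ρ g) :=
  charpoly_eq_of_frobenius (GaloisRepAdic.ofResidualGaloisRep ρ₁)
    (GaloisRepAdic.ofResidualGaloisRep ρ₂) S h g

/-- An absolutely irreducible residual representation has a trace basis. -/
theorem hasTraceBasis_of_isAbsolutelyIrreducible {k : Type} [Field k] (ρ : ResidualGaloisRep k)
    (h : ρ.IsAbsolutelyIrreducible) : HasTraceBasis ρ.ρ := by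
  refine hasTraceBasis_of_trace_map (algebraMap k (AlgebraicClosure k)) ρ.ρ
    (ρ.baseChange (AlgebraicClosure k)).ρ (fun g => ?_)
    (hasTraceBasis_of_irreducible (ρ.baseChange (AlgebraicClosure k)).finrank_eq _ h)
  exact LinearMap.trace_baseChange (ρ.ρ g) _

/-- A representation with absolutely irreducible reduction has a trace basis. -/
theorem hasTraceBasis_of_residual {R : Type} [CommRing R] [IsLocalRing R] (ρ : GaloisRepAdic R)
    (h : ρ.residual.IsAbsolutelyIrreducible) : HasTraceBasis ρ.ρ := by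
  refine hasTraceBasis_of_trace_map (IsLocalRing.residue R) ρ.ρ ρ.residual.ρ (fun g => ?_)
    (hasTraceBasis_of_isAbsolutelyIrreducible _ h)
  exact LinearMap.trace_baseChange (ρ.ρ g) _

end Fermat.Agent.Gal
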