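import Mathlib.FieldTheory.PrimitiveElement
import Fermat.Agent.Gal.FiniteLevel

/-!
# Hermite's theorem

Finitely many extensions of bounded degree are unramified outside a given finite set: the finiteness
input of the weak Mordell–Weil theorem.
-/

noncomputable section

open scoped Pointwise NumberField nonZeroDivisors
open IntermediateField

namespace Fermat.Agent.Gal

local notation "Qbar" => AlgebraicClosure ℚ

variable {ℓ : ℕ}

section Bound

variable (N : IntermediateField ℚ Qbar) [FiniteDimensional ℚ N] [IsGalois ℚ N] [NumberField N]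

omit [NumberField N] in
/-- The inverse different of a Galois field is killed, at a prime `p`, by `p ^ n` when the
degree is at most `n`. -/
theorem pow_mul_mem_of_mem_traceDual {p : ℕ} (hp : p.Prime) {n : ℕ}
    (hn : Module.finrank ℚ N ≤ n) (V : ValuationSubring Qbar) (hV : V.LiesOverPrime p) (y : N)
    (hy : y ∈ Submodule.traceDual ℤ ℚ (1 : Submodule (𝓞 N) N)) :
    ((p : Qbar) ^ n * (y : Qbar)) ∈ V := by
  by_contra hnot
  set c : N := (p : N) ^ n * y with hc
  have hcV : ((c : N) : Qbar) ∉ V := by simpa [hc] using hnot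
  have hc0 : c ≠ 0 := fun h => hcV (by rw [h]; simp)
  have hw : ((c⁻¹ : N) : Qbar) ∈ V := by
    simpa using (V.mem_or_inv_mem (c : Qbar)).resolve_left hcV
  obtain ⟨a, b, ha, hb, hbw, haw, hbV, hab⟩ :=
    exists_integral_mul_eq' hp (fun z => (intCast_mem_nonunits_iff hp hV z).mp) hw
  have hle : Algebra.adjoin ℤ {((c⁻¹ : N) : Qbar)} ≤ N.toSubalgebra.restrictScalars ℤ :=
    Algebra.adjoin_le (Set.singleton_subset_iff.mpr (c⁻¹ : N).2)
  let a' : 𝓞 N := ⟨⟨a, hle haw⟩, (isIntegral_algHom_iff (IsScalarTower.toAlgHom ℤ N Qbar)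
    (algebraMap N Qbar).injective).mp ha⟩
  let b' : 𝓞 N := ⟨⟨b, hle hbw⟩, (isIntegral_algHom_iff (IsScalarTower.toAlgHom ℤ N Qbar)
    (algebraMap N Qbar).injective).mp hb⟩
  have hab' : c⁻¹ * (b' : N) = (a' : N) := Subtype.ext (by simpa using! hab)
  have hp0 : ((p : N) ^ n) ≠ 0 := pow_ne_zero n (Nat.cast_ne_zero.mpr hp.ne_zero)
  have hy0 : y ≠ 0 := right_ne_zero_of_mul hc0
  -- the ideal of integers `z` with `z / p ^ n` in the inverse different
  let I : Ideal (𝓞 N) :=
    { carrier := {z | ∀ u : 𝓞 N, ∃ k : ℤ,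
        Algebra.trace ℚ N ((z : N) * (u : N) / (p : N) ^ n) = k}
      add_mem' := fun {z w} hz hw u => by
        obtain ⟨k, hk⟩ := hz u
        obtain ⟨l, hl⟩ := hw u
        refine ⟨k + l, ?_⟩
        push_cast
        rw [add_mul, add_div, map_add, hk, hl]
      zero_mem' := fun u => ⟨0, by simp⟩
      smul_mem' := fun r z hz u => by
        obtain ⟨k, hk⟩ := hz (r * u)
        exact ⟨k, by rw [← hk]; congr 1; push_cast [smul_eq_mul]; ring⟩ }
  have htr : ∀ u : 𝓞 N, ∃ k : ℤ, Algebra.trace ℚ N (y * (u : N)) = k := fun u => by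
    obtain ⟨k, hk⟩ := (Submodule.mem_traceDual.mp hy) (u : N) (Submodule.mem_one.mpr ⟨u, rfl⟩)
    exact ⟨k, by simpa [Algebra.traceForm_apply] using hk.symm⟩
  have hbI : b' ∈ I := fun u => by
    obtain ⟨k, hk⟩ := htr (a' * u)
    refine ⟨k, ?_⟩
    rw [← hk]
    congr 1
    push_cast
    change (b' : N) * (u : N) / (p : N) ^ n = y * ((a' : N) * (u : N))
    rw [← hab', hc]
    field_simp
  have hpI : ((p : 𝓞 N) ^ n) ∈ I := fun u => by
    obtain ⟨k, hk⟩ := IsIntegrallyClosed.isIntegral_iff.mp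
      (Algebra.isIntegral_trace (R := ℤ) (L := ℚ) (F := N) u.2)
    refine ⟨k, ?_⟩
    push_cast
    rw [mul_div_cancel_left₀ _ hp0]
    exact hk.symm.trans (eq_intCast _ k)
  have hGI : ∀ g : Gal(N/ℚ), ∀ z ∈ I, g • z ∈ I := fun g z hz u => by
    obtain ⟨k, hk⟩ := hz (g⁻¹ • u)
    refine ⟨k, ?_⟩
    rw [← hk, ← Algebra.trace_eq_of_algEquiv g ((z : N) * ((g⁻¹ • u : 𝓞 N) : N) / (p : N) ^ n)]
    congr 1
    rw [map_div₀, map_mul, map_pow, map_natCast]
    congr 2
    · exact (g.apply_symm_apply (u : N)).symm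
  have htop : I = ⊤ := by
    by_contra hI
    obtain ⟨Q, hQ, hIQ⟩ := I.exists_le_maximal hI
    have hpQ : (p : 𝓞 N) ∈ Q := hQ.isPrime.mem_of_pow_mem n (hIQ hpI)
    obtain ⟨A, hA, rfl⟩ := exists_place_of_prime hp N Q hpQ
    obtain ⟨τ, hτ⟩ := exists_smul_eq hp hV hA
    have h1 := mem_placePrime.mp (hIQ (hGI (AlgEquiv.restrictNormalHom N τ) b' hbI))
    have h2 := τ.restrictNormal_commutes N (b' : N)
    have h3 : τ b ∈ A.nonunits := by
      have h4 : ((((AlgEquiv.restrictNormalHom N τ) • b' : 𝓞 N) : N) : Qbar) = τ b := h2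
      rwa [h4] at h1
    rw [← hτ, mem_nonunits_smul_iff] at h3
    exact hbV (by simpa using! h3)
  obtain ⟨k, hk⟩ := (htop ▸ Submodule.mem_top : (1 : 𝓞 N) ∈ I) 1
  have hcast : ((1 : 𝓞 N) : N) * ((1 : 𝓞 N) : N) / (p : N) ^ n
      = algebraMap ℚ N (1 / (p : ℚ) ^ n) := by simp
  rw [hcast, Algebra.trace_algebraMap, nsmul_eq_mul, mul_one_div, div_eq_iff
    (pow_ne_zero n (Nat.cast_ne_zero.mpr hp.ne_zero))] at hk
  have hk' : (Module.finrank ℚ N : ℤ) = k * (p : ℤ) ^ n := by exact_mod_cast hk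
  have hdvd : p ^ n ∣ Module.finrank ℚ N :=
    Int.natCast_dvd_natCast.mp ⟨k, by rw [hk']; push_cast; ring⟩
  exact absurd ((Nat.le_of_dvd Module.finrank_pos hdvd).trans hn) (Nat.lt_pow_self hp.one_lt).not_ge

omit [IsGalois ℚ N] in
/-- An integer lies in the different iff it carries the inverse different into the integers. -/
theorem mem_differentIdeal_iff (z : 𝓞 N) :
    z ∈ differentIdeal ℤ (𝓞 N) ↔
      ∀ y ∈ Submodule.traceDual ℤ ℚ (1 : Submodule (𝓞 N) N), IsIntegral ℤ ((z : N) * y) := by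
  have h1 : z ∈ differentIdeal ℤ (𝓞 N) ↔
      (z : N) ∈ IsLocalization.coeSubmodule N (differentIdeal ℤ (𝓞 N)) := by
    rw [IsLocalization.mem_coeSubmodule]
    exact ⟨fun hz => ⟨z, hz, rfl⟩, fun ⟨w, hw, hwz⟩ =>
      NumberField.RingOfIntegers.coe_injective hwz ▸ hw⟩
  rw [h1, coeSubmodule_differentIdeal ℤ ℚ, Submodule.mem_div_iff_forall_mul_mem]
  refine forall₂_congr fun y _ => ?_
  rw [Submodule.mem_one]
  exact ⟨fun ⟨w, hw⟩ => hw ▸ w.2, fun hy => ⟨⟨_, hy⟩, rfl⟩⟩

/-- A product of large enough powers of the ramified primes lies in the different. -/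
theorem natCast_mem_differentIdeal {n : ℕ} (S : Finset ℕ) (hn : Module.finrank ℚ N ≤ n)
    (h : ∀ ℓ : ℕ, ℓ.Prime → ℓ ∉ S → ∀ A : ValuationSubring Qbar, A.LiesOverPrime ℓ →
        ∀ σ ∈ A.inertiaSubgroupIn ℚ, ∀ x ∈ N, σ x = x) :
    ((∏ ℓ ∈ S.filter Nat.Prime, ℓ ^ n : ℕ) : 𝓞 N) ∈ differentIdeal ℤ (𝓞 N) := by
  set M := ∏ ℓ ∈ S.filter Nat.Prime, ℓ ^ n with hM
  rw [mem_differentIdeal_iff]
  intro y hy
  have hdy := (mem_differentIdeal_iff N _).mp (NumberField.discr_mem_differentIdeal N (𝓞 N)) y hy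
  refine (isIntegral_algHom_iff (IsScalarTower.toAlgHom ℤ N Qbar)
    (algebraMap N Qbar).injective).mp (isIntegral_of_forall_mem fun V => ?_)
  have hdy' : ((NumberField.discr N : ℤ) : Qbar) * (y : Qbar) ∈ V := by
    have := mem_of_isIntegral (A := V) (hdy.map (IsScalarTower.toAlgHom ℤ N Qbar))
    simpa using! this
  have hgoal : (M : Qbar) * (y : Qbar) ∈ V := by
    by_cases hd : ((NumberField.discr N : ℤ) : Qbar) ∈ V.nonunits
    · obtain ⟨q, hq, hqd, hV⟩ :=
        exists_prime_liesOver_of_intCast_mem (NumberField.discr_ne_zero N) hd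
      have hqS : q ∈ S := by
        by_contra hqS
        exact not_dvd_discr_of_inertia_fixes hq N (h q hq hqS) hqd
      obtain ⟨m, hm⟩ : q ^ n ∣ M :=
        Finset.dvd_prod_of_mem (fun ℓ => ℓ ^ n) (Finset.mem_filter.mpr ⟨hqS, hq⟩)
      rw [hm, Nat.cast_mul, Nat.cast_pow, mul_comm ((q : Qbar) ^ n), mul_assoc]
      exact mul_mem (natCast_mem V m) (pow_mul_mem_of_mem_traceDual N hq hn V hV y hy)
    · rw [V.mem_nonunits_iff_or] at hd
      push Not at hd
      have : (M : Qbar) * (y : Qbar) = (M : Qbar) * ((NumberField.discr N : ℤ) : Qbar)⁻¹ *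
          (((NumberField.discr N : ℤ) : Qbar) * (y : Qbar)) := by
        field_simp [hd.1]
      rw [this]
      exact mul_mem (mul_mem (natCast_mem V M) hd.2) hdy'
  simpa using! hgoal

/-- The discriminant of a Galois field of degree at most `n` unramified outside `S` is bounded in
terms of `n` and `S`. -/
theorem natAbs_discr_le {n : ℕ} (S : Finset ℕ) (hn : Module.finrank ℚ N ≤ n)
    (h : ∀ ℓ : ℕ, ℓ.Prime → ℓ ∉ S → ∀ A : ValuationSubring Qbar, A.LiesOverPrime ℓ →
        ∀ σ ∈ A.inertiaSubgroupIn ℚ, ∀ x ∈ N, σ x = x) :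
    (NumberField.discr N).natAbs ≤ ((∏ ℓ ∈ S.filter Nat.Prime, ℓ ^ n) ^ n) := by
  set M := ∏ ℓ ∈ S.filter Nat.Prime, ℓ ^ n with hM
  have hM0 : M ≠ 0 := Finset.prod_ne_zero_iff.mpr fun ℓ hℓ =>
    pow_ne_zero _ (Finset.mem_filter.mp hℓ).2.ne_zero
  have hMD : (M : 𝓞 N) ∈ differentIdeal ℤ (𝓞 N) := natCast_mem_differentIdeal N S hn h
  have hdvd := Ideal.absNorm_dvd_norm_of_mem hMD
  rw [NumberField.absNorm_differentIdeal N, ← map_natCast (algebraMap ℤ (𝓞 N)),
    Algebra.norm_algebraMap] at hdvd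
  have hdvd' : ((NumberField.discr N).natAbs : ℤ) ∣ ((M ^ Module.finrank ℤ (𝓞 N) : ℕ) : ℤ) := by
    rw [Nat.cast_pow]; exact hdvd
  refine (Nat.le_of_dvd (Nat.pow_pos (Nat.pos_of_ne_zero hM0))
    (Int.natCast_dvd_natCast.mp hdvd')).trans ?_
  refine Nat.pow_le_pow_right (Nat.pos_of_ne_zero hM0) ?_
  rwa [NumberField.RingOfIntegers.rank]

end Bound

/-- The degree of a normal closure is bounded in terms of the degree. -/
theorem finrank_normalClosure_le (L : IntermediateField ℚ Qbar) [FiniteDimensional ℚ L] :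
    Module.finrank ℚ (IntermediateField.normalClosure ℚ L Qbar) ≤
      Module.finrank ℚ L ^ Module.finrank ℚ L := by
  classical
  rw [normalClosure_def]
  have key : ∀ T : Finset (L →ₐ[ℚ] Qbar),
      Module.finrank ℚ (T.sup fun f => f.fieldRange : IntermediateField ℚ Qbar) ≤
        Module.finrank ℚ L ^ T.card := by
    intro T
    induction T using Finset.induction with
    | empty => rw [Finset.sup_empty, IntermediateField.finrank_bot, Finset.card_empty, pow_zero]
    | @insert f T hf ih =>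
      rw [Finset.sup_insert, Finset.card_insert_of_notMem hf, pow_succ']
      refine (IntermediateField.finrank_sup_le _ _).trans (Nat.mul_le_mul (le_of_eq ?_) ih)
      exact ((AlgEquiv.ofInjectiveField f).toLinearEquiv.finrank_eq).symm
  have := key Finset.univ
  rw [Finset.sup_univ_eq_iSup, Finset.card_univ, AlgHom.card ℚ L Qbar] at this
  exact this

/-- A number field has finitely many subfields. -/
theorem finite_setOf_le (N : IntermediateField ℚ Qbar) [FiniteDimensional ℚ N] :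
    {L : IntermediateField ℚ Qbar | L ≤ N}.Finite := by
  have : Finite (IntermediateField ℚ N) :=
    (Field.exists_primitive_element_iff_finite_intermediateField ℚ N).mp
      ⟨inferInstance, Field.exists_primitive_element ℚ N⟩
  exact (Set.finite_range fun F : IntermediateField ℚ N => IntermediateField.lift F).subset
    fun L hL => ⟨IntermediateField.restrict hL, IntermediateField.lift_restrict hL⟩

/-- Hermite: finitely many extensions of bounded degree unramified outside a finite set. -/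
theorem finite_intermediateFields_unramified_outside (n : ℕ) (S : Finset ℕ) :
    {L : IntermediateField ℚ Qbar | FiniteDimensional ℚ L ∧ Module.finrank ℚ L ≤ n ∧
      ∀ ℓ : ℕ, ℓ.Prime → ℓ ∉ S → ∀ A : ValuationSubring Qbar, A.LiesOverPrime ℓ →
        ∀ σ ∈ A.inertiaSubgroupIn ℚ, ∀ x ∈ L, σ x = x}.Finite := by
  set m := (n + 1) ^ (n + 1) with hm
  refine Set.Finite.subset (Set.Finite.biUnion
    ((NumberField.finite_of_discr_bdd Qbar ((∏ ℓ ∈ S.filter Nat.Prime, ℓ ^ m) ^ m)).image
      Subtype.val) (t := fun N => {L | L ≤ N}) ?_) ?_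
  · rintro _ ⟨⟨N, hN⟩, -, rfl⟩
    exact finite_setOf_le N
  · rintro L ⟨hL, hLn, hLS⟩
    have : NumberField (IntermediateField.normalClosure ℚ L Qbar) :=
      @NumberField.mk _ _ inferInstance inferInstance
    have : Normal ℚ (IntermediateField.normalClosure ℚ L Qbar) := normalClosure.normal ℚ L Qbar
    have : IsGalois ℚ (IntermediateField.normalClosure ℚ L Qbar) := ⟨⟩
    have hdeg : Module.finrank ℚ (IntermediateField.normalClosure ℚ L Qbar) ≤ m :=
      (finrank_normalClosure_le L).trans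
        ((Nat.pow_le_pow_left (hLn.trans n.le_succ) _).trans
          (Nat.pow_le_pow_right n.succ_pos (hLn.trans n.le_succ)))
    have hb := natAbs_discr_le _ S hdeg fun ℓ hℓ hℓS =>
      inertia_fixes_normalClosure L (hLS ℓ hℓ hℓS)
    have hfin : FiniteDimensional ℚ (IntermediateField.normalClosure ℚ L Qbar) := inferInstance
    refine Set.mem_biUnion (x := IntermediateField.normalClosure ℚ L Qbar)
      ⟨⟨_, hfin⟩, ?_, rfl⟩ (L.le_normalClosure)
    change |NumberField.discr (IntermediateField.normalClosure ℚ L Qbar)| ≤ _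
    rw [← Int.natCast_natAbs]
    exact_mod_cast hb

end Fermat.Agent.Gal
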